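import Fermat.Agent.MazurStep.Lattice

/-!
# Pairing regular series with a basis of cusp forms

`Forms S` records the integral `q`-expansions of `g` cusp forms which stay independent after
reduction and satisfy the residue identity against the functions regular outside `q = 0`. The tails
of reduced regular functions are exactly the tails killed by the pairing.
-/

set_option autoImplicit false

noncomputable section

namespace Fermat.Agent.MazurStep

open HahnSeries AlgebraicCurve
open Fermat.Agent.Reduction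
open Fermat.Agent.Reduction.CurveRed

/-- The series `∑ a n qⁿ`. -/
def intSer (R : Type*) [Ring R] (a : ℕ → ℤ) : LaurentSeries R :=
  HahnSeries.ofPowerSeries ℤ R (PowerSeries.mk fun n => (a n : R))

theorem intSer_coeff_natCast {R : Type*} [Ring R] (a : ℕ → ℤ) (n : ℕ) :
    (intSer R a).coeff (n : ℤ) = (a n : R) := by
  rw [intSer, HahnSeries.ofPowerSeries_apply_coeff, PowerSeries.coeff_mk]

theorem intSer_coeff_of_neg {R : Type*} [Ring R] (a : ℕ → ℤ) {i : ℤ} (hi : i < 0) :
    (intSer R a).coeff i = 0 :=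
  ModularCurve.ofPowerSeries_coeff_of_neg _ hi

variable {K k : Type*} [Field K] [Field k] {A : ValuationSubring K} {π : A →+* k}
  {S : CurveRed A π} {n₀ : ℕ}

theorem red_intSer (a : ℕ → ℤ) : Red A π (intSer K a) (intSer k a) := fun i => by
  rcases lt_or_ge i 0 with hi | hi
  · refine ⟨by rw [intSer_coeff_of_neg a hi]; exact A.zero_mem, ?_⟩
    rw [intSer_coeff_of_neg (R := k) a hi]
    exact (congrArg π (Subtype.ext (intSer_coeff_of_neg a hi) :
      (⟨(intSer K a).coeff i, _⟩ : A) = 0)).trans (map_zero π)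
  · lift i to ℕ using hi
    have h : ((a i : A) : K) = (intSer K a).coeff (i : ℤ) := by
      rw [intSer_coeff_natCast]; exact map_intCast A.subtype (a i)
    refine ⟨h ▸ (a i : A).2, ?_⟩
    rw [show (⟨(intSer K a).coeff (i : ℤ), _⟩ : A) = (a i : A) from Subtype.ext h.symm,
      map_intCast, intSer_coeff_natCast]

variable (S) in
/-- Integral `q`-expansions of `g` cusp forms with independent reductions, killed against the
functions regular outside `q = 0`. -/
structure Forms where
  /-- the coefficients -/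
  coef : Fin S.g → ℕ → ℤ
  coef_zero : ∀ i, coef i 0 = 0
  indep : LinearIndependent k fun i => fun n => (coef i n : k)
  residue : ∀ (n : ℤ) (y : LaurentSeries K), y ∈ S.space (S.atPt n) →
    ∀ i, (y * intSer K (coef i)).coeff 0 = 0

variable (Φ : Forms S)

/-- The pairing of a series with a form. -/
def Forms.pair (y : LaurentSeries K) (i : Fin S.g) : K := (y * intSer K (Φ.coef i)).coeff 0

/-- The pairing of a reduced series with a reduced form. -/
def Forms.pairBar (x : LaurentSeries k) (i : Fin S.g) : k := (x * intSer k (Φ.coef i)).coeff 0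

theorem Forms.pair_zero : Φ.pair 0 = 0 := funext fun i => by simp [Forms.pair]

theorem Forms.pair_add (y z : LaurentSeries K) : Φ.pair (y + z) = Φ.pair y + Φ.pair z :=
  funext fun i => by simp [Forms.pair, add_mul]

theorem Forms.pair_sub (y z : LaurentSeries K) : Φ.pair (y - z) = Φ.pair y - Φ.pair z :=
  funext fun i => by simp [Forms.pair, sub_mul]

theorem Forms.pair_smul (c : K) (y : LaurentSeries K) : Φ.pair (c • y) = c • Φ.pair y :=
  funext fun i => by
    rw [Forms.pair, smul_eq_algebraMap_mul, mul_assoc, coeff_algebraMap_mul, Pi.smul_apply,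
      smul_eq_mul, Forms.pair]

theorem valuation_intSer_coeff_le (a : ℕ → ℤ) (i : ℤ) :
    A.valuation ((intSer K a).coeff i) ≤ 1 := by
  rcases lt_or_ge i 0 with hi | hi
  · rw [intSer_coeff_of_neg a hi, map_zero]; exact zero_le
  · lift i to ℕ using hi
    rw [intSer_coeff_natCast]
    exact (ValuationSubring.valuation_le_one_iff _ _).mpr (intCast_mem A.toSubring (a i))

/-- Only the coefficients of negative degree matter. -/
theorem Forms.valuation_pair_le {y : LaurentSeries K} {r : A.ValueGroup}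
    (h : ∀ j < 0, A.valuation (y.coeff j) ≤ r) (i : Fin S.g) :
    A.valuation (Φ.pair y i) ≤ r := by
  rw [Forms.pair, HahnSeries.coeff_mul]
  refine A.valuation.map_sum_le fun ab hab => ?_
  rw [Finset.mem_antidiagonal] at hab
  obtain ⟨-, hb, hsum⟩ := hab
  have hb0 : 0 < ab.2 := by
    by_contra hle
    rw [not_lt] at hle
    refine hb ?_
    rcases hle.lt_or_eq with hlt | he
    · exact intSer_coeff_of_neg _ hlt
    · rw [he, show (0 : ℤ) = ((0 : ℕ) : ℤ) from rfl, intSer_coeff_natCast, Φ.coef_zero,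
        Int.cast_zero]
  rw [map_mul]
  exact (mul_le_mul' (h _ (by omega)) (valuation_intSer_coeff_le _ _)).trans_eq
    (mul_one r)

theorem Forms.pair_of_poleLE {y : LaurentSeries K} (h : PoleLE 0 y) : Φ.pair y = 0 :=
  funext fun i => (A.valuation.zero_iff).mp (le_antisymm
    (Φ.valuation_pair_le (fun j hj => by rw [h j (by omega), map_zero]) i) zero_le)

theorem Forms.valuation_pair_boundedBy {y : LaurentSeries K} {r : A.ValueGroup}
    (h : BoundedBy A y r) (i : Fin S.g) : A.valuation (Φ.pair y i) ≤ r :=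
  Φ.valuation_pair_le (fun j _ => h j) i

theorem Forms.pair_mem_space {n : ℤ} {y : LaurentSeries K} (hy : y ∈ S.space (S.atPt n)) :
    Φ.pair y = 0 := funext fun i => Φ.residue n y hy i

theorem Forms.red_pair {y : LaurentSeries K} {x : LaurentSeries k} (h : Red A π y x)
    (i : Fin S.g) : ∃ hm : Φ.pair y i ∈ A, π ⟨_, hm⟩ = Φ.pairBar x i :=
  h.mul (red_intSer (π := π) (Φ.coef i)) 0

/-- Reduced regular functions pair to zero with the forms. -/
theorem Forms.pairBar_eq_zero (hgap : S.GapBound n₀) {N : ℤ} (hN : (n₀ : ℤ) ≤ N)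
    {x : LaurentSeries k} (hx : x ∈ S.regularSub N) : Φ.pairBar x = 0 := by
  rw [← hgap.redSub_eq hN] at hx
  obtain ⟨y, hy, hyx⟩ := hx
  funext i
  obtain ⟨hm, hv⟩ := Φ.red_pair hyx i
  rw [← hv, show (⟨Φ.pair y i, hm⟩ : A) = 0 from Subtype.ext (congrFun (Φ.pair_mem_space hy) i),
    map_zero]
  rfl

/-! ### Tails -/

/-- The pairing in coordinates of a tail. -/
def Forms.tailMatrix (N : ℕ) : Matrix (Fin S.g) (Fin N) k :=
  Matrix.of fun i j => (Φ.coef i ((j : ℕ) + 1) : k)

/-- The tail of a series. -/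
def tailMap (N : ℕ) : LaurentSeries k →ₗ[k] (Fin N → k) where
  toFun x j := x.coeff (-(((j : ℕ) : ℤ) + 1))
  map_add' a b := by ext j; simp
  map_smul' c a := by ext j; simp

/-- The tail matrix eventually has full rank. -/
theorem Forms.exists_rank_tailMatrix :
    ∃ N₁ : ℕ, ∀ N, N₁ ≤ N → (Φ.tailMatrix N).rank = S.g := by
  classical
  let W : ℕ → Submodule k (Fin S.g → k) := fun N =>
    LinearMap.ker (Φ.tailMatrix N).transpose.mulVecLin
  set N₁ := Function.argmin (fun N => Module.finrank k (W N)) with hN₁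
  have hmono : ∀ M N, M ≤ N → W N ≤ W M := fun M N hMN α hα => by
    refine LinearMap.mem_ker.mpr (funext fun j => ?_)
    exact congrFun (LinearMap.mem_ker.mp hα) ⟨(j : ℕ), lt_of_lt_of_le j.2 hMN⟩
  have hW : W N₁ = ⊥ := by
    refine eq_bot_iff.mpr fun α hα => ?_
    have hall : ∀ n : ℕ, ∑ i, α i * (Φ.coef i n : k) = 0 := by
      intro n
      rcases n with _ | n
      · simp [Φ.coef_zero]
      have hle : W (max N₁ (n + 1)) ≤ W N₁ := hmono _ _ (le_max_left _ _)
      have heq : W (max N₁ (n + 1)) = W N₁ :=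
        Submodule.eq_of_le_of_finrank_le hle
          (Function.argmin_le (fun N => Module.finrank k (W N)) _)
      have hα' : α ∈ W (max N₁ (n + 1)) := heq ▸ hα
      have := congrFun (LinearMap.mem_ker.mp hα')
        (⟨n, lt_of_lt_of_le (Nat.lt_succ_self n) (le_max_right _ _)⟩ : Fin (max N₁ (n + 1)))
      simp only [Matrix.mulVecLin_apply, Matrix.mulVec, dotProduct, Forms.tailMatrix,
        Matrix.transpose_apply, Matrix.of_apply, Pi.zero_apply] at this
      rw [← this]
      exact Finset.sum_congr rfl fun i _ => mul_comm _ _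
    refine (Submodule.mem_bot k).mpr (funext fun i => ?_)
    exact Fintype.linearIndependent_iff.mp Φ.indep α (funext fun n => by
      simpa [Finset.sum_apply] using hall n) i
  refine ⟨N₁, fun N hN => ?_⟩
  have hbot : W N = ⊥ := eq_bot_iff.mpr ((hmono _ _ hN).trans hW.le)
  rw [← Matrix.rank_transpose, Matrix.rank,
    LinearMap.finrank_range_of_inj (LinearMap.ker_eq_bot.mp hbot), Module.finrank_fin_fun]

theorem Forms.mulVec_tailMap {N : ℕ} {x : LaurentSeries k} (hx : PoleLE (N : ℤ) x) :
    (Φ.tailMatrix N).mulVecLin (tailMap N x) = Φ.pairBar x := by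
  classical
  funext i
  rw [Matrix.mulVecLin_apply]
  simp only [Matrix.mulVec, dotProduct, Forms.tailMatrix, Matrix.of_apply, tailMap,
    LinearMap.coe_mk, AddHom.coe_mk, Forms.pairBar]
  rw [HahnSeries.coeff_mul]
  set T := Finset.antidiagonal x.isPWO_support (intSer k (Φ.coef i)).isPWO_support (0 : ℤ)
  have hT : ∀ ab ∈ T, x.coeff ab.1 * (intSer k (Φ.coef i)).coeff ab.2 ≠ 0 →
      ∃ j : Fin N, ab = (-(((j : ℕ) : ℤ) + 1), ((j : ℕ) : ℤ) + 1) := by
    intro ab hab hne
    rw [Finset.mem_antidiagonal] at hab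
    obtain ⟨ha, hb, hsum⟩ := hab
    have hb0 : 0 < ab.2 := by
      by_contra hle
      rw [not_lt] at hle
      refine hb ?_
      rcases hle.lt_or_eq with hlt | he
      · exact intSer_coeff_of_neg _ hlt
      · rw [he, show (0 : ℤ) = ((0 : ℕ) : ℤ) from rfl, intSer_coeff_natCast, Φ.coef_zero,
          Int.cast_zero]
    have haN : -(N : ℤ) ≤ ab.1 := by
      by_contra hlt
      exact ha (hx _ (by omega))
    refine ⟨⟨(ab.2 - 1).toNat, by omega⟩, Prod.ext ?_ ?_⟩ <;> simp only <;> omega
  refine (Finset.sum_bij_ne_zero (fun j _ _ => (-(((j : ℕ) : ℤ) + 1), ((j : ℕ) : ℤ) + 1))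
    ?_ ?_ ?_ ?_)
  · intro j _ hne
    rw [Finset.mem_antidiagonal]
    refine ⟨fun h0 => hne (by rw [h0, mul_zero]), fun h0 => hne ?_, by ring⟩
    rw [show ((j : ℕ) : ℤ) + 1 = (((j : ℕ) + 1 : ℕ) : ℤ) by push_cast; ring,
      intSer_coeff_natCast] at h0
    rw [h0, zero_mul]
  · intro j₁ _ _ j₂ _ _ h
    exact Fin.ext (by have := congrArg Prod.snd h; simp only at this; omega)
  · intro ab hab hne
    obtain ⟨j, rfl⟩ := hT ab hab hne
    refine ⟨j, Finset.mem_univ _, ?_, rfl⟩
    rw [show ((j : ℕ) : ℤ) + 1 = (((j : ℕ) + 1 : ℕ) : ℤ) by push_cast; ring,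
      intSer_coeff_natCast, mul_comm] at hne
    exact hne
  · intro j _ _
    rw [show (((j : ℕ) : ℤ) + 1) = (((j : ℕ) + 1 : ℕ) : ℤ) by push_cast; ring,
      intSer_coeff_natCast, mul_comm]

/-- **The tails killed by the pairing are tails of regular functions.** -/
theorem Forms.exists_regular_tail (hgap : S.GapBound n₀) :
    ∃ N₁ : ℕ, ∀ N : ℕ, N₁ ≤ N → ∀ x : LaurentSeries k, PoleLE (N : ℤ) x → Φ.pairBar x = 0 →
      ∃ c ∈ S.regularSub (N : ℤ), PoleLE 0 (x - c) := by
  classical
  obtain ⟨N₁, hN₁⟩ := Φ.exists_rank_tailMatrix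
  refine ⟨max N₁ n₀, fun N hN x hx hpx => ?_⟩
  have hNn : (n₀ : ℤ) ≤ N := by exact_mod_cast (le_max_right N₁ n₀).trans hN
  have := hgap.finite (N : ℤ)
  set T : S.regularSub (N : ℤ) →ₗ[k] (Fin N → k) := (tailMap N).comp (Submodule.subtype _) with hT
  have hrange : LinearMap.range T ≤ LinearMap.ker (Φ.tailMatrix N).mulVecLin := by
    rintro _ ⟨c, rfl⟩
    rw [LinearMap.mem_ker, hT, LinearMap.comp_apply, Submodule.subtype_apply,
      Φ.mulVec_tailMap c.2.2]
    exact Φ.pairBar_eq_zero hgap hNn c.2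
  have hzero : ∀ y : LaurentSeries k, PoleLE (N : ℤ) y → tailMap N y = 0 → PoleLE 0 y := by
    intro y hy h0 i hi
    rcases lt_or_ge i (-(N : ℤ)) with hlt | hge
    · exact hy i hlt
    · have := congrFun h0 ⟨(-i - 1).toNat, by omega⟩
      simp only [tailMap, LinearMap.coe_mk, AddHom.coe_mk, Pi.zero_apply] at this
      rwa [show (-((((-i - 1).toNat : ℕ) : ℤ) + 1)) = i by omega] at this
  have hker : Module.finrank k (LinearMap.ker T) ≤ 1 := by
    let ev : LinearMap.ker T →ₗ[k] k :=
      { toFun := fun c => ((c : S.regularSub (N : ℤ)) : LaurentSeries k).coeff 0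
        map_add' := fun a b => by simp
        map_smul' := fun a b => by simp }
    refine (LinearMap.finrank_le_finrank_of_injective (f := ev) fun a b hab => ?_).trans_eq
      (Module.finrank_self k)
    rw [← sub_eq_zero]
    set d := a - b with hd
    have hd0 : ((d : S.regularSub (N : ℤ)) : LaurentSeries k).coeff 0 = 0 := by
      have : ev d = 0 := (LinearMap.map_sub ev a b).trans (sub_eq_zero.mpr hab)
      exact this
    have hdp : PoleLE 0 ((d : S.regularSub (N : ℤ)) : LaurentSeries k) :=
      hzero _ (d : S.regularSub (N : ℤ)).2.2 (LinearMap.mem_ker.mp d.2)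
    by_contra hne
    have hds : ((d : S.regularSub (N : ℤ)) : LaurentSeries k) ≠ 0 := fun h0 =>
      hne (Subtype.ext (Subtype.ext h0))
    have hdC : ((d : S.regularSub (N : ℤ)) : LaurentSeries k) ∈ S.Cbar :=
      hgap.mem_Cbar_iff.mpr (d : S.regularSub (N : ℤ)).2.1
    have h1 := (poleLE_iff_order hds).mp hdp
    have h2 := hgap.order_nonpos hdC hds
    exact hds (HahnSeries.coeff_order_eq_zero.mp
      (by rw [show ((d : S.regularSub (N : ℤ)) : LaurentSeries k).order = 0 by omega]; exact hd0))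
  have hdim := T.finrank_range_add_finrank_ker
  have hdim2 := (Φ.tailMatrix N).mulVecLin.finrank_range_add_finrank_ker
  have hreg := hgap.finrank_regularSub hNn
  rw [← Matrix.rank, hN₁ N ((le_max_left _ _).trans hN), Module.finrank_fin_fun] at hdim2
  have heq : LinearMap.range T = LinearMap.ker (Φ.tailMatrix N).mulVecLin :=
    Submodule.eq_of_le_of_finrank_le hrange (by omega)
  obtain ⟨c, hc⟩ : tailMap N x ∈ LinearMap.range T := by
    rw [heq, LinearMap.mem_ker, Φ.mulVec_tailMap hx, hpx]
  refine ⟨c, c.2, hzero _ ((poleLESubmodule k (N : ℤ)).sub_mem hx c.2.2) ?_⟩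
  rw [map_sub, sub_eq_zero]
  exact hc.symm

end Fermat.Agent.MazurStep
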