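import Fermat.Agent.MazurStep.Conjugate

/-!
# An Artin–Schreier obstruction

Let `Γ₁` fix `ζ` and let `U` be, modulo the maximal ideal, a root of `X ^ l - X = f₀` with `f₀`
fixed by `Γ₁`. If `σ U - U` reduces to `c` times the Kummer character of an `l`-th root `lam` of
`±l`, then `c = 0`.
-/

set_option autoImplicit false

noncomputable section

namespace Fermat.Agent.MazurStep

open Fermat.Agent.Reduction
open Fermat.Agent.Reduction.CurveRed

variable {K k : Type*} [Field K] [Field k] {A : ValuationSubring K} {π : A →+* k}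
  {S : CurveRed A π} {n₀ : ℕ}

/-- Two roots of `X ^ l - X = f` of bounded size congruent modulo the maximal ideal are equal. -/
theorem eq_of_roots {l : ℕ} (hl : l.Prime) {B : A.ValueGroup} (hB : 1 ≤ B)
    (hγB : A.valuation (l : K) * B ^ (l - 1) < 1) {a b : K} (hb : A.valuation b ≤ B)
    (hd : A.valuation (a - b) < 1) (h : a ^ l - a = b ^ l - b) : a = b := by
  by_contra hne
  obtain ⟨δ, hδ⟩ : ∃ δ, δ = a - b := ⟨_, rfl⟩
  rw [← hδ] at hd
  have hδ0 : δ ≠ 0 := hδ ▸ sub_ne_zero.mpr hne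
  have hpos : 0 < A.valuation δ := zero_lt_iff.mpr ((Valuation.ne_zero_iff _).mpr hδ0)
  have hsum : δ = δ ^ l + (l : K) *
      ∑ j ∈ Finset.Ioo 0 l, b ^ j * δ ^ (l - j) * ((l.choose j / l : ℕ) : K) := by
    have he := add_pow_prime_eq' hl b δ
    rw [show b + δ = a by rw [hδ]; ring] at he
    linear_combination he - h + hδ
  have hlt : A.valuation (δ ^ l + (l : K) *
      ∑ j ∈ Finset.Ioo 0 l, b ^ j * δ ^ (l - j) * ((l.choose j / l : ℕ) : K)) < A.valuation δ := by
    refine (A.valuation.map_add _ _).trans_lt (max_lt ?_ ?_)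
    · rw [map_pow]
      exact pow_lt_self_of_lt_one₀ hpos hd hl.one_lt
    · rw [map_mul]
      refine lt_of_le_of_lt ?_ ((mul_lt_mul_of_pos_right hγB hpos).trans_eq (one_mul _))
      rw [mul_assoc]
      refine mul_le_mul' le_rfl (A.valuation.map_sum_le fun j hj => ?_)
      rw [Finset.mem_Ioo] at hj
      rw [map_mul, map_mul, map_pow, map_pow]
      refine (mul_le_of_le_one_right' (valuation_natCast_le_one _)).trans
        (mul_le_mul' ((pow_le_pow_left' hb j).trans (pow_le_pow_right₀ hB (by omega))) ?_)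
      exact pow_le_of_le_one zero_le hd.le (by omega)
  exact lt_irrefl _ (hlt.trans_eq (congrArg A.valuation hsum))

/-- A geometric sum of `l`-th roots of unity. -/
theorem geom_sum_root {l : ℕ} {z : K} (hz : z ^ l = 1) (hne : z ≠ 1) :
    ∑ i ∈ Finset.range l, z ^ i = 0 := by
  refine (mul_eq_zero.mp ?_).resolve_right (sub_ne_zero.mpr hne)
  rw [geom_sum_mul, hz, sub_self]

namespace LocalGroup

variable {L : LocalData S n₀} {Γ : Type*} [Group Γ] (T : LocalGroup L Γ)

/-- The stabiliser of some constants. -/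
def fixing (s : Set K) : Subgroup Γ where
  carrier := {σ | ∀ a ∈ s, (T.sym σ).base a = a}
  mul_mem' := fun {σ τ} hσ hτ a ha => by rw [T.base_mul, hτ a ha, hσ a ha]
  one_mem' := fun a _ => T.base_one a
  inv_mem' := fun {σ} hσ a ha => by
    conv_lhs => rw [← hσ a ha, T.base_inv_apply]

theorem mem_fixing {s : Set K} {σ : Γ} : σ ∈ T.fixing s ↔ ∀ a ∈ s, (T.sym σ).base a = a := Iff.rfl

theorem mem_fixing_singleton {x : K} {σ : Γ} : σ ∈ T.fixing {x} ↔ (T.sym σ).base x = x := by
  simp [mem_fixing]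

section Zeta

variable {ζ : K} (hζ : IsPrimitiveRoot ζ L.l)

include hζ

/-- The index of the stabiliser of `ζ` is less than `l`. -/
theorem index_fixing_zeta : (T.fixing {ζ}).FiniteIndex ∧ (T.fixing {ζ}).index < L.l := by
  classical
  let f : Γ ⧸ T.fixing {ζ} → primitiveRoots L.l K := fun q => Quotient.liftOn' q
    (fun σ => ⟨(T.sym σ).base ζ, (mem_primitiveRoots L.prime.pos).mpr
      (hζ.map_of_injective (T.sym σ).base.injective)⟩)
    (fun σ τ h => by
      have h1 : σ⁻¹ * τ ∈ T.fixing {ζ} := QuotientGroup.leftRel_apply.mp h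
      refine Subtype.ext ?_
      show (T.sym σ).base ζ = (T.sym τ).base ζ
      conv_lhs => rw [← h1 ζ rfl, ← T.base_mul, mul_inv_cancel_left])
  have hf : Function.Injective f := by
    intro q q' h
    induction q using QuotientGroup.induction_on with
    | H σ =>
    induction q' using QuotientGroup.induction_on with
    | H τ =>
      refine QuotientGroup.eq.mpr fun a ha => ?_
      rw [Set.mem_singleton_iff] at ha
      subst ha
      have h1 : (T.sym σ).base a = (T.sym τ).base a := congrArg Subtype.val h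
      rw [T.base_mul, ← h1, T.base_inv_apply]
  have : Finite (Γ ⧸ T.fixing {ζ}) := Finite.of_injective f hf
  have hfin : (T.fixing {ζ}).FiniteIndex := Subgroup.finiteIndex_of_finite_quotient
  refine ⟨hfin, ?_⟩
  rw [Subgroup.index_eq_card]
  refine (Nat.card_le_card_of_injective f hf).trans_lt ?_
  rw [Nat.card_eq_fintype_card, Fintype.card_coe, hζ.card_primitiveRoots,
    Nat.totient_prime L.prime]
  exact Nat.sub_lt L.prime.pos one_pos

theorem valuation_pow_sub_one_le (j : ℕ) :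
    A.valuation (ζ ^ j - 1) ≤ A.valuation (ζ - 1) := by
  have hζA : A.valuation ζ ≤ 1 := by
    by_contra h
    rw [not_le] at h
    have h1 := one_lt_pow₀ h L.prime.ne_zero
    rw [← map_pow, hζ.pow_eq_one, map_one] at h1
    exact lt_irrefl _ h1
  rw [← geom_sum_mul, map_mul]
  refine mul_le_of_le_one_left' (A.valuation.map_sum_le fun i _ => ?_)
  rw [map_pow]
  exact pow_le_one' hζA i

/-- `|ζ - 1| = |Λ|`. -/
theorem valuation_zeta_sub_one : A.valuation (ζ - 1) = L.ρ := by
  have h2 := L.prime.two_le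
  have hprod : (L.l : K) = ∏ i ∈ Finset.range (L.l - 1), (1 - ζ ^ (i + 1)) := by
    have hl : L.l = L.l - 1 + 1 := by omega
    have h := IsPrimitiveRoot.prod_one_sub_pow_eq_order (n := L.l - 1) (by rwa [← hl])
    rw [h, ← Nat.cast_add_one, ← hl]
  have hval : ∀ i ∈ Finset.range (L.l - 1),
      A.valuation (1 - ζ ^ (i + 1)) = A.valuation (ζ - 1) := by
    intro i hi
    rw [Finset.mem_range] at hi
    rw [Valuation.map_sub_swap]
    refine le_antisymm (valuation_pow_sub_one_le hζ _) ?_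
    have hco : Nat.Coprime (i + 1) L.l :=
      (L.prime.coprime_iff_not_dvd.mpr (Nat.not_dvd_of_pos_of_lt i.succ_pos (by omega))).symm
    obtain ⟨j, hj⟩ : ∃ j, ζ = (ζ ^ (i + 1)) ^ j := by
      have : Fact L.l.Prime := ⟨L.prime⟩
      obtain ⟨j, hj⟩ := (hζ.pow_of_coprime (i + 1) hco).eq_pow_of_pow_eq_one
        hζ.pow_eq_one |>.imp fun j hj => hj.2
      exact ⟨j, hj.symm⟩
    conv_lhs => rw [hj]
    exact valuation_pow_sub_one_le (hζ.pow_of_coprime (i + 1) hco) _
  have h := congrArg A.valuation hprod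
  rw [map_prod, Finset.prod_congr rfl hval, Finset.prod_const, Finset.card_range] at h
  exact (pow_left_inj₀ zero_le zero_le (by omega)).mp (h.symm.trans L.ρ_pow.symm)

/-- An element fixing `ζ` fixes `Λ`. -/
theorem apply_Λ {σ : Γ} (hσ : (T.sym σ).base ζ = ζ) : (T.sym σ).base L.Λ = L.Λ := by
  have := charP_l L
  set s := T.sym σ
  have hw : (ζ - 1) / L.Λ ∈ A := L.div_mem (valuation_zeta_sub_one hζ).le
  have h1 := s.residue_eq ⟨_, hw⟩ ((s.apply_mem_iff _).mpr hw)
  have hm : s.base L.Λ / L.Λ ∈ A := L.div_mem (s.map_valuation _).le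
  set ε : K := s.base L.Λ / L.Λ with hε
  have hεpow : ε ^ (L.l - 1) = 1 := by
    rw [hε, div_pow, ← map_pow, L.Λ_pow, map_neg, map_natCast, div_self (neg_ne_zero.mpr L.ne_zero)]
  have hs0 : s.base L.Λ ≠ 0 := (map_ne_zero_iff _ s.base.injective).mpr L.Λ_ne_zero
  have hπε : π ⟨ε, hm⟩ = 1 := by
    have e1 : π ⟨_, hw⟩ ≠ 0 := by
      rw [residue_ne_zero_iff S.surj]
      show A.valuation ((ζ - 1) / L.Λ) = 1
      rw [map_div₀, valuation_zeta_sub_one hζ]
      exact div_self L.ρ_ne_zero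
    refine mul_left_cancel₀ e1 ?_
    conv_lhs => rw [← h1, ← map_mul]
    rw [mul_one]
    refine congrArg π (Subtype.ext ?_)
    show s.base ((ζ - 1) / L.Λ) * ε = (ζ - 1) / L.Λ
    rw [map_div₀, map_sub, map_one, hσ, hε, div_mul_div_cancel₀ hs0]
  refine (div_eq_one_iff_eq L.Λ_ne_zero).mp ?_
  by_contra hne
  have hsum : ∑ i ∈ Finset.range (L.l - 1), ε ^ i = 0 := geom_sum_root hεpow hne
  have h0 : ∑ i ∈ Finset.range (L.l - 1), (⟨ε, hm⟩ : A) ^ i = 0 :=
    Subtype.ext (by simpa using hsum)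
  have h2 := congrArg π h0
  simp only [map_sum, map_pow, hπε, one_pow, Finset.sum_const, Finset.card_range, nsmul_eq_mul,
    mul_one, map_zero] at h2
  have h3 := (CharP.cast_eq_zero_iff k L.l (L.l - 1)).mp h2
  have h4 := Nat.le_of_dvd (by have := L.prime.two_le; omega) h3
  have := L.prime.two_le
  omega

/-- **The obstruction**: if `σ U - U` reduces to `c` times the Kummer character, then `c = 0`. -/
theorem eq_zero_of_artinSchreier [IsAlgClosed K] {lam : K}
    (hlam : ∀ σ, (T.sym σ).base (lam ^ L.l) = lam ^ L.l)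
    (hlamv : A.valuation lam ^ L.l = L.γ) {U f₀ : K}
    (hU : A.valuation (U * L.Λ) ≤ A.valuation lam)
    (hf₀ : ∀ σ, (T.sym σ).base ζ = ζ → (T.sym σ).base f₀ = f₀)
    (hUf : A.valuation (U ^ L.l - U - f₀) < 1) (c : ℕ)
    (hsig : ∀ σ, (T.sym σ).base ζ = ζ → ∀ j : ℕ, (T.sym σ).base lam = ζ ^ j * lam →
      A.valuation ((T.sym σ).base U - U - ((c * j : ℕ) : K)) < 1) : (c : k) = 0 := by
  classical
  obtain ⟨hfin, hidx⟩ := index_fixing_zeta T hζ
  have hl2 := L.prime.two_le
  set R : A.ValueGroup := A.valuation lam with hRdef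
  have hR : IsRootLevel L R := ⟨hlamv⟩
  have hlam0 : lam ≠ 0 := fun h => hR.ne_zero (by rw [hRdef, h, map_zero])
  set d := (T.fixing {ζ}).index with hd
  have hd0 : d ≠ 0 := hfin.index_ne_zero
  have hnd : ∀ j : ℕ, 0 < j → j < L.l → ∀ e₁ e₂ : ℤ,
      (L.l : ℤ) * e₁ + d * j ≠ (L.l : ℤ) * e₂ := by
    intro j hj0 hjl e₁ e₂ he
    have h1 : (L.l : ℤ) ∣ ((d * j : ℕ) : ℤ) := ⟨e₂ - e₁, by push_cast; linear_combination he⟩
    rcases L.prime.dvd_mul.mp (Int.natCast_dvd_natCast.mp h1) with h | h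
    · exact absurd (Nat.le_of_dvd (Nat.pos_of_ne_zero hd0) h) (not_le.mpr hidx)
    · exact absurd (Nat.le_of_dvd hj0 h) (not_le.mpr hjl)
  -- the root near `U`
  obtain ⟨U', hroot, hclose⟩ : ∃ U', U' ^ L.l - U' = f₀ ∧ A.valuation (U' - U) < 1 := by
    let P : Polynomial K := Polynomial.X ^ L.l - Polynomial.X - Polynomial.C f₀
    have hmonic : P.Monic := by
      refine Polynomial.Monic.sub_of_left (Polynomial.Monic.sub_of_left
        (Polynomial.monic_X_pow L.l) ?_) ?_
      · rw [Polynomial.degree_X_pow, Polynomial.degree_X]; exact_mod_cast hl2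
      · refine Polynomial.degree_C_le.trans_lt ?_
        rw [Polynomial.degree_sub_eq_left_of_degree_lt] <;>
          rw [Polynomial.degree_X_pow] <;> [exact_mod_cast L.prime.pos; skip]
        rw [Polynomial.degree_X]; exact_mod_cast hl2
    have he : ((P.roots).map fun x => U - x).prod = U ^ L.l - U - f₀ := by
      have h := congrArg (Polynomial.eval U) ((IsAlgClosed.splits P).eq_prod_roots_of_monic hmonic)
      simp only [P, Polynomial.eval_sub, Polynomial.eval_pow, Polynomial.eval_X, Polynomial.eval_C,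
        Polynomial.eval_multiset_prod, Multiset.map_map] at h
      rw [h]
      refine congrArg Multiset.prod (Multiset.map_congr rfl fun x _ => ?_)
      simp
    obtain ⟨U', hU', hlt⟩ : ∃ x ∈ P.roots, A.valuation (U - x) < 1 := by
      by_contra hall
      push Not at hall
      have h1 : (1 : A.ValueGroup) ≤ A.valuation (((P.roots).map fun x => U - x).prod) := by
        rw [map_multiset_prod, Multiset.map_map]
        refine Multiset.one_le_prod_of_one_le fun v hv => ?_
        obtain ⟨x, hx, rfl⟩ := Multiset.mem_map.mp hv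
        exact hall x hx
      rw [he] at h1
      exact absurd hUf (not_lt.mpr h1)
    refine ⟨U', ?_, by rwa [Valuation.map_sub_swap]⟩
    have := Polynomial.isRoot_of_mem_roots hU'
    simp only [P, Polynomial.IsRoot, Polynomial.eval_sub, Polynomial.eval_pow, Polynomial.eval_X,
      Polynomial.eval_C] at this
    exact sub_eq_zero.mp this
  set B : A.ValueGroup := max (R / L.ρ) 1 with hB
  have hUB : A.valuation U' ≤ B := by
    rw [← sub_add_cancel U' U]
    refine (A.valuation.map_add _ _).trans (max_le (hclose.le.trans (le_max_right _ _)) ?_)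
    refine le_trans ?_ (le_max_left _ _)
    rw [le_div_iff₀ (zero_lt_iff.mpr L.ρ_ne_zero)]
    rwa [map_mul] at hU
  have hγB : A.valuation (L.l : K) * B ^ (L.l - 1) < 1 := by
    rcases max_choice (R / L.ρ) 1 with h | h <;> rw [hB, h]
    · show L.γ * (R / L.ρ) ^ (L.l - 1) < 1
      rw [div_pow, L.ρ_pow, mul_div_cancel₀ _ L.γ_ne_zero]
      exact pow_lt_one₀ zero_le hR.lt_one (by omega)
    · rw [one_pow, mul_one]; exact L.γ_lt_one
  have hUsub : ∀ σ, A.valuation ((T.sym σ).base U' - (T.sym σ).base U) < 1 := fun σ => by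
    rw [← map_sub, (T.sym σ).map_valuation]
    exact hclose
  have hdiff : ∀ σ, (T.sym σ).base ζ = ζ → ∀ j : ℕ, (T.sym σ).base lam = ζ ^ j * lam →
      A.valuation ((T.sym σ).base U' - U' - ((c * j : ℕ) : K)) < 1 := by
    intro σ h1 j h2
    have e1 := hsig σ h1 j h2
    have h4 := (A.valuation.map_add ((T.sym σ).base U - U - ((c * j : ℕ) : K))
      (((T.sym σ).base U' - (T.sym σ).base U) - (U' - U))).trans_lt
      (max_lt e1 ((A.valuation.map_sub _ _).trans_lt (max_lt (hUsub σ) hclose)))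
    convert h4 using 2
    ring
  set W := T.fixing {ζ, lam} with hW
  have hWmem : ∀ {σ}, σ ∈ W ↔ (T.sym σ).base ζ = ζ ∧ (T.sym σ).base lam = lam := by
    intro σ; rw [hW, mem_fixing]; simp
  have hWU : ∀ σ ∈ W, (T.sym σ).base U' = U' := by
    intro σ hσ
    obtain ⟨h1, h2⟩ := hWmem.mp hσ
    refine eq_of_roots L.prime (le_max_right _ _) hγB hUB ?_ ?_
    · have := hdiff σ h1 0 (by rw [pow_zero, one_mul, h2])
      rwa [mul_zero, Nat.cast_zero, sub_zero] at this
    · rw [hroot, ← map_pow, ← map_sub, hroot, hf₀ σ h1]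
  have hmove : ∀ σ, (T.sym σ).base ζ = ζ → ∃ j, j < L.l ∧ (T.sym σ).base lam = ζ ^ j * lam := by
    intro σ h1
    have : NeZero L.l := ⟨L.prime.ne_zero⟩
    obtain ⟨j, hj, hj'⟩ := hζ.eq_pow_of_pow_eq_one (ξ := (T.sym σ).base lam / lam) (by
      rw [div_pow, ← map_pow, hlam σ, div_self (pow_ne_zero _ hlam0)])
    exact ⟨j, hj, ((div_eq_iff hlam0).mp hj'.symm)⟩
  have hiter : ∀ σ, (T.sym σ).base ζ = ζ → ∀ j, (T.sym σ).base lam = ζ ^ j * lam →
      ∀ i : ℕ, (T.sym (σ ^ i)).base ζ = ζ ∧ (T.sym (σ ^ i)).base lam = ζ ^ (j * i) * lam := by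
    intro σ h1 j h2 i
    induction i with
    | zero => rw [pow_zero, mul_zero, pow_zero, one_mul]; exact ⟨T.base_one ζ, T.base_one lam⟩
    | succ i ih =>
      rw [pow_succ', T.base_mul, T.base_mul, ih.1, ih.2]
      refine ⟨h1, ?_⟩
      rw [map_mul, map_pow, h1, h2, ← mul_assoc, ← pow_add, Nat.mul_succ]
  have hvlam : ∀ {a : K}, a ∈ fixedField (T.symSet (T.fixing {ζ})) → a ≠ 0 → ∀ j : ℕ,
      ∃ e : ℤ, A.valuation (a * lam ^ j) ^ (d * L.l) = L.γ ^ ((L.l : ℤ) * e + d * j) := by
    intro a ha ha0 j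
    obtain ⟨e, he⟩ := T.exists_zpow (T.fixing {ζ}) (T.mem_fixedField_symSet.mp ha) ha0
    refine ⟨e, ?_⟩
    rw [map_mul, map_pow, mul_pow, pow_mul, ← hd] at *
    rw [he, ← pow_mul, show j * (d * L.l) = L.l * (d * j) by ring, pow_mul, hlamv,
      zpow_add₀ L.γ_ne_zero, ← zpow_natCast L.γ (d * j), Nat.cast_mul, ← zpow_natCast (L.γ ^ e),
      ← zpow_mul, mul_comm e]
  -- an element moving `lam` to `ζ * lam`
  obtain ⟨σ₀, hσζ, hσlam⟩ : ∃ σ₀, (T.sym σ₀).base ζ = ζ ∧ (T.sym σ₀).base lam = ζ * lam := by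
    by_cases hall : ∀ σ, (T.sym σ).base ζ = ζ → (T.sym σ).base lam = lam
    · exfalso
      obtain ⟨e, he⟩ := T.exists_zpow (T.fixing {ζ}) (a := lam)
        (fun σ hσ => hall σ (T.mem_fixing_singleton.mp hσ)) hlam0
      have h5 : L.γ ^ ((L.l : ℤ) * e) = L.γ ^ (d : ℤ) := by
        rw [mul_comm, zpow_mul, zpow_natCast, ← he, ← pow_mul, mul_comm, pow_mul, hlamv,
          zpow_natCast]
      have h6 := (zpow_right_strictAnti₀ (zero_lt_iff.mpr L.γ_ne_zero) L.γ_lt_one).injective h5
      exact hnd 1 one_pos hl2 0 e (by push_cast; linarith)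
    push Not at hall
    obtain ⟨τ, h1, h2⟩ := hall
    obtain ⟨j, hjl, hj⟩ := hmove τ h1
    have hj0 : 0 < j := Nat.pos_of_ne_zero fun h => h2 (by rw [hj, h, pow_zero, one_mul])
    obtain ⟨i, -, hi⟩ := Nat.exists_mul_mod_eq_one_of_coprime
      ((L.prime.coprime_iff_not_dvd.mpr (Nat.not_dvd_of_pos_of_lt hj0 hjl)).symm) L.prime.one_lt
    obtain ⟨e1, e2⟩ := hiter τ h1 j hj i
    refine ⟨τ ^ i, e1, e2.trans ?_⟩
    rw [← Nat.mod_add_div (j * i) L.l, hi, pow_add, pow_one, pow_mul, hζ.pow_eq_one, one_pow,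
      mul_one]
  -- decompose `w = Λ U'`
  set w : K := L.Λ * U' with hw
  have hwR : A.valuation w ≤ R := by
    rw [hw, show L.Λ * U' = U * L.Λ + L.Λ * (U' - U) by ring]
    refine (A.valuation.map_add _ _).trans (max_le hU ?_)
    rw [map_mul]
    exact (mul_le_of_le_one_right' hclose.le).trans hR.ρ_lt.le
  have hWw : ∀ τ ∈ W, (T.sym τ).base w = w := fun τ hτ => by
    rw [hw, map_mul, hWU τ hτ, apply_Λ T hζ (hWmem.mp hτ).1]
  have hit := hiter σ₀ hσζ 1 (by rw [pow_one]; exact hσlam)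
  simp only [one_mul] at hit
  have hlW : σ₀ ^ L.l ∈ W :=
    hWmem.mpr ⟨(hit _).1, by rw [(hit _).2, hζ.pow_eq_one, one_mul]⟩
  set z : K := ζ⁻¹ with hz
  set comp : ℕ → K :=
    fun j => (∑ i ∈ Finset.range L.l, (z ^ j) ^ i * (T.sym (σ₀ ^ i)).base w) / (L.l : K) with hcomp
  have hζ0 : ζ ≠ 0 := hζ.ne_zero L.prime.ne_zero
  have hzpow : ∀ j : ℕ, (z ^ j) ^ L.l = 1 := fun j => by
    rw [← pow_mul, mul_comm, pow_mul, hz, inv_pow, hζ.pow_eq_one, inv_one, one_pow]
  have hsum : ∑ j ∈ Finset.range L.l, comp j = w := by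
    simp only [hcomp, ← Finset.sum_div]
    rw [div_eq_iff L.ne_zero, Finset.sum_comm]
    simp only [← Finset.sum_mul]
    rw [Finset.sum_eq_single 0]
    · simp [T.base_one, mul_comm]
    · intro i hi hi0
      rw [Finset.mem_range] at hi
      rw [Finset.sum_congr rfl (fun j _ => by rw [← pow_mul, mul_comm, pow_mul]),
        geom_sum_root (hzpow i) ?_, zero_mul]
      rw [hz, inv_pow, ne_eq, inv_eq_one]
      exact hζ.pow_ne_one_of_pos_of_lt hi0 hi
    · intro h
      exact absurd (Finset.mem_range.mpr L.prime.pos) h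
  have heig : ∀ j, (T.sym σ₀).base (comp j) = ζ ^ j * comp j := by
    intro j
    simp only [hcomp]
    rw [map_div₀, map_natCast, map_sum, ← mul_div_assoc]
    congr 1
    set F : ℕ → K := fun i => (z ^ j) ^ i * (T.sym (σ₀ ^ i)).base w with hF
    have hper : F L.l = F 0 := by
      simp only [hF, hzpow, one_mul, pow_zero, T.base_one, hWw _ hlW]
    have h7 : ∑ i ∈ Finset.range L.l, F (i + 1) = ∑ i ∈ Finset.range L.l, F i := by
      have h8 := Finset.sum_range_succ F L.l
      rw [Finset.sum_range_succ', hper] at h8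
      exact add_right_cancel h8
    rw [← h7, Finset.mul_sum]
    refine Finset.sum_congr rfl fun i _ => ?_
    simp only [hF]
    rw [map_mul, map_pow, map_pow, hz, map_inv₀, hσζ, ← T.base_mul, ← pow_succ',
      pow_succ (ζ⁻¹ ^ j), inv_pow ζ j]
    field_simp
  have hWcomp : ∀ τ ∈ W, ∀ j, (T.sym τ).base (comp j) = comp j := by
    intro τ hτ j
    simp only [hcomp]
    rw [map_div₀, map_natCast, map_sum]
    congr 1
    refine Finset.sum_congr rfl fun i _ => ?_
    rw [map_mul, map_pow, map_pow, hz, map_inv₀, (hWmem.mp hτ).1]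
    congr 1
    have hconj : (σ₀ ^ i)⁻¹ * τ * σ₀ ^ i ∈ W := by
      refine hWmem.mpr ⟨?_, ?_⟩
      · rw [T.base_mul, T.base_mul, (hit i).1, (hWmem.mp hτ).1]
        conv_lhs => rw [← (hit i).1, T.base_inv_apply]
      · rw [T.base_mul, T.base_mul, (hit i).2, map_mul, map_pow, (hWmem.mp hτ).1, (hWmem.mp hτ).2,
          ← (hit i).2, T.base_inv_apply]
    have h9 := hWw _ hconj
    rw [T.base_mul, T.base_mul] at h9
    have h10 := congrArg (T.sym (σ₀ ^ i)).base h9
    rwa [← T.base_mul, mul_inv_cancel, T.base_one] at h10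
  have hbfix : ∀ j, comp j / lam ^ j ∈ fixedField (T.symSet (T.fixing {ζ})) := by
    intro j
    refine T.mem_fixedField_symSet.mpr fun τ hτ => ?_
    rw [T.mem_fixing_singleton] at hτ
    have hσfix : ∀ i, (T.sym (σ₀ ^ i)).base (comp j / lam ^ j) = comp j / lam ^ j := by
      intro i
      induction i with
      | zero => rw [pow_zero, T.base_one]
      | succ i ih =>
        rw [pow_succ', T.base_mul, ih, map_div₀, map_pow, heig, hσlam, mul_pow,
          mul_div_mul_left _ _ (pow_ne_zero j hζ0)]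
    obtain ⟨i, -, hi⟩ := hmove τ hτ
    have hmem : (σ₀ ^ i)⁻¹ * τ ∈ W := by
      refine hWmem.mpr ⟨?_, ?_⟩
      · rw [T.base_mul, hτ]
        conv_lhs => rw [← (hit i).1, T.base_inv_apply]
      · rw [T.base_mul, hi, ← (hit i).2, T.base_inv_apply]
    rw [← mul_inv_cancel_left (σ₀ ^ i) τ, T.base_mul,
      show (T.sym ((σ₀ ^ i)⁻¹ * τ)).base (comp j / lam ^ j) = comp j / lam ^ j by
        rw [map_div₀, map_pow, hWcomp _ hmem, (hWmem.mp hmem).2],
      hσfix i]
  -- each component is bounded by `R`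
  have hcompR : ∀ j ∈ Finset.range L.l, A.valuation (comp j) ≤ R := by
    intro j₀ hj₀
    obtain ⟨j, hj, hmax⟩ := (Finset.range L.l).exists_max_image (fun j => A.valuation (comp j))
      ⟨0, Finset.mem_range.mpr L.prime.pos⟩
    refine (hmax j₀ hj₀).trans ?_
    by_contra hgt
    rw [not_le] at hgt
    refine absurd hwR (not_le.mpr ?_)
    rw [← hsum, A.valuation.map_sum_eq_of_lt hj]
    · exact hgt
    intro i hi
    rw [Finset.mem_sdiff, Finset.mem_singleton, Finset.mem_range] at hi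
    refine lt_of_le_of_ne (hmax i (Finset.mem_range.mpr hi.1)) fun heq => ?_
    have hne : ∀ a, A.valuation (comp a) = A.valuation (comp j) → comp a / lam ^ a ≠ 0 :=
      fun a ha => div_ne_zero (fun h0 => ne_zero_of_lt hgt (by rw [← ha, h0, map_zero]))
        (pow_ne_zero _ hlam0)
    obtain ⟨e₁, he₁⟩ := hvlam (hbfix i) (hne i heq) i
    obtain ⟨e₂, he₂⟩ := hvlam (hbfix j) (hne j rfl) j
    rw [div_mul_cancel₀ _ (pow_ne_zero _ hlam0)] at he₁ he₂
    rw [heq, he₂] at he₁
    have h6 := (zpow_right_strictAnti₀ (zero_lt_iff.mpr L.γ_ne_zero) L.γ_lt_one).injective he₁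
    rw [Finset.mem_range] at hj
    rcases Nat.lt_or_gt_of_ne hi.2 with hij | hij
    · refine hnd (j - i) (by omega) (by omega) e₂ e₁ ?_
      rw [Nat.cast_sub hij.le]; linarith
    · refine hnd (i - j) (by omega) (by omega) e₁ e₂ ?_
      rw [Nat.cast_sub hij.le]; linarith
  have hsmall : A.valuation ((T.sym σ₀).base w - w) < L.ρ := by
    rw [show (T.sym σ₀).base w - w = ∑ j ∈ Finset.range L.l, (ζ ^ j - 1) * comp j by
      simp only [sub_mul, one_mul, Finset.sum_sub_distrib, ← heig, ← map_sum, hsum]]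
    refine A.valuation.map_sum_lt L.ρ_ne_zero fun j hj => ?_
    rw [map_mul]
    refine lt_of_le_of_lt (mul_le_mul' ((valuation_pow_sub_one_le hζ j).trans
      (valuation_zeta_sub_one hζ).le) (hcompR j hj)) ?_
    exact (mul_lt_mul_of_pos_left hR.lt_one (zero_lt_iff.mpr L.ρ_ne_zero)).trans_eq (mul_one _)
  have h11 : A.valuation ((T.sym σ₀).base U' - U') < 1 := by
    rw [hw, map_mul, apply_Λ T hζ hσζ, ← mul_sub, map_mul] at hsmall
    exact lt_of_mul_lt_mul_left' (hsmall.trans_eq (mul_one L.ρ).symm)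
  have h12 := hdiff σ₀ hσζ 1 (by rw [pow_one]; exact hσlam)
  rw [mul_one] at h12
  have h13 : A.valuation (((c : A) : A) : K) < 1 := by
    have := (A.valuation.map_sub ((T.sym σ₀).base U' - U')
      ((T.sym σ₀).base U' - U' - (c : K))).trans_lt (max_lt h11 h12)
    rwa [sub_sub_cancel] at this
  rw [← map_natCast π, residue_eq_zero_iff S.surj]
  exact h13

end Zeta

end LocalGroup

end Fermat.Agent.MazurStep
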