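import Fermat.Agent.MazurStep.Deepen

/-!
# Multiplication by `l`

If `num / den` represents `z` at level `r`, then `num ^ l / den ^ l` represents `l • z` at level
`max (|l| * r) (r ^ l)`, with tangent congruent to `l * t + M (t ^ l)` modulo `|l| * r ^ 2`, where
`M` expresses the coefficients of index divisible by `l` through all coefficients modulo `l`.
-/

set_option autoImplicit false
attribute [-instance] IsScalarTower.of_algHom

noncomputable section

namespace Fermat.Agent.MazurStep

open HahnSeries AlgebraicCurve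
open Fermat.Agent.Reduction
open Fermat.Agent.Reduction.CurveRed

/-- The coefficient of degree zero of a product with `intSer a`, as a finite sum. -/
theorem coeff_mul_intSer {R : Type*} [CommRing R] {a : ℕ → ℤ} (ha : a 0 = 0) {y : LaurentSeries R}
    {N : ℕ} (hy : ∀ i, i < -(N : ℤ) → y.coeff i = 0) :
    (y * intSer R a).coeff 0 =
      ∑ n ∈ Finset.range N, y.coeff (-((n : ℤ) + 1)) * (a (n + 1) : R) := by
  classical
  rw [HahnSeries.coeff_mul]
  set T := Finset.antidiagonal y.isPWO_support (intSer R a).isPWO_support (0 : ℤ)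
  symm
  refine Finset.sum_bij_ne_zero (fun j _ _ => (-((j : ℤ) + 1), (j : ℤ) + 1)) ?_ ?_ ?_ ?_
  · intro j _ hne
    rw [Finset.mem_antidiagonal]
    refine ⟨fun h0 => hne (by rw [h0, zero_mul]), fun h0 => hne ?_, by ring⟩
    rw [show (j : ℤ) + 1 = ((j + 1 : ℕ) : ℤ) by push_cast; ring, intSer_coeff_natCast] at h0
    rw [h0, mul_zero]
  · intro j₁ _ _ j₂ _ _ h
    have := congrArg Prod.snd h
    simp only at this
    omega
  · intro ab hab hne
    rw [Finset.mem_antidiagonal] at hab
    obtain ⟨ha', hb, hsum⟩ := hab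
    have hb0 : 0 < ab.2 := by
      by_contra hle
      rw [not_lt] at hle
      refine hb ?_
      rcases hle.lt_or_eq with hlt | he
      · exact intSer_coeff_of_neg _ hlt
      · rw [he, show (0 : ℤ) = ((0 : ℕ) : ℤ) from rfl, intSer_coeff_natCast, ha, Int.cast_zero]
    have haN : -(N : ℤ) ≤ ab.1 := by
      by_contra hlt
      exact ha' (hy _ (by omega))
    obtain ⟨j, hj⟩ : ∃ j : ℕ, ab.2 = (j : ℤ) + 1 := ⟨(ab.2 - 1).toNat, by omega⟩
    refine ⟨j, Finset.mem_range.mpr (by omega), ?_, Prod.ext ?_ ?_⟩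
    · have h1 : ab.1 = -((j : ℤ) + 1) := by omega
      rw [h1, hj, show (j : ℤ) + 1 = ((j + 1 : ℕ) : ℤ) by push_cast; ring,
        intSer_coeff_natCast] at hne
      convert hne using 3; push_cast; ring
    · simp only; omega
    · simp only; omega
  · intro j _ _
    rw [show (j : ℤ) + 1 = ((j + 1 : ℕ) : ℤ) by push_cast; ring, intSer_coeff_natCast]

variable {K k : Type*} [Field K] [Field k] {A : ValuationSubring K} {π : A →+* k}
  {S : CurveRed A π} {n₀ : ℕ} {z : Pic0 K S.F} {num den : S.F} {m : ℤ} {r : A.ValueGroup}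

theorem natCast_mem_valuationSubring (n : ℕ) : (n : K) ∈ A := natCast_mem A.toSubring n

theorem valuation_natCast_le_one (n : ℕ) : A.valuation (n : K) ≤ 1 :=
  (ValuationSubring.valuation_le_one_iff _ _).mpr (natCast_mem_valuationSubring n)

theorem valuation_intCast_le_one (n : ℤ) : A.valuation (n : K) ≤ 1 :=
  (ValuationSubring.valuation_le_one_iff _ _).mpr (intCast_mem A.toSubring n)

theorem boundedBy_natCast (n : ℕ) :
    BoundedBy A (n : LaurentSeries K) (A.valuation (n : K)) := fun i => by
  rw [← map_natCast (algebraMap K (LaurentSeries K)) n,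
    ModularCurve.algebraMap_laurentSeries_eq_single, HahnSeries.coeff_single]
  split_ifs
  · exact le_rfl
  · rw [map_zero]; exact zero_le

theorem boundedBy_one' : BoundedBy A (1 : LaurentSeries K) 1 := by
  have h := boundedBy_natCast (A := A) (K := K) 1
  rwa [Nat.cast_one, Nat.cast_one, map_one] at h

/-- Freshman's dream modulo `l`. -/
theorem valuation_sum_pow_sub {l : ℕ} (hl : l.Prime) {ι : Type*} (s : Finset ι) (x : ι → K)
    (hx : ∀ j ∈ s, A.valuation (x j) ≤ r) :
    A.valuation ((∑ j ∈ s, x j) ^ l - ∑ j ∈ s, (x j) ^ l) ≤ A.valuation (l : K) * r ^ l := by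
  classical
  induction s using Finset.induction with
  | empty => simp [zero_pow hl.ne_zero]
  | insert a s ha ih =>
    rw [Finset.sum_insert ha, Finset.sum_insert ha, add_pow_prime_eq' hl,
      show x a ^ l + (∑ j ∈ s, x j) ^ l + (l : K) *
        ∑ k ∈ Finset.Ioo 0 l, x a ^ k * (∑ j ∈ s, x j) ^ (l - k) * ((l.choose k / l : ℕ) : K) -
          (x a ^ l + ∑ j ∈ s, x j ^ l) =
        ((∑ j ∈ s, x j) ^ l - ∑ j ∈ s, x j ^ l) + (l : K) *
        ∑ k ∈ Finset.Ioo 0 l, x a ^ k * (∑ j ∈ s, x j) ^ (l - k) * ((l.choose k / l : ℕ) : K) by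
        ring]
    refine (A.valuation.map_add _ _).trans (max_le
      (ih fun j hj => hx j (Finset.mem_insert_of_mem hj))
      ?_)
    rw [map_mul]
    refine mul_le_mul' le_rfl (A.valuation.map_sum_le fun k hk => ?_)
    rw [map_mul, map_mul, map_pow, map_pow]
    refine (mul_le_of_le_one_right' (valuation_natCast_le_one _)).trans ?_
    have hs : A.valuation (∑ j ∈ s, x j) ≤ r :=
      A.valuation.map_sum_le fun j hj => hx j (Finset.mem_insert_of_mem hj)
    refine (mul_le_mul' (pow_le_pow_left' (hx a (Finset.mem_insert_self a s)) k)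
      (pow_le_pow_left' hs (l - k))).trans_eq ?_
    rw [← _root_.pow_add, Nat.add_sub_cancel' (Finset.mem_Ioo.mp hk).2.le]

/-- `(1 + δ) ^ l - 1 ≡ l δ + δ ^ l`. -/
theorem boundedBy_one_add_pow {l : ℕ} (hl : l.Prime) {δ : LaurentSeries K} (hδ : BoundedBy A δ r)
    (hr : r ≤ 1) :
    BoundedBy A ((1 + δ) ^ l - 1 - ((l : LaurentSeries K) * δ + δ ^ l))
      (A.valuation (l : K) * (r * r)) := by
  classical
  have hlser : BoundedBy A (l : LaurentSeries K) (A.valuation (l : K)) := fun i => by
    rw [← map_natCast (algebraMap K (LaurentSeries K)) l,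
      ModularCurve.algebraMap_laurentSeries_eq_single, HahnSeries.coeff_single]
    split_ifs
    · exact le_rfl
    · rw [map_zero]; exact zero_le
  have h1 : (1 : ℕ) ∈ Finset.Ioo 0 l := Finset.mem_Ioo.mpr ⟨one_pos, hl.one_lt⟩
  rw [add_comm (1 : LaurentSeries K) δ, add_pow_prime_eq' hl, one_pow,
    ← Finset.add_sum_erase _ _ h1]
  simp only [one_pow, mul_one, pow_one]
  rw [Nat.choose_one_right, Nat.div_self hl.pos, Nat.cast_one, mul_one,
    show δ ^ l + 1 + (l : LaurentSeries K) *
        (δ + ∑ k ∈ (Finset.Ioo 0 l).erase 1, δ ^ k * ((l.choose k / l : ℕ) : LaurentSeries K)) -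
        1 - ((l : LaurentSeries K) * δ + δ ^ l) =
      (l : LaurentSeries K) *
        ∑ k ∈ (Finset.Ioo 0 l).erase 1, δ ^ k * ((l.choose k / l : ℕ) : LaurentSeries K) by ring]
  refine hlser.mul (boundedBy_sum _ fun k hk => ?_)
  obtain ⟨hk1, hk2⟩ := Finset.mem_erase.mp hk
  rw [Finset.mem_Ioo] at hk2
  obtain ⟨j, rfl⟩ : ∃ j, k = j + 2 := ⟨k - 2, by omega⟩
  have hpow : ∀ j : ℕ, BoundedBy A (δ ^ j) 1 := by
    intro j
    induction j with
    | zero => rw [pow_zero]; exact boundedBy_one'
    | succ j ih => rw [pow_succ]; exact ((ih.mul hδ).mono (by rw [one_mul]; exact hr))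
  have hn : BoundedBy A (((l.choose (j + 2) / l : ℕ) : ℕ) : LaurentSeries K) 1 :=
    (boundedBy_natCast _).mono (valuation_natCast_le_one _)
  refine (((hpow j).mul (hδ.mul hδ)).mul hn).mono (by rw [one_mul, mul_one]) |> fun h => ?_
  convert h using 1
  ring

/-- The coefficients of an `l`-th power, rescaled. -/
theorem valuation_coeff_pow_sub_scaled {l : ℕ} (hl : l.Prime) (hlA : A.valuation (l : K) < 1)
    {y : LaurentSeries K} (hy : BoundedBy A y r) (i : ℤ) :
    A.valuation ((y ^ l).coeff i - if (l : ℤ) ∣ i then (y.coeff (i / l)) ^ l else 0) ≤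
      A.valuation (l : K) * r ^ l := by
  classical
  rcases eq_or_ne r 0 with rfl | hr
  · have hy0 : y = 0 := HahnSeries.ext (funext fun j =>
      (map_eq_zero A.valuation).mp (le_antisymm (hy j) zero_le))
    rw [hy0, zero_pow hl.ne_zero]
    simp [zero_pow hl.ne_zero]
  obtain ⟨a, ha⟩ := A.valuation_surjective r
  have ha0 : a ≠ 0 := fun h0 => hr (by rw [← ha, h0, map_zero])
  set w := a⁻¹ • y with hw
  have hw1 : BoundedBy A w 1 := (boundedBy_smul _ hy).mono (by
    rw [map_inv₀, ha, inv_mul_cancel₀ hr])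
  have hyw : y = algebraMap K (LaurentSeries K) a * w := by
    rw [hw, ← smul_eq_algebraMap_mul, smul_smul, mul_inv_cancel₀ ha0, one_smul]
  have h := valuation_coeff_pow_sub hl hlA hw1 i
  rw [hyw, mul_pow, ← map_pow, coeff_algebraMap_mul, coeff_algebraMap_mul, mul_pow]
  rw [show a ^ l * (w ^ l).coeff i - (if (l : ℤ) ∣ i then a ^ l * w.coeff (i / l) ^ l else 0) =
      a ^ l * ((w ^ l).coeff i - if (l : ℤ) ∣ i then w.coeff (i / l) ^ l else 0) by
    split_ifs <;> ring, map_mul, map_pow, ha, mul_comm (A.valuation (l : K))]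
  exact mul_le_mul' le_rfl h

variable (Φ : Forms S)

/-- `M` expresses the coefficients with index divisible by `l` modulo `l`. -/
def Forms.IsFrobMatrix (l : ℕ) (M : Matrix (Fin S.g) (Fin S.g) ℤ) : Prop :=
  ∀ i n, (l : ℤ) ∣ Φ.coef i (l * n) - ∑ j, M i j * Φ.coef j n

/-- Powers of a representative represent the multiples of the class at the same level. -/
theorem IsRep.pow (h : IsRep z num den m r) (j : ℕ) :
    IsRep (j • z) (num ^ j) (den ^ j) ((j : ℤ) * m) r := by
  induction j with
  | zero =>
    rw [zero_nsmul, pow_zero, pow_zero, Nat.cast_zero, zero_mul]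
    exact isRep_one h.lt_one
  | succ j ih =>
    rw [succ_nsmul, pow_succ, pow_succ, show ((j + 1 : ℕ) : ℤ) * m = j * m + m by push_cast; ring]
    have h2 := ih.mul h
    rwa [max_self] at h2

/-- The `l`-th power represents `l • z` at level `max (|l| * r) (r ^ l)`. -/
theorem IsRep.pow_prime (h : IsRep z num den m r) {l : ℕ} (hl : l.Prime) :
    IsRep (l • z) (num ^ l) (den ^ l) ((l : ℤ) * m) (max (A.valuation (l : K) * r) (r ^ l)) := by
  have hp := h.pow l
  have hlt : max (A.valuation (l : K) * r) (r ^ l) < 1 :=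
    max_lt ((mul_le_of_le_one_left' (valuation_natCast_le_one l)).trans_lt h.lt_one)
      (pow_lt_one₀ zero_le h.lt_one hl.ne_zero)
  refine ⟨hp.regular, hp.exact, hlt, ?_, hp.class_eq⟩
  have hden := h.exact.coe_ne_zero
  have hnum : (num : LaurentSeries K) = (1 + dev num den) * (den : LaurentSeries K) := by
    rw [one_add_dev hden, inv_mul_cancel_right₀ hden]
  rw [SubmonoidClass.coe_pow, SubmonoidClass.coe_pow, hnum, mul_pow,
    show (1 + dev num den) ^ l * (den : LaurentSeries K) ^ l - (den : LaurentSeries K) ^ l =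
      ((1 + dev num den) ^ l - 1) * (den : LaurentSeries K) ^ l by ring]
  have hδ := h.boundedBy_dev
  have hmain := boundedBy_one_add_pow hl hδ h.lt_one.le
  have hden1 : BoundedBy A ((den : LaurentSeries K) ^ l) 1 := by
    have := hp.exact.boundedBy
    rwa [SubmonoidClass.coe_pow] at this
  have hδl : BoundedBy A (dev num den ^ l) (r ^ l) := by
    have key : ∀ j : ℕ, BoundedBy A (dev num den ^ j) (r ^ j) := by
      intro j
      induction j with
      | zero => rw [pow_zero, pow_zero]; exact boundedBy_one'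
      | succ j ih => rw [pow_succ, pow_succ]; exact ih.mul hδ
    exact key l
  have hlser : BoundedBy A ((l : LaurentSeries K) * dev num den) (A.valuation (l : K) * r) := by
    rw [← map_natCast (algebraMap K (LaurentSeries K)) l]
    exact boundedBy_algebraMap_mul _ hδ
  refine (BoundedBy.mul (boundedBy_add (y := (1 + dev num den) ^ l - 1 -
      ((l : LaurentSeries K) * dev num den + dev num den ^ l))
    (z := (l : LaurentSeries K) * dev num den + dev num den ^ l)
    (hmain.mono ((mul_le_mul' le_rfl (mul_le_of_le_one_right' h.lt_one.le)).trans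
      (le_max_left _ _)))
    (boundedBy_add (hlser.mono (le_max_left _ _)) (hδl.mono (le_max_right _ _)))) hden1).mono
    (mul_one _).le |> fun h' => ?_
  convert h' using 2
  ring

/-- **The tangent of `l • z`.** -/
theorem Forms.valuation_tang_pow_prime (h : IsRep z num den m r) {l : ℕ} (hl : l.Prime)
    (hlA : A.valuation (l : K) < 1) {M : Matrix (Fin S.g) (Fin S.g) ℤ}
    (hM : Φ.IsFrobMatrix l M) (i : Fin S.g) :
    A.valuation (Φ.tang (num ^ l) (den ^ l) i -
      ((l : K) * Φ.tang num den i + ∑ j, (M i j : K) * Φ.tang num den j ^ l)) ≤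
      A.valuation (l : K) * (r * r) := by
  classical
  set δ := dev num den with hδdef
  have hδ : BoundedBy A δ r := h.boundedBy_dev
  have hden := h.exact.coe_ne_zero
  have hdev : dev (num ^ l) (den ^ l) = (1 + δ) ^ l - 1 := by
    have h2 := one_add_dev (num := num ^ l) (den := den ^ l)
      (by rw [SubmonoidClass.coe_pow]; exact pow_ne_zero l hden)
    rw [SubmonoidClass.coe_pow, SubmonoidClass.coe_pow, ← inv_pow, ← mul_pow,
      ← one_add_dev (num := num) hden] at h2
    linear_combination h2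
  -- the contribution of `δ ^ l`
  set N : ℕ := (-δ.order).toNat with hN
  have hδN : ∀ i, i < -(N : ℤ) → δ.coeff i = 0 := fun i hi =>
    HahnSeries.coeff_eq_zero_of_lt_order (by omega)
  have hδlN : ∀ i, i < -((l * N : ℕ) : ℤ) → (δ ^ l).coeff i = 0 := by
    intro i hi
    have h1 : PoleLE (N : ℤ) δ := fun j hj => hδN j (by omega)
    exact (h1.pow l) i (by push_cast at hi; omega)
  have hrl : r ^ l ≤ r * r := by
    obtain ⟨j, hj⟩ : ∃ j, l = j + 2 := ⟨l - 2, by have := hl.two_le; omega⟩
    rw [hj, _root_.pow_add, pow_two]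
    exact mul_le_of_le_one_left' (pow_le_one' h.lt_one.le j)
  have htj : ∀ j, Φ.tang num den j =
      ∑ n ∈ Finset.range N, δ.coeff (-((n : ℤ) + 1)) * (Φ.coef j (n + 1) : K) := fun j =>
    coeff_mul_intSer (Φ.coef_zero j) hδN
  have hfrob : A.valuation (Φ.pair (δ ^ l) i - ∑ j, (M i j : K) * Φ.tang num den j ^ l) ≤
      A.valuation (l : K) * r ^ l := by
    set v := A.valuation
    set B := v (l : K) * r ^ l with hB
    -- step 1: only the multiples of `l` matter
    have e1 : v (Φ.pair (δ ^ l) i -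
        ∑ n ∈ Finset.range N, δ.coeff (-((n : ℤ) + 1)) ^ l * (Φ.coef i (l * (n + 1)) : K)) ≤ B := by
      rw [Forms.pair, coeff_mul_intSer (Φ.coef_zero i) hδlN]
      set F : ℕ → K := fun j => if (l : ℤ) ∣ -((j : ℤ) + 1) then
        δ.coeff (-((j : ℤ) + 1) / l) ^ l * (Φ.coef i (j + 1) : K) else 0 with hF
      have hre : ∑ n ∈ Finset.range N, δ.coeff (-((n : ℤ) + 1)) ^ l * (Φ.coef i (l * (n + 1)) : K) =
          ∑ j ∈ Finset.range (l * N), F j := by
        have hl0 : (l : ℤ) ≠ 0 := by exact_mod_cast hl.ne_zero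
        refine Finset.sum_bij_ne_zero (fun n _ _ => l * (n + 1) - 1) ?_ ?_ ?_ ?_
        · intro n hn _
          rw [Finset.mem_range] at hn ⊢
          have h1 : l * (n + 1) ≤ l * N := Nat.mul_le_mul_left l hn
          have h2 : 0 < l * (n + 1) := Nat.mul_pos hl.pos (by omega)
          omega
        · intro n₁ _ _ n₂ _ _ he
          have h1 : 0 < l * (n₁ + 1) := Nat.mul_pos hl.pos (by omega)
          have h2 : 0 < l * (n₂ + 1) := Nat.mul_pos hl.pos (by omega)
          have h3 : l * (n₁ + 1) = l * (n₂ + 1) := by omega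
          have := mul_left_cancel₀ hl.ne_zero h3
          omega
        · intro j hj hne
          rw [Finset.mem_range] at hj
          have hd : (l : ℤ) ∣ -((j : ℤ) + 1) := by
            by_contra hd
            exact hne (by simp only [hF]; rw [if_neg hd])
          have hd' : l ∣ j + 1 := by
            rw [dvd_neg] at hd
            exact_mod_cast hd
          obtain ⟨q, hq⟩ := hd'
          rcases q with _ | n
          · simp at hq
          have hjn : j = l * (n + 1) - 1 := by omega
          refine ⟨n, Finset.mem_range.mpr ?_, ?_, hjn.symm⟩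
          · by_contra hnN
            have : l * N ≤ l * n := Nat.mul_le_mul_left l (not_lt.mp hnN)
            rw [Nat.mul_succ] at hq
            omega
          · intro h0
            refine hne ?_
            simp only [hF]
            rw [if_pos hd, hq, show -((j : ℤ) + 1) = (l : ℤ) * (-((n : ℤ) + 1)) by
              rw [show ((j : ℤ) + 1) = ((j + 1 : ℕ) : ℤ) by push_cast; ring, hq]; push_cast; ring,
              Int.mul_ediv_cancel_left _ hl0]
            exact h0
        · intro n _ _
          have h1 : 0 < l * (n + 1) := Nat.mul_pos hl.pos (by omega)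
          have h2 : l * (n + 1) - 1 + 1 = l * (n + 1) := by omega
          have h3 : -(((l * (n + 1) - 1 : ℕ) : ℤ) + 1) = (l : ℤ) * (-((n : ℤ) + 1)) := by
            rw [show (((l * (n + 1) - 1 : ℕ) : ℤ) + 1) = ((l * (n + 1) - 1 + 1 : ℕ) : ℤ) by
              push_cast; ring, h2]
            push_cast
            ring
          simp only [hF]
          rw [h3, if_pos (Dvd.intro _ rfl), Int.mul_ediv_cancel_left _ hl0, h2]
      rw [hre, ← Finset.sum_sub_distrib]
      refine A.valuation.map_sum_le fun j _ => ?_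
      simp only [hF]
      rw [show (δ ^ l).coeff (-((j : ℤ) + 1)) * (Φ.coef i (j + 1) : K) -
          (if (l : ℤ) ∣ -((j : ℤ) + 1) then
            δ.coeff (-((j : ℤ) + 1) / l) ^ l * (Φ.coef i (j + 1) : K) else 0) =
          ((δ ^ l).coeff (-((j : ℤ) + 1)) - if (l : ℤ) ∣ -((j : ℤ) + 1) then
            δ.coeff (-((j : ℤ) + 1) / l) ^ l else 0) * (Φ.coef i (j + 1) : K) by
        split_ifs <;> ring, map_mul]
      exact (mul_le_mul' (valuation_coeff_pow_sub_scaled hl hlA hδ _)
        (valuation_intCast_le_one _)).trans_eq (mul_one _)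
    -- step 2: the matrix and Fermat's little theorem
    have e2 : ∀ j, v (Φ.tang num den j ^ l -
        ∑ n ∈ Finset.range N, δ.coeff (-((n : ℤ) + 1)) ^ l * (Φ.coef j (n + 1) : K)) ≤ B := by
      intro j
      rw [htj j]
      set xs : ℕ → K := fun n => δ.coeff (-((n : ℤ) + 1)) * (Φ.coef j (n + 1) : K) with hxs
      have hxr : ∀ n ∈ Finset.range N, v (xs n) ≤ r := fun n _ => by
        rw [hxs, map_mul]
        exact (mul_le_mul' (hδ _) (valuation_intCast_le_one _)).trans_eq (mul_one r)
      rw [show (∑ n ∈ Finset.range N, xs n) ^ l -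
          ∑ n ∈ Finset.range N, δ.coeff (-((n : ℤ) + 1)) ^ l * (Φ.coef j (n + 1) : K) =
          ((∑ n ∈ Finset.range N, xs n) ^ l - ∑ n ∈ Finset.range N, xs n ^ l) +
          ∑ n ∈ Finset.range N, δ.coeff (-((n : ℤ) + 1)) ^ l *
            ((Φ.coef j (n + 1) : K) ^ l - (Φ.coef j (n + 1) : K)) by
        simp only [hxs, mul_pow, mul_sub, Finset.sum_sub_distrib]; ring]
      refine (A.valuation.map_add _ _).trans (max_le (valuation_sum_pow_sub hl _ _ hxr)
        (A.valuation.map_sum_le fun n _ => ?_))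
      have : Fact l.Prime := ⟨hl⟩
      have hdvd : (l : ℤ) ∣ Φ.coef j (n + 1) ^ l - Φ.coef j (n + 1) := by
        rw [← ZMod.intCast_zmod_eq_zero_iff_dvd, Int.cast_sub, Int.cast_pow, ZMod.pow_card,
          sub_self]
      obtain ⟨q, hq⟩ := hdvd
      rw [show (Φ.coef j (n + 1) : K) ^ l - (Φ.coef j (n + 1) : K) = (l : K) * (q : K) by
        rw [← Int.cast_pow, ← Int.cast_sub, hq, Int.cast_mul, Int.cast_natCast], map_mul, map_mul,
        map_pow, hB, mul_comm (v (l : K)) (r ^ l)]
      exact mul_le_mul' (pow_le_pow_left' (hδ _) l)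
        (mul_le_of_le_one_right' (valuation_intCast_le_one q))
    have e3 : v (∑ n ∈ Finset.range N, δ.coeff (-((n : ℤ) + 1)) ^ l * (Φ.coef i (l * (n + 1)) : K) -
        ∑ j, (M i j : K) * ∑ n ∈ Finset.range N,
          δ.coeff (-((n : ℤ) + 1)) ^ l * (Φ.coef j (n + 1) : K)) ≤ B := by
      rw [show (∑ j, (M i j : K) * ∑ n ∈ Finset.range N,
          δ.coeff (-((n : ℤ) + 1)) ^ l * (Φ.coef j (n + 1) : K)) =
          ∑ n ∈ Finset.range N, δ.coeff (-((n : ℤ) + 1)) ^ l *
            ∑ j, (M i j : K) * (Φ.coef j (n + 1) : K) by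
        simp only [Finset.mul_sum]
        rw [Finset.sum_comm]
        exact Finset.sum_congr rfl fun n _ => Finset.sum_congr rfl fun j _ => by ring,
        ← Finset.sum_sub_distrib]
      refine A.valuation.map_sum_le fun n _ => ?_
      obtain ⟨q, hq⟩ := hM i (n + 1)
      rw [← mul_sub, show (Φ.coef i (l * (n + 1)) : K) - ∑ j, (M i j : K) * (Φ.coef j (n + 1) : K) =
          (l : K) * (q : K) by
        have := congrArg (fun c : ℤ => (c : K)) hq
        push_cast at this
        exact this, map_mul, map_mul, map_pow, hB, mul_comm (v (l : K)) (r ^ l)]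
      exact mul_le_mul' (pow_le_pow_left' (hδ _) l)
        (mul_le_of_le_one_right' (valuation_intCast_le_one q))
    rw [show Φ.pair (δ ^ l) i - ∑ j, (M i j : K) * Φ.tang num den j ^ l =
        (Φ.pair (δ ^ l) i -
          ∑ n ∈ Finset.range N, δ.coeff (-((n : ℤ) + 1)) ^ l * (Φ.coef i (l * (n + 1)) : K)) +
        (∑ n ∈ Finset.range N, δ.coeff (-((n : ℤ) + 1)) ^ l * (Φ.coef i (l * (n + 1)) : K) -
          ∑ j, (M i j : K) * ∑ n ∈ Finset.range N,
            δ.coeff (-((n : ℤ) + 1)) ^ l * (Φ.coef j (n + 1) : K)) +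
        ∑ j, (M i j : K) * (∑ n ∈ Finset.range N,
          δ.coeff (-((n : ℤ) + 1)) ^ l * (Φ.coef j (n + 1) : K) - Φ.tang num den j ^ l) by
      simp only [mul_sub, Finset.sum_sub_distrib]; ring]
    refine (A.valuation.map_add _ _).trans (max_le ((A.valuation.map_add _ _).trans (max_le e1 e3))
      (A.valuation.map_sum_le fun j _ => ?_))
    rw [map_mul]
    refine (mul_le_of_le_one_left' (valuation_intCast_le_one _)).trans ?_
    rw [Valuation.map_sub_swap]
    exact e2 j
  rw [Forms.tang, hdev, show (1 + δ) ^ l - 1 = ((1 + δ) ^ l - 1 -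
    ((l : LaurentSeries K) * δ + δ ^ l)) + (l : LaurentSeries K) * δ + δ ^ l by ring,
    Φ.pair_add, Φ.pair_add, Pi.add_apply, Pi.add_apply,
    show Φ.pair ((l : LaurentSeries K) * δ) = (l : K) • Φ.pair δ by
      rw [← Φ.pair_smul, smul_eq_algebraMap_mul, map_natCast], Pi.smul_apply, smul_eq_mul,
    show Φ.pair δ i = Φ.tang num den i from rfl,
    show ∀ a b c d : K, a + b + c - (b + d) = a + (c - d) from fun a b c d => by ring]
  refine (A.valuation.map_add _ _).trans (max_le
    (Φ.valuation_pair_boundedBy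
      (show BoundedBy A _ _ from boundedBy_one_add_pow hl hδ h.lt_one.le) i)
    (hfrob.trans (mul_le_mul' le_rfl hrl)))

end Fermat.Agent.MazurStep
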