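import Fermat.Agent.MazurStep.Rational
import Fermat.Agent.MazurStep.Power

/-!
# Exact levels

Over a field of constants with discrete valuation, a representative can be deepened, keeping the
reduced pole order, until its level is as small as desired or is the valuation of a coordinate of
its tangent. If the tangent of `z` is known and `l • z` is known, the tangent satisfies a
congruence which forces its Eisenstein part to be small.
-/

set_option autoImplicit false

noncomputable section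

namespace Fermat.Agent.MazurStep

open HahnSeries AlgebraicCurve
open Fermat.Agent.Reduction
open Fermat.Agent.Reduction.CurveRed

variable {K k : Type*} [Field K] [Field k] {A : ValuationSubring K} {π : A →+* k}
  {S : CurveRed A π} {n₀ : ℕ} {z : Pic0 K S.F} {num den : S.F} {m : ℤ} {r : A.ValueGroup}
  (Φ : Forms S)

/-- The valuations of `K₀` have bounded denominators with respect to `γ`. -/
def Discrete (A : ValuationSubring K) (K₀ : Subfield K) (γ : A.ValueGroup) : Prop :=
  ∃ d : ℕ, 0 < d ∧ ∀ a ∈ K₀, a ≠ 0 → ∃ j : ℤ, A.valuation a ^ d = γ ^ j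

/-- The tangent at level `r` has valuation at most `r`. -/
theorem Forms.valuation_tang_le (h : IsRep z num den m r) (i : Fin S.g) :
    A.valuation (Φ.tang num den i) ≤ r :=
  Φ.valuation_pair_boundedBy h.boundedBy_dev i

/-- **Climbing**: the level drops below `γ ^ N` or is the valuation of a tangent coordinate. -/
theorem exists_climb (hgap : S.GapBound n₀) {H : Set (Sym S)} (hrich : Rich H)
    {γ : A.ValueGroup} (hγ0 : γ ≠ 0) (hγ1 : γ < 1) (hdisc : Discrete A (fixedField H) γ)
    (h : IsRatRep n₀ H z num den m r) (N : ℕ) :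
    ∃ (num' den' : S.F) (r' : A.ValueGroup), r' ≤ r ∧ IsRatRep n₀ H z num' den' m r' ∧
      (r' ≤ γ ^ N ∨ ∃ i, A.valuation (Φ.tang num' den' i) = r') := by
  obtain ⟨d, hd, hdisc⟩ := hdisc
  -- levels attained by coefficients, measured by the exponent of their `d`-th power
  suffices key : ∀ (c : ℕ) (num den : S.F) (r : A.ValueGroup) (j : ℤ),
      IsRatRep n₀ H z num den m r → r ^ d = γ ^ j → ((N * d : ℕ) : ℤ) - j ≤ c →
      ∃ (num' den' : S.F) (r' : A.ValueGroup), r' ≤ r ∧ IsRatRep n₀ H z num' den' m r' ∧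
        (r' ≤ γ ^ N ∨ ∃ i, A.valuation (Φ.tang num' den' i) = r') by
    obtain ⟨r', hr', hrep, hlev⟩ := h.1.exists_level
    rcases hlev with rfl | ⟨i, hi⟩
    · exact ⟨num, den, 0, hr', ⟨hrep, h.2⟩, Or.inl zero_le⟩
    rcases eq_or_ne r' 0 with rfl | hr0
    · exact ⟨num, den, 0, hr', ⟨hrep, h.2⟩, Or.inl zero_le⟩
    have hmem := mem_ratSeries.mp
      ((ratSeries (fixedField H)).sub_mem h.2.2.1 h.2.2.2) i
    obtain ⟨j, hj⟩ := hdisc _ hmem (fun h0 => hr0 (by rw [← hi, h0, map_zero]))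
    rw [hi] at hj
    obtain ⟨num', den', r'', h1, h2⟩ :=
      key (((N * d : ℕ) : ℤ) - j).toNat num den r' j ⟨hrep, h.2⟩ hj (Int.self_le_toNat _)
    exact ⟨num', den', r'', h1.trans hr', h2⟩
  intro c
  induction c with
  | zero =>
    intro num den r j h hj hc
    refine ⟨num, den, r, le_rfl, h, Or.inl ?_⟩
    refine le_of_pow_le_pow_left₀ hd.ne' zero_le ?_
    rw [hj, ← pow_mul, ← zpow_natCast γ (N * d)]
    exact (zpow_le_zpow_iff_right_of_lt_one₀ (zero_lt_iff.mpr hγ0) hγ1).mpr (by omega)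
  | succ c ih =>
    intro num den r j h hj hc
    by_cases hsmall : r ≤ γ ^ N
    · exact ⟨num, den, r, le_rfl, h, Or.inl hsmall⟩
    by_cases hex : ∃ i, A.valuation (Φ.tang num den i) = r
    · exact ⟨num, den, r, le_rfl, h, Or.inr hex⟩
    push Not at hex
    have hr0 : r ≠ 0 := fun h0 => hsmall (h0 ▸ zero_le)
    obtain ⟨num', den', r', hr', hrep, hn', hd'⟩ := h.1.deepen_mem Φ hgap (liftable_rat hrich)
      h.2.2.1 h.2.2.2 hr0 h.2.1 fun i => lt_of_le_of_ne (Φ.valuation_tang_le h.1 i) (hex i)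
    obtain ⟨r'', hr'', hrep', hlev⟩ := hrep.exists_level
    rcases eq_or_ne r'' 0 with rfl | hr''0
    · exact ⟨num', den', 0, zero_le, ⟨hrep', h.2.1, hn', hd'⟩, Or.inl zero_le⟩
    obtain ⟨i, hi⟩ := hlev.resolve_left hr''0
    have hmem := mem_ratSeries.mp ((ratSeries (fixedField H)).sub_mem hn' hd') i
    obtain ⟨j', hj'⟩ := hdisc _ hmem (fun h0 => hr''0 (by rw [← hi, h0, map_zero]))
    rw [hi] at hj'
    have hlt : j < j' := by
      rw [← zpow_lt_zpow_iff_right_of_lt_one₀ (zero_lt_iff.mpr hγ0) hγ1, ← hj, ← hj']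
      exact pow_lt_pow_left₀ (hr''.trans_lt hr') zero_le hd.ne'
    obtain ⟨num₂, den₂, r₂, h1, h2⟩ :=
      ih num' den' r'' j' ⟨hrep', h.2.1, hn', hd'⟩ hj' (by omega)
    exact ⟨num₂, den₂, r₂, h1.trans (hr''.trans hr'.le), h2⟩

/-- **The tangents of `z` and of `l • z`.** -/
theorem Forms.valuation_tang_relation (hgap : S.GapBound n₀) (h : IsRep z num den m r)
    {l : ℕ} (hl : l.Prime) (hlA : A.valuation (l : K) < 1) {M : Matrix (Fin S.g) (Fin S.g) ℤ}
    (hM : Φ.IsFrobMatrix l M) {numx denx : S.F} {mx : ℤ} {rx : A.ValueGroup}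
    (hx : IsRep (l • z) numx denx mx rx) {R : A.ValueGroup} (hR : R < 1)
    (h1 : A.valuation (l : K) * r ≤ R) (h2 : r ^ l ≤ R) (h3 : rx ≤ R) (i : Fin S.g) :
    A.valuation ((l : K) * Φ.tang num den i + ∑ j, (M i j : K) * Φ.tang num den j ^ l -
        Φ.tang numx denx i) ≤ max (A.valuation (l : K) * (r * r)) (R * R) := by
  have hp := (h.pow_prime hl).mono (max_le h1 h2) hR
  have e1 := Φ.valuation_tang_pow_prime h hl hlA hM i
  have e2 := Φ.valuation_tang_sub_le' hgap hp (hx.mono h3 hR) i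
  rw [Valuation.map_sub_swap] at e1
  refine le_trans (le_of_eq (congrArg A.valuation ?_))
    ((A.valuation.map_add ((l : K) * Φ.tang num den i +
      ∑ j, (M i j : K) * Φ.tang num den j ^ l - Φ.tang (num ^ l) (den ^ l) i)
      (Φ.tang (num ^ l) (den ^ l) i - Φ.tang numx denx i)).trans (max_le_max e1 e2))
  ring

/-- The relation for a class killed by `l`. -/
theorem Forms.valuation_tang_torsion (hgap : S.GapBound n₀) (h : IsRep z num den m r)
    {l : ℕ} (hl : l.Prime) (hlA : A.valuation (l : K) < 1) {M : Matrix (Fin S.g) (Fin S.g) ℤ}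
    (hM : Φ.IsFrobMatrix l M) (hlz : l • z = 0) {R : A.ValueGroup} (hR : R < 1)
    (h1 : A.valuation (l : K) * r ≤ R) (h2 : r ^ l ≤ R) (i : Fin S.g) :
    A.valuation ((l : K) * Φ.tang num den i + ∑ j, (M i j : K) * Φ.tang num den j ^ l) ≤
      max (A.valuation (l : K) * (r * r)) (R * R) := by
  have hx : IsRep (l • z) (1 : S.F) 1 0 R := hlz ▸ isRep_one hR
  have h0 : Φ.tang (1 : S.F) 1 i = 0 := by
    rw [Forms.tang, dev, sub_self, zero_mul, Φ.pair_of_poleLE (fun _ _ => rfl), Pi.zero_apply]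
  have := Φ.valuation_tang_relation hgap h hl hlA hM hx hR h1 h2 le_rfl i
  rwa [h0, sub_zero] at this

theorem valuation_pow_congr {l : ℕ} (hl : l.Prime) (q : ℤ) :
    A.valuation ((q : K) ^ l - (q : K)) ≤ A.valuation (l : K) := by
  have : Fact l.Prime := ⟨hl⟩
  have hdvd : (l : ℤ) ∣ q ^ l - q := by
    rw [← ZMod.intCast_zmod_eq_zero_iff_dvd, Int.cast_sub, Int.cast_pow, ZMod.pow_card, sub_self]
  obtain ⟨c, hc⟩ := hdvd
  rw [← Int.cast_pow, ← Int.cast_sub, hc, Int.cast_mul, Int.cast_natCast, map_mul]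
  exact mul_le_of_le_one_right' (valuation_intCast_le_one c)

theorem valuation_intCast_le_of_dvd {l : ℕ} {q : ℤ} (h : (l : ℤ) ∣ q) :
    A.valuation (q : K) ≤ A.valuation (l : K) := by
  obtain ⟨c, rfl⟩ := h
  rw [Int.cast_mul, Int.cast_natCast, map_mul]
  exact mul_le_of_le_one_right' (valuation_intCast_le_one c)

/-- `(∑ q_j t_j) ^ l ≡ ∑ q_j t_j ^ l`. -/
theorem valuation_intMul_pow_sub {l : ℕ} (hl : l.Prime) {ι : Type*} [Fintype ι] (q : ι → ℤ)
    {t : ι → K} (ht : ∀ j, A.valuation (t j) ≤ r) :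
    A.valuation ((∑ j, (q j : K) * t j) ^ l - ∑ j, (q j : K) * t j ^ l) ≤
      A.valuation (l : K) * r ^ l := by
  refine le_trans (le_of_eq (congrArg A.valuation ?_))
    ((A.valuation.map_add ((∑ j, (q j : K) * t j) ^ l - ∑ j, ((q j : K) * t j) ^ l)
      (∑ j, ((q j : K) ^ l - (q j : K)) * t j ^ l)).trans (max_le ?_ ?_))
  · simp only [sub_mul, mul_pow, Finset.sum_sub_distrib]
    ring
  · exact valuation_sum_pow_sub hl _ _ fun j _ => by
      rw [map_mul]
      exact (mul_le_mul' (valuation_intCast_le_one _) (ht j)).trans_eq (one_mul r)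
  · refine A.valuation.map_sum_le fun j _ => ?_
    rw [map_mul, map_pow]
    exact mul_le_mul' (valuation_pow_congr hl _) (pow_le_pow_left' (ht j) l)

/-- If `M` is invertible modulo `l` on the image of `E`, a small `M (t ^ l)` makes `E t` small. -/
theorem valuation_lt_of_frob {l : ℕ} (hl : l.Prime) (hlA : A.valuation (l : K) < 1)
    {g : ℕ} {M M' E : Matrix (Fin g) (Fin g) ℤ}
    (hM' : ∀ i j, (l : ℤ) ∣ (M' * (E * M)) i j - E i j) {t : Fin g → K} (hr : r ≠ 0)
    (ht : ∀ j, A.valuation (t j) ≤ r)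
    (hMt : ∀ i, A.valuation (∑ j, (M i j : K) * t j ^ l) < r ^ l) (i : Fin g) :
    A.valuation (∑ j, (E i j : K) * t j) < r := by
  refine lt_of_pow_lt_pow_left₀ l zero_le ?_
  rw [← map_pow]
  set N := M' * (E * M) with hN
  have e1 := valuation_intMul_pow_sub hl (fun j => E i j) ht
  have hlr : A.valuation (l : K) * r ^ l < r ^ l :=
    (mul_lt_mul_of_pos_right hlA (pow_pos (zero_lt_iff.mpr hr) l)).trans_eq (one_mul _)
  have e2 : A.valuation (∑ j, ((E i j : K) - (N i j : K)) * t j ^ l) ≤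
      A.valuation (l : K) * r ^ l := by
    refine A.valuation.map_sum_le fun j _ => ?_
    rw [map_mul, map_pow, ← Valuation.map_neg, neg_sub, ← Int.cast_sub]
    exact mul_le_mul' (valuation_intCast_le_of_dvd (hM' i j)) (pow_le_pow_left' (ht j) l)
  have e3 : A.valuation (∑ j, (N i j : K) * t j ^ l) < r ^ l := by
    have hass : ∀ j, (N i j : K) = ∑ a, ((M' * E) i a : K) * (M a j : K) := fun j => by
      rw [hN, ← Matrix.mul_assoc, Matrix.mul_apply]
      push_cast
      rfl
    simp only [hass, Finset.sum_mul]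
    rw [Finset.sum_comm]
    refine A.valuation.map_sum_lt (pow_ne_zero l hr) fun a _ => ?_
    simp only [mul_assoc]
    rw [← Finset.mul_sum, map_mul]
    exact (mul_le_of_le_one_left' (valuation_intCast_le_one _)).trans_lt (hMt a)
  refine lt_of_le_of_lt (le_of_eq (congrArg A.valuation ?_))
    ((A.valuation.map_add ((∑ j, (E i j : K) * t j) ^ l - ∑ j, (E i j : K) * t j ^ l)
      ((∑ j, ((E i j : K) - (N i j : K)) * t j ^ l) + ∑ j, (N i j : K) * t j ^ l)).trans_lt
      (max_lt (e1.trans_lt hlr) ((A.valuation.map_add _ _).trans_lt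
        (max_lt (e2.trans_lt hlr) e3))))
  simp only [sub_mul, Finset.sum_sub_distrib]
  ring

end Fermat.Agent.MazurStep
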