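import Fermat.Agent.MazurStep.LocalGroup

/-!
# Points whose translates differ by torsion

If `σ y - y` lies in the torsion piece for all `σ` and `y` reduces to zero, then, up to replacing
`y` by a point with the same translates, `y` has a representative at the level `R`, `R ^ l = |l|`,
and the tangent of a translate differs from the conjugated tangent by the tangent of the torsion
point, modulo elements of valuation less than `|Λ|`.
-/

set_option autoImplicit false

noncomputable section

namespace Fermat.Agent.MazurStep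

open HahnSeries AlgebraicCurve
open Fermat.Agent.Reduction
open Fermat.Agent.Reduction.CurveRed

variable {K k : Type*} [Field K] [Field k] {A : ValuationSubring K} {π : A →+* k}
  {S : CurveRed A π} {n₀ : ℕ}

theorem exists_lt_boundedBy {n : ℤ} {y : LaurentSeries K} (hy : y ∈ S.space (S.atPt n))
    {r : A.ValueGroup} (hr : r ≠ 0) (h : ∀ i, A.valuation (y.coeff i) < r) :
    ∃ s < r, BoundedBy A y s := by
  rcases eq_or_ne y 0 with rfl | hy0
  · exact ⟨0, zero_lt_iff.mpr hr, boundedBy_zero 0⟩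
  obtain ⟨i, -, hi⟩ := exists_max_coeff S.surj (S.normalizable_space (S.offNonpos_atPt n) y hy hy0)
  exact ⟨_, h i, hi⟩

/-- A class with a representative reduces to zero. -/
theorem IsRep.sp_eq_zero (hgap : S.GapBound n₀) {z : Pic0 K S.F} {num den : S.F} {m : ℤ}
    {r : A.ValueGroup} (h : IsRep z num den m r) : hgap.sp z = 0 := by
  obtain ⟨n, hn⟩ := h.regular
  have hE := isEff_badPart (S := S) (isEff_fdiv_add h.ne_zero hn)
  have hz : z = badHom (S := S) (badPart (S := S) (fdiv num + S.atPt n)) := by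
    rw [map_add, badPart_atPt, map_add, badHom_atPt, add_zero, ← h.class_eq]
  rw [hz, badHom_apply, badClass, hgap.sp_mk, map_sub, hgap.classHom_atPt, sub_zero]
  exact classHom_bad hgap hE (isBadDiv_badPart _)

namespace LocalGroup

variable {L : LocalData S n₀} {Γ : Type*} [Group Γ] (T : LocalGroup L Γ)

theorem act_nsmul (σ : Γ) (j : ℕ) (z : Pic0 K S.F) :
    (T.sym σ).act (j • z) = j • (T.sym σ).act z :=
  map_nsmul (DistribSMul.toAddMonoidHom (Pic0 K S.F) (T.sym σ).semi) j z

theorem act_sub (σ : Γ) (y z : Pic0 K S.F) :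
    (T.sym σ).act (y - z) = (T.sym σ).act y - (T.sym σ).act z :=
  smul_sub (T.sym σ).semi y z

theorem residue_natCast_l (L : LocalData S n₀) : (L.l : k) = 0 := by
  rw [← map_natCast π, residue_eq_zero_iff S.surj]
  simpa using L.valuation_lt

theorem charP_l (L : LocalData S n₀) : CharP k L.l := by
  obtain ⟨q, hq⟩ := CharP.exists k
  have hdvd : q ∣ L.l := (CharP.cast_eq_zero_iff k q L.l).mp (residue_natCast_l L)
  rcases (Nat.dvd_prime L.prime).mp hdvd with h | h
  · have : CharP k 1 := h ▸ hq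
    exact absurd rfl (CharP.char_ne_one k 1)
  · exact h ▸ hq

/-- The residue of `σ a / a` is one when `σ ^ l` fixes `a`. -/
theorem valuation_sub_lt {σ : Γ} {a : K} (ha : a ≠ 0)
    (hfix : (T.sym (σ ^ L.l)).base a = a) :
    A.valuation ((T.sym σ).base a - a) < A.valuation a := by
  have := charP_l L
  have : Fact L.l.Prime := ⟨L.prime⟩
  have hmem : ∀ τ, (T.sym τ).base a / a ∈ A := fun τ => by
    rw [← ValuationSubring.valuation_le_one_iff, map_div₀, (T.sym τ).map_valuation,
      div_self ((Valuation.ne_zero_iff _).mpr ha)]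
  set ε : k := π ⟨_, hmem σ⟩ with hε
  have hpow : ∀ i : ℕ, π ⟨_, hmem (σ ^ i)⟩ = ε ^ i := by
    intro i
    induction i with
    | zero =>
      rw [pow_zero, pow_zero, ← map_one π]
      exact congrArg π (Subtype.ext (by simp [T.base_one, div_self ha]))
    | succ i ih =>
      have hm : (T.sym σ).base ((T.sym (σ ^ i)).base a / a) ∈ A :=
        ((T.sym σ).apply_mem_iff _).mpr (hmem (σ ^ i))
      rw [pow_succ ε, ← ih, hε, ← (T.sym σ).residue_eq ⟨_, hmem (σ ^ i)⟩ hm, ← map_mul]
      refine congrArg π (Subtype.ext ?_)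
      show (T.sym (σ ^ (i + 1))).base a / a =
        (T.sym σ).base ((T.sym (σ ^ i)).base a / a) * ((T.sym σ).base a / a)
      rw [pow_succ', T.base_mul, map_div₀,
        div_mul_div_cancel₀ ((map_ne_zero_iff _ (T.sym σ).base.injective).mpr ha)]
  have h1 : ε ^ L.l = 1 := by
    rw [← hpow L.l, ← map_one π]
    exact congrArg π (Subtype.ext (by simp [hfix, div_self ha]))
  have hε1 : ε = 1 := by
    have h2 : (ε - 1) ^ L.l = 0 := by rw [sub_pow_char, h1, one_pow, sub_self]
    exact sub_eq_zero.mp (eq_zero_of_pow_eq_zero h2)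
  have h3 : π (⟨_, hmem σ⟩ - 1) = 0 := by rw [map_sub, map_one, ← hε, hε1, sub_self]
  rw [residue_eq_zero_iff S.surj] at h3
  change A.valuation ((T.sym σ).base a / a - 1) < 1 at h3
  rwa [← div_self ha, ← sub_div, map_div₀,
    div_lt_one₀ (zero_lt_iff.mpr ((Valuation.ne_zero_iff _).mpr ha))] at h3

/-- The `l`-th root level. -/
structure IsRootLevel (L : LocalData S n₀) (R : A.ValueGroup) : Prop where
  pow_eq : R ^ L.l = L.γ

section RootLevel

variable {R : A.ValueGroup} (hR : IsRootLevel L R)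

include hR

theorem IsRootLevel.ne_zero : R ≠ 0 := fun h => L.γ_ne_zero (by
  rw [← hR.pow_eq, h, zero_pow L.prime.ne_zero])

theorem IsRootLevel.lt_one : R < 1 := by
  by_contra h
  rw [not_lt] at h
  exact (L.γ_lt_one.trans_le (one_le_pow₀ h)).ne hR.pow_eq.symm

theorem IsRootLevel.γ_le : L.γ ≤ R := by
  rw [← hR.pow_eq]
  exact pow_le_of_le_one zero_le hR.lt_one.le L.prime.ne_zero

theorem IsRootLevel.ρ_lt : L.ρ < R := by
  by_contra h
  rw [not_lt] at h
  have h1 : R ^ L.l ≤ L.ρ ^ L.l := pow_le_pow_left₀ zero_le h _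
  rw [hR.pow_eq, L.ρ_pow_prime] at h1
  exact absurd h1 (not_le.mpr ((mul_lt_mul_of_pos_left L.ρ_lt_one
    (zero_lt_iff.mpr L.γ_ne_zero)).trans_eq (mul_one _)))

theorem IsRootLevel.sq_le : R * R ≤ L.ρ := by
  refine le_of_pow_le_pow_left₀ (n := L.l - 1) (by have := L.prime.two_le; omega) zero_le ?_
  rw [L.ρ_pow, ← hR.pow_eq, ← pow_two, ← pow_mul]
  exact pow_le_pow_right_of_le_one' hR.lt_one.le (by have := L.prime.two_le; omega)

theorem IsRootLevel.γR_le : L.γ * R ≤ L.γ := mul_le_of_le_one_right' hR.lt_one.le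

end RootLevel

variable {op : Pic0 K S.F →+ Pic0 K S.F} {G : AddSubgroup (Pic0 K S.F)}

/-- **A point with the given translates, at the level `R`.** -/
theorem exists_rep_root (hG : T.IsPiece op G)
    (hopc : ∀ σ z, op ((T.sym σ).act z) = (T.sym σ).act (op z))
    {R : A.ValueGroup} (hR : IsRootLevel L R) (H : Subgroup Γ) [H.FiniteIndex]
    {y : Pic0 K S.F} (hy : L.gap.sp y = 0) (hyH : ∀ σ ∈ H, (T.sym σ).act y = y)
    (hyG : ∀ σ, (T.sym σ).act y - y ∈ G) :
    ∃ (y' : Pic0 K S.F) (num den : S.F) (m : ℤ),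
      (∀ σ, (T.sym σ).act y' - y' = (T.sym σ).act y - y) ∧
      IsRatRep n₀ (T.symSet H) y' num den m R ∧
      (∀ i, A.valuation (L.Φ.tang num den i) ≤ R) ∧
      ∃ t' : Fin S.g → K, (∀ i, A.valuation (t' i) ≤ R) ∧ ∀ i, A.valuation
        (L.Φ.tang num den i - ∑ j, (L.E i j : K) * t' j) ≤ R * R := by
  classical
  have hgood := T.good H
  set z : Γ → Pic0 K S.F := fun σ => (T.sym σ).act y - y with hz
  -- operators keep the translates
  have hop : ∀ y', (∀ σ, (T.sym σ).act y' - y' = z σ) →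
      ∀ σ, (T.sym σ).act (op y') - op y' = z σ := fun y' h σ => by
    rw [← hopc, ← map_sub, h σ, hG.fixed _ (hyG σ)]
  have hHfix : ∀ y', (∀ σ, (T.sym σ).act y' - y' = z σ) →
      ∀ s ∈ T.symSet H, s.act y' = y' := by
    rintro y' h _ ⟨σ, hσ, rfl⟩
    exact sub_eq_zero.mp ((h σ).trans (sub_eq_zero.mpr (hyH σ hσ)))
  obtain ⟨d, hd, hdisc⟩ := hgood.disc
  -- it suffices to reach level `R`
  suffices main : ∃ (y' : Pic0 K S.F) (num den : S.F) (m : ℤ),
      (∀ σ, (T.sym σ).act y' - y' = z σ) ∧ IsRatRep n₀ (T.symSet H) y' num den m R by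
    obtain ⟨y', num, den, m, hy', hrep⟩ := main
    obtain ⟨num₂, den₂, m₂, hrep₂, hmat⟩ := hG.tracks _ y' num den m R hrep
    exact ⟨op y', num₂, den₂, m₂, hop y' hy', hrep₂, L.Φ.valuation_tang_le hrep₂.1,
      L.Φ.tang num den, L.Φ.valuation_tang_le hrep.1, hmat⟩
  have key : ∀ (c : ℕ) (y' : Pic0 K S.F) (num den : S.F) (m : ℤ) (r : A.ValueGroup) (e : ℤ),
      (∀ σ, (T.sym σ).act y' - y' = z σ) → IsRatRep n₀ (T.symSet H) y' num den m r →
      r ^ d = L.γ ^ e → (d : ℤ) - e ≤ c →
      ∃ (y' : Pic0 K S.F) (num den : S.F) (m : ℤ),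
        (∀ σ, (T.sym σ).act y' - y' = z σ) ∧ IsRatRep n₀ (T.symSet H) y' num den m R := by
    intro c
    induction c with
    | zero =>
      intro y' num den m r e hy' hrep he hc
      refine ⟨y', num, den, m, hy', hrep.mono (le_trans ?_ hR.γ_le) hR.lt_one⟩
      refine le_of_pow_le_pow_left₀ hd.ne' zero_le ?_
      rw [he, ← zpow_natCast L.γ d]
      exact (zpow_le_zpow_iff_right_of_lt_one₀ (zero_lt_iff.mpr L.γ_ne_zero) L.γ_lt_one).mpr
        (by omega)
    | succ c ih =>
      intro y' num den m r e hy' hrep he hc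
      obtain ⟨num', den', r', hr', hrep', hlev⟩ :=
        exists_climb L.Φ L.gap hgood.rich L.γ_ne_zero L.γ_lt_one hgood.disc hrep 1
      rcases hlev with hle | ⟨i, hi⟩
      · exact ⟨y', num', den', m, hy',
          hrep'.mono (hle.trans ((pow_one L.γ).le.trans hR.γ_le)) hR.lt_one⟩
      by_cases hle : r' ≤ R
      · exact ⟨y', num', den', m, hy', hrep'.mono hle hR.lt_one⟩
      rw [not_le] at hle
      have hr0 : r' ≠ 0 := ne_zero_of_lt hle
      have hr1 := hrep'.1.lt_one
      have hγl : L.γ < r' ^ L.l := hR.pow_eq ▸ pow_lt_pow_left₀ hle zero_le L.prime.ne_zero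
      have hB : r' ^ L.l < 1 := pow_lt_one₀ zero_le hr1 L.prime.ne_zero
      have hγr : L.γ * r' < r' ^ L.l := (mul_le_of_le_one_right' hr1.le).trans_lt hγl
      -- `l • y'` is fixed by the whole group
      have hxfix : ∀ s ∈ Set.range T.sym, s.act (L.l • y') = L.l • y' := by
        rintro _ ⟨σ, rfl⟩
        rw [T.act_nsmul, ← sub_eq_zero, ← nsmul_sub, hy' σ]
        exact hG.torsion _ (hyG σ)
      have hxsp : L.gap.sp (L.l • y') = 0 := by
        rw [map_nsmul, hrep'.1.sp_eq_zero L.gap, nsmul_zero]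
      obtain ⟨numx, denx, mx, rx, hx⟩ := exists_isRatRep T.rich L.gap hxsp hxfix
      obtain ⟨rx', hrx', hx', hxlev⟩ := hx.1.exists_level
      have hrx : rx' ≤ L.γ := by
        rcases hxlev with rfl | ⟨i', hi'⟩
        · exact zero_le
        rw [← hi']
        exact T.valuation_le_of_fixed
          (mem_ratSeries.mp ((ratSeries _).sub_mem hx.2.2.1 hx.2.2.2) i')
          (hi'.trans_lt (hrx'.trans_lt hx.1.lt_one))
      have htx : ∀ a, A.valuation (L.Φ.tang numx denx a) < r' ^ L.l := fun a =>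
        ((L.Φ.valuation_tang_le hx' a).trans hrx).trans_lt hγl
      have hMt : ∀ a,
          A.valuation (∑ j, (L.M a j : K) * L.Φ.tang num' den' j ^ L.l) < r' ^ L.l := by
        intro a
        have h1 := L.Φ.valuation_tang_relation L.gap hrep'.1 L.prime L.valuation_lt L.isFrob hx'
          hB hγr.le le_rfl (hrx.trans hγl.le) a
        have h2 : A.valuation ((L.l : K) * L.Φ.tang num' den' a) < r' ^ L.l := by
          rw [map_mul]
          exact (mul_le_mul' le_rfl (L.Φ.valuation_tang_le hrep'.1 a)).trans_lt hγr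
        have h3 : max (A.valuation (L.l : K) * (r' * r')) (r' ^ L.l * r' ^ L.l) < r' ^ L.l := by
          refine max_lt ?_ ((mul_lt_mul_of_pos_left hB
            (pow_pos (zero_lt_iff.mpr hr0) _)).trans_eq (mul_one _))
          rw [← mul_assoc]
          exact (mul_le_of_le_one_right' hr1.le).trans_lt hγr
        have h4 := (A.valuation.map_add ((L.l : K) * L.Φ.tang num' den' a +
          ∑ j, (L.M a j : K) * L.Φ.tang num' den' j ^ L.l - L.Φ.tang numx denx a)
          (L.Φ.tang numx denx a - (L.l : K) * L.Φ.tang num' den' a)).trans_lt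
          (max_lt (h1.trans_lt h3) ((A.valuation.map_sub _ _).trans_lt (max_lt (htx a) h2)))
        rwa [show (L.l : K) * L.Φ.tang num' den' a +
          ∑ j, (L.M a j : K) * L.Φ.tang num' den' j ^ L.l - L.Φ.tang numx denx a +
          (L.Φ.tang numx denx a - (L.l : K) * L.Φ.tang num' den' a) =
          ∑ j, (L.M a j : K) * L.Φ.tang num' den' j ^ L.l by ring] at h4
      have hEt := valuation_lt_of_frob L.prime L.valuation_lt L.inverse hr0
        (L.Φ.valuation_tang_le hrep'.1) hMt
      obtain ⟨num₂, den₂, m₂, hrep₂, hmat⟩ := hG.tracks _ y' num' den' m r' hrep'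
      have hrr : r' * r' < r' :=
        (mul_lt_mul_of_pos_left hr1 (zero_lt_iff.mpr hr0)).trans_eq (mul_one _)
      have hlt : ∀ a, A.valuation (L.Φ.tang num₂ den₂ a) < r' := fun a => by
        have := (A.valuation.map_add (L.Φ.tang num₂ den₂ a -
          ∑ j, (L.E a j : K) * L.Φ.tang num' den' j)
          (∑ j, (L.E a j : K) * L.Φ.tang num' den' j)).trans_lt
          (max_lt ((hmat a).trans_lt hrr) (hEt a))
        rwa [sub_add_cancel] at this
      obtain ⟨num₃, den₃, r₃, hr₃, hrep₃, hn₃, hd₃⟩ := hrep₂.1.deepen_mem L.Φ L.gap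
        (liftable_rat hgood.rich) hrep₂.2.2.1 hrep₂.2.2.2 hr0 hrep₂.2.1 hlt
      obtain ⟨r₄, hr₄, hrep₄, hlev₄⟩ := hrep₃.exists_level
      rcases eq_or_ne r₄ 0 with rfl | hr₄0
      · exact ⟨op y', num₃, den₃, m₂, hop y' hy',
          ⟨hrep₄.mono zero_le hR.lt_one, hrep₂.2.1, hn₃, hd₃⟩⟩
      obtain ⟨i₄, hi₄⟩ := hlev₄.resolve_left hr₄0
      obtain ⟨e₄, he₄⟩ := hdisc _ (mem_ratSeries.mp ((ratSeries _).sub_mem hn₃ hd₃) i₄)
        (fun h0 => hr₄0 (by rw [← hi₄, h0, map_zero]))
      rw [hi₄] at he₄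
      have helt : e < e₄ := by
        rw [← zpow_lt_zpow_iff_right_of_lt_one₀ (zero_lt_iff.mpr L.γ_ne_zero) L.γ_lt_one, ← he]
        show A.valuation (L.l : K) ^ e₄ < r ^ d
        rw [← he₄]
        exact pow_lt_pow_left₀ ((hr₄.trans_lt hr₃).trans_le hr') zero_le hd.ne'
      exact ih (op y') num₃ den₃ m₂ r₄ e₄ (hop y' hy') ⟨hrep₄, hrep₂.2.1, hn₃, hd₃⟩ he₄ (by omega)
  obtain ⟨num, den, m, r, hrep⟩ := exists_isRatRep hgood.rich L.gap hy (hHfix y fun _ => rfl)
  obtain ⟨r', hr', hrep', hlev⟩ := hrep.1.exists_level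
  rcases eq_or_ne r' 0 with rfl | hr'0
  · exact ⟨y, num, den, m, fun _ => rfl, ⟨hrep'.mono zero_le hR.lt_one, hrep.2⟩⟩
  obtain ⟨i, hi⟩ := hlev.resolve_left hr'0
  obtain ⟨e, he⟩ := hdisc _ (mem_ratSeries.mp ((ratSeries _).sub_mem hrep.2.2.1 hrep.2.2.2) i)
    (fun h0 => hr'0 (by rw [← hi, h0, map_zero]))
  rw [hi] at he
  exact key ((d : ℤ) - e).toNat y num den m r' e (fun _ => rfl) ⟨hrep', hrep.2⟩ he
    (Int.self_le_toNat _)

/-- **The tangent of a translate.** -/
theorem valuation_tang_translate {R : A.ValueGroup} (hR : IsRootLevel L R) {H : Subgroup Γ}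
    {y w : Pic0 K S.F} {num den numw denw : S.F} {m mw : ℤ}
    (hrep : IsRatRep n₀ (T.symSet H) y num den m R) (hw : IsRep w numw denw mw L.ρ) {σ : Γ}
    (hσ : σ ^ L.l ∈ H) (hact : (T.sym σ).act y = y + w) (i : Fin S.g) :
    A.valuation ((T.sym σ).base (L.Φ.tang num den i) -
      (L.Φ.tang num den i + L.Φ.tang numw denw i)) < L.ρ := by
  set s₀ := T.sym σ with hs₀
  set f : LaurentSeries K →+* LaurentSeries K := ModularCurve.coeffMap (s₀.base : K →+* K) with hf
  have hR0 := hR.ne_zero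
  have hlt := hR.lt_one
  obtain ⟨n, hn⟩ := hrep.1.regular
  set e : LaurentSeries K := (num : LaurentSeries K) - (den : LaurentSeries K) with he
  have hemem : e ∈ S.space (S.atPt (max n m)) :=
    Submodule.sub_mem _ (S.space_atPt_mono (le_max_left _ _) hn)
      (S.space_atPt_mono (le_max_right _ _) hrep.1.exact.1)
  obtain ⟨s₁, hs₁, hs₁b⟩ := exists_lt_boundedBy (S := S) (y := f e - e)
    (Submodule.sub_mem _ (s₀.map_mem_space_atPt hemem) hemem) hR0 fun j => by
      rw [HahnSeries.coeff_sub]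
      show A.valuation (s₀.base (e.coeff j) - e.coeff j) < R
      rcases eq_or_ne (e.coeff j) 0 with h0 | h0
      · rw [h0, map_zero, sub_zero, map_zero]; exact zero_lt_iff.mpr hR0
      refine (T.valuation_sub_lt h0 ?_).trans_le (hrep.1.close j)
      exact (mem_fixedField.mp
        (mem_ratSeries.mp ((ratSeries _).sub_mem hrep.2.2.1 hrep.2.2.2) j)) _ ⟨_, hσ, rfl⟩
  obtain ⟨s₂, hs₂, hs₂b⟩ := exists_lt_boundedBy (S := S)
    (y := f (den : LaurentSeries K) - den)
    (Submodule.sub_mem _ (s₀.map_mem_space_atPt hrep.1.exact.1) hrep.1.exact.1)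
    (one_ne_zero (α := A.ValueGroup)) fun j => by
      rw [HahnSeries.coeff_sub]
      show A.valuation (s₀.base ((den : LaurentSeries K).coeff j) -
        (den : LaurentSeries K).coeff j) < 1
      have hm := coeff_mem_of_boundedBy_one hrep.1.exact.boundedBy j
      have h1 : π (⟨_, (s₀.apply_mem_iff _).mpr hm⟩ - ⟨_, hm⟩) = 0 := by
        rw [map_sub, s₀.residue_eq ⟨_, hm⟩, sub_self]
      rwa [residue_eq_zero_iff S.surj] at h1
  -- the two representatives of the translate
  have hσrep : IsRep (y + w) (s₀.ringAut num) (s₀.ringAut den) m R := by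
    rw [← hact]
    exact s₀.isRep_map hrep.1
  have hprod : IsRep (y + w) (num * numw) (den * denw) (m + mw) R :=
    (hrep.1.mul hw).mono (max_le le_rfl hR.ρ_lt.le) hlt
  set s := max (max s₁ (R * s₂)) L.ρ with hs
  have hsR : s < R := max_lt (max_lt hs₁
    ((mul_lt_mul_of_pos_left hs₂ (zero_lt_iff.mpr hR0)).trans_eq (mul_one _))) hR.ρ_lt
  have hden0 := hrep.1.exact.coe_ne_zero
  have hfden0 : f (den : LaurentSeries K) ≠ 0 := by
    have := (s₀.isExact_map hrep.1.exact).coe_ne_zero
    exact this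
  have hdev : BoundedBy A (dev (s₀.ringAut num) (s₀.ringAut den) - dev (num * numw) (den * denw))
      s := by
    rw [dev_mul hden0 hw.exact.coe_ne_zero, s₀.dev_map]
    have hA : BoundedBy A (f (dev num den) - dev num den) s := by
      rw [show f (dev num den) - dev num den =
        (f e - e) * (f (den : LaurentSeries K))⁻¹ +
          e * ((den : LaurentSeries K) - f den) *
            ((f (den : LaurentSeries K))⁻¹ * (den : LaurentSeries K)⁻¹) by
        rw [dev, ← he, map_mul, map_inv₀]; field_simp; ring]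
      refine boundedBy_add ?_ ?_
      · exact (hs₁b.mul (boundedBy_inv (s₀.isExact_map hrep.1.exact).isLeadUnit.1)).mono
          ((mul_one s₁).le.trans ((le_max_left _ _).trans (le_max_left _ _)))
      · have hneg : BoundedBy A ((den : LaurentSeries K) - f den) s₂ := by
          rw [← neg_sub]; exact boundedBy_neg hs₂b
        refine ((hrep.1.close.mul hneg).mul
          ((boundedBy_inv (s₀.isExact_map hrep.1.exact).isLeadUnit.1).mul
            (boundedBy_inv hrep.1.exact.isLeadUnit.1))).mono ?_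
        rw [mul_one, mul_one]
        exact (le_max_right _ _).trans (le_max_left _ _)
    rw [show ∀ a b c : LaurentSeries K, a - (b + c + b * c) = (a - b) - (c + b * c) from
      fun a b c => by ring]
    refine boundedBy_sub hA (boundedBy_add (hw.boundedBy_dev.mono (le_max_right _ _)) ?_)
    exact (hrep.1.boundedBy_dev.mul hw.boundedBy_dev).mono
      ((mul_le_of_le_one_left' hlt.le).trans (le_max_right _ _))
  have h1 := L.Φ.valuation_tang_sub_le L.gap hσrep hprod hdev i
  rw [s₀.tang_map] at h1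
  have h2 := L.Φ.tang_mul hrep.1 hw i
  have hb1 : R * max s (R * R) < L.ρ := by
    refine lt_of_lt_of_le ?_ hR.sq_le
    refine mul_lt_mul_of_pos_left (max_lt hsR ?_) (zero_lt_iff.mpr hR0)
    exact (mul_lt_mul_of_pos_left hlt (zero_lt_iff.mpr hR0)).trans_eq (mul_one _)
  have hb2 : R * L.ρ < L.ρ :=
    (mul_lt_mul_of_pos_right hlt (zero_lt_iff.mpr L.ρ_ne_zero)).trans_eq (one_mul _)
  have h3 := (A.valuation.map_add (s₀.base (L.Φ.tang num den i) -
    L.Φ.tang (num * numw) (den * denw) i) (L.Φ.tang (num * numw) (den * denw) i -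
      (L.Φ.tang num den i + L.Φ.tang numw denw i))).trans_lt
    (max_lt (h1.trans_lt hb1) (h2.trans_lt hb2))
  rwa [sub_add_sub_cancel] at h3

end LocalGroup

end Fermat.Agent.MazurStep
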