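import Fermat.Agent.MazurStep.Rep

/-!
# Deepening representatives

If the tangent of a representative is smaller than its level, the class has a representative of
strictly smaller level with the same reduced pole order. A class with representatives of arbitrarily
small level and bounded reduced pole order is zero.
-/

set_option autoImplicit false
attribute [-instance] IsScalarTower.of_algHom

noncomputable section

namespace Fermat.Agent.MazurStep

open HahnSeries AlgebraicCurve
open Fermat.Agent.Reduction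
open Fermat.Agent.Reduction.CurveRed

variable {K k : Type*} [Field K] [Field k] {A : ValuationSubring K} {π : A →+* k}
  {S : CurveRed A π} {n₀ : ℕ} {z : Pic0 K S.F} {num den : S.F} {m : ℤ} {r : A.ValueGroup}

/-- A bound on a product with an exact section bounds the deep coefficients. -/
theorem coeff_small_of_mul_exact {y : LaurentSeries K} {X : S.F} {mX : ℤ} (hX : IsExact X mX)
    {M : ℤ} {r : A.ValueGroup}
    (h : ∀ i, i < -(M + mX) → A.valuation ((y * (X : LaurentSeries K)).coeff i) ≤ r) (i : ℤ)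
    (hi : i < -M) : A.valuation (y.coeff i) ≤ r := by
  have h1 : y = (y * (X : LaurentSeries K)) * (X : LaurentSeries K)⁻¹ := by
    rw [mul_inv_cancel_right₀ hX.coe_ne_zero]
  rw [h1, HahnSeries.coeff_mul]
  refine A.valuation.map_sum_le fun ab hab => ?_
  rw [Finset.mem_antidiagonal] at hab
  obtain ⟨-, hb, hsum⟩ := hab
  have hbm : mX ≤ ab.2 := by
    by_contra hlt
    have h2 := poleLE_inv hX.coe_ne_zero ab.2
    rw [hX.isLeadUnit.2] at h2
    exact hb (h2 (by omega))
  rw [map_mul]
  exact (mul_le_mul' (h _ (by omega)) ((boundedBy_inv hX.isLeadUnit.1) _)).trans_eq (mul_one r)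

/-- The level is attained. -/
theorem IsRep.exists_level (h : IsRep z num den m r) :
    ∃ r' ≤ r, IsRep z num den m r' ∧
      (r' = 0 ∨ ∃ i, A.valuation (((num : LaurentSeries K) - (den : LaurentSeries K)).coeff i) =
        r') := by
  obtain ⟨n, hn⟩ := h.regular
  set e : LaurentSeries K := (num : LaurentSeries K) - (den : LaurentSeries K) with he
  rcases eq_or_ne e 0 with h0 | h0
  · exact ⟨0, zero_le, ⟨h.regular, h.exact, zero_lt_one, by rw [← he, h0]; exact boundedBy_zero 0,
      h.class_eq⟩, Or.inl rfl⟩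
  have hmem : e ∈ S.space (S.atPt (max n m)) :=
    Submodule.sub_mem _ (S.space_atPt_mono (le_max_left _ _) hn)
      (S.space_atPt_mono (le_max_right _ _) h.exact.1)
  obtain ⟨i, -, hi⟩ := exists_max_coeff S.surj (S.normalizable_space (S.offNonpos_atPt _) e hmem h0)
  exact ⟨_, h.close i, ⟨h.regular, h.exact, (h.close i).trans_lt h.lt_one, hi, h.class_eq⟩,
    Or.inr ⟨i, rfl⟩⟩

/-- A subfield of series to which representatives can be restricted: it contains the constants
occurring as coefficients of its elements, and reductions of regular functions lift to it. -/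
structure Liftable (P : Subfield (LaurentSeries K)) : Prop where
  const : ∀ y ∈ P, ∀ i, algebraMap K (LaurentSeries K) (y.coeff i) ∈ P
  lift : ∀ (N : ℤ) (x : LaurentSeries k), x ∈ redSub S.surj (S.space (S.atPt N)) →
    ∃ y ∈ S.space (S.atPt N), y ∈ P ∧ Red A π y x

/-- **Deepening** inside a subfield of series. -/
theorem IsRep.deepen_mem (Φ : Forms S) (hgap : S.GapBound n₀) {P : Subfield (LaurentSeries K)}
    (hP : Liftable (S := S) P) (h : IsRep z num den m r)
    (hnumP : (num : LaurentSeries K) ∈ P) (hdenP : (den : LaurentSeries K) ∈ P)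
    (hr : r ≠ 0) (hm : (n₀ : ℤ) ≤ m) (ht : ∀ i, A.valuation (Φ.tang num den i) < r) :
    ∃ num' den' : S.F, ∃ r' < r, IsRep z num' den' m r' ∧
      (num' : LaurentSeries K) ∈ P ∧ (den' : LaurentSeries K) ∈ P := by
  classical
  obtain ⟨r₀, hr₀, hrep, hlev⟩ := h.exists_level
  rcases hr₀.lt_or_eq with hlt | rfl
  · exact ⟨num, den, r₀, hlt, hrep, hnumP, hdenP⟩
  obtain ⟨i₀, hi₀⟩ := hlev.resolve_left hr
  obtain ⟨n, hn⟩ := h.regular
  obtain ⟨x, hx, hxo, hdenx, hnumx⟩ := h.exists_red
  set e : LaurentSeries K := (num : LaurentSeries K) - (den : LaurentSeries K) with he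
  set a : K := e.coeff i₀ with ha
  have hav : A.valuation a = r₀ := hi₀
  have ha0 : a ≠ 0 := fun h0 => hr (by rw [← hav, h0, map_zero])
  set M : ℤ := max n m with hMdef
  have hemem : e ∈ S.space (S.atPt M) :=
    Submodule.sub_mem _ (S.space_atPt_mono (le_max_left _ _) hn)
      (S.space_atPt_mono (le_max_right _ _) h.exact.1)
  set eh : LaurentSeries K := a⁻¹ • e with heh
  have heh1 : BoundedBy A eh 1 := (boundedBy_smul _ h.close).mono
    (by rw [map_inv₀, hav, inv_mul_cancel₀ hr])
  have hea : a • eh = e := by rw [heh, smul_smul, mul_inv_cancel₀ ha0, one_smul]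
  obtain ⟨eb, heb⟩ := exists_red_of_coeff_mem π (coeff_mem_of_boundedBy_one heh1)
  have hebC : eb ∈ S.Cbar := ⟨M.toNat, eh,
    S.space_atPt_mono (Int.self_le_toNat _) (Submodule.smul_mem _ _ hemem), heb⟩
  -- reduction of the relative difference
  obtain ⟨t, ht'⟩ := exists_red_of_coeff_mem π
    (coeff_mem_of_boundedBy_one (boundedBy_inv h.exact.isLeadUnit.1))
  have hxt : x * t = 1 := by
    refine (hdenx.mul ht').unique ?_
    rw [mul_inv_cancel₀ h.exact.coe_ne_zero]
    exact red_one
  set w : LaurentSeries k := eb * t with hw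
  have hdevred : Red A π (a⁻¹ • dev num den) w := by
    rw [dev, ← he, show a⁻¹ • (e * (den : LaurentSeries K)⁻¹) =
      eh * (den : LaurentSeries K)⁻¹ by
        rw [heh, smul_eq_algebraMap_mul, smul_eq_algebraMap_mul, mul_assoc]]
    exact heb.mul ht'
  have hpw : Φ.pairBar w = 0 := by
    funext i
    obtain ⟨hm', hv⟩ := Φ.red_pair hdevred i
    rw [← hv, Pi.zero_apply, residue_eq_zero_iff S.surj]
    show A.valuation (Φ.pair (a⁻¹ • dev num den) i) < 1
    rw [Φ.pair_smul, Pi.smul_apply, smul_eq_mul, map_mul, map_inv₀, hav]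
    refine (mul_lt_mul_of_pos_left (ht i) (zero_lt_iff.mpr (inv_ne_zero hr))).trans_le ?_
    rw [inv_mul_cancel₀ hr]
  obtain ⟨N₁, hN₁⟩ := Φ.exists_regular_tail hgap
  set N : ℕ := max (max N₁ n₀) (-w.order).toNat with hN
  have hwN : PoleLE (N : ℤ) w := (poleLE_neg_order w).mono (by omega)
  obtain ⟨c, hc, hwc⟩ := hN₁ N (by omega) w hwN hpw
  have hNn : (n₀ : ℤ) ≤ N := by omega
  rw [← hgap.redSub_eq hNn] at hc
  obtain ⟨ch, hchmem, hchP, hchred⟩ := hP.lift _ _ hc
  obtain ⟨cF, rfl, -⟩ := S.exists_of_mem_space hchmem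
  -- the correction of the denominator
  set q : LaurentSeries k := eb - c * x with hq
  have hqw : q = (w - c) * x := by
    rw [hq, hw, sub_mul, mul_assoc, mul_comm t, hxt, mul_one]
  have hqmem : q ∈ S.regularSub m := by
    refine ⟨hgap.mem_Cbar_iff.mp (S.Cbar.sub_mem hebC (S.Cbar.mul_mem ?_ ?_)), ?_⟩
    · exact ⟨N, _, hchmem, hchred⟩
    · exact ⟨m.toNat, _, S.space_atPt_mono (Int.self_le_toNat _) h.exact.1, hdenx⟩
    · rw [hqw]
      have h2 : PoleLE m x := (poleLE_iff_order hx).mpr (by omega)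
      exact (hwc.mul h2).mono (by omega)
  rw [← hgap.redSub_eq hm] at hqmem
  obtain ⟨sh, hshmem, hshP, hshred⟩ := hP.lift _ _ hqmem
  obtain ⟨sF, rfl, -⟩ := S.exists_of_mem_space hshmem
  set u : S.F := 1 - algebraMap K S.F a * cF with hu
  set num' : S.F := num * u with hnum'
  set den' : S.F := den + algebraMap K S.F a * sF with hden'
  have hus : (u : LaurentSeries K) = 1 - a • (cF : LaurentSeries K) := by
    rw [hu]; push_cast; rw [← smul_eq_algebraMap_mul]
  have hden's : (den' : LaurentSeries K) =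
      (den : LaurentSeries K) + a • (sF : LaurentSeries K) := by
    rw [hden']; push_cast; rw [← smul_eq_algebraMap_mul]
  have hacb : BoundedBy A (a • (cF : LaurentSeries K)) r₀ :=
    (boundedBy_smul a hchred.boundedBy).mono (by rw [mul_one, hav])
  have hasb : BoundedBy A (a • (sF : LaurentSeries K)) r₀ :=
    (boundedBy_smul a hshred.boundedBy).mono (by rw [mul_one, hav])
  have hured : Red A π (u : LaurentSeries K) 1 := by
    have h1 := (red_one (A := A) (π := π)).sub (boundedBy_of_lt_of_red S.surj hacb h.lt_one)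
    rwa [sub_zero, ← hus] at h1
  have humem : (u : LaurentSeries K) ∈ S.space (S.atPt (N : ℤ)) := by
    rw [hus]
    exact Submodule.sub_mem _ (S.one_mem_space fun v => S.atPt_nonneg (Int.natCast_nonneg N) v)
      (Submodule.smul_mem _ _ hchmem)
  have hune : u ≠ 0 := fun h0 => by
    rw [h0] at hured
    exact one_ne_zero (hured.unique red_zero)
  have hexact : IsExact den' m := by
    refine ⟨?_, x, hx, hxo, ?_⟩
    · rw [hden's]
      exact Submodule.add_mem _ h.exact.1 (Submodule.smul_mem _ _ hshmem)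
    · have h1 := hdenx.add (boundedBy_of_lt_of_red S.surj hasb h.lt_one)
      rwa [add_zero, ← hden's] at h1
  have haP : algebraMap K (LaurentSeries K) a ∈ P := hP.const e (P.sub_mem hnumP hdenP) i₀
  have hnum'P : (num' : LaurentSeries K) ∈ P := by
    rw [hnum', MulMemClass.coe_mul, hus, smul_eq_algebraMap_mul]
    exact P.mul_mem hnumP (P.sub_mem P.one_mem (P.mul_mem haP hchP))
  have hden'P : (den' : LaurentSeries K) ∈ P := by
    rw [hden's, smul_eq_algebraMap_mul]
    exact P.add_mem hdenP (P.mul_mem haP hshP)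
  set e' : LaurentSeries K := (num' : LaurentSeries K) - (den' : LaurentSeries K) with he'
  have he'eq : e' = a • (eh - (cF : LaurentSeries K) * den - (sF : LaurentSeries K)) -
      (a • (cF : LaurentSeries K)) * e := by
    rw [he', hnum', MulMemClass.coe_mul, hus, hden's, smul_eq_algebraMap_mul,
      smul_eq_algebraMap_mul, smul_eq_algebraMap_mul]
    have h1 : algebraMap K (LaurentSeries K) a * eh = e := by rw [← smul_eq_algebraMap_mul, hea]
    linear_combination -h1 + (algebraMap K (LaurentSeries K) a * (cF : LaurentSeries K)) * he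
  have hsmall : Red A π (eh - (cF : LaurentSeries K) * den - (sF : LaurentSeries K)) 0 := by
    have h1 := (heb.sub (hchred.mul hdenx)).sub hshred
    rwa [← hq, sub_self] at h1
  have he'lt : ∀ j, A.valuation (e'.coeff j) < r₀ := by
    intro j
    rw [he'eq, HahnSeries.coeff_sub]
    refine (A.valuation.map_sub _ _).trans_lt (max_lt ?_ ?_)
    · rw [coeff_smulC, map_mul, hav]
      refine (mul_lt_mul_of_pos_left ?_ (zero_lt_iff.mpr hr)).trans_le (mul_one r₀).le
      obtain ⟨hjm, hjv⟩ := hsmall j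
      rw [HahnSeries.coeff_zero, residue_eq_zero_iff S.surj] at hjv
      exact hjv
    · exact ((hacb.mul h.close) j).trans_lt
        ((mul_lt_mul_of_pos_left h.lt_one (zero_lt_iff.mpr hr)).trans_le (mul_one r₀).le)
  have hclass : z = badHom (S := S) (badPart (S := S) (fdiv num')) := by
    rw [hnum', fdiv_mul h.ne_zero hune, map_add, map_add,
      badPart_fdiv_of_const hgap humem one_ne_zero HahnSeries.order_one hured, badHom_fdiv,
      add_zero, ← h.class_eq]
  have hregular : ∃ k : ℤ, (num' : LaurentSeries K) ∈ S.space (S.atPt k) := ⟨n + N, by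
    rw [S.atPt_add, hnum', MulMemClass.coe_mul]
    exact S.mul_mem_space hn humem⟩
  rcases eq_or_ne e' 0 with h0 | h0
  · exact ⟨num', den', 0, zero_lt_iff.mpr hr,
      ⟨hregular, hexact, zero_lt_one, by rw [← he', h0]; exact boundedBy_zero 0, hclass⟩,
      hnum'P, hden'P⟩
  obtain ⟨k', hk'⟩ := hregular
  have he'mem : e' ∈ S.space (S.atPt (max k' m)) :=
    Submodule.sub_mem _ (S.space_atPt_mono (le_max_left _ _) hk')
      (S.space_atPt_mono (le_max_right _ _) hexact.1)
  obtain ⟨j, -, hj⟩ :=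
    exists_max_coeff S.surj (S.normalizable_space (S.offNonpos_atPt _) e' he'mem h0)
  exact ⟨num', den', _, he'lt j, ⟨⟨k', hk'⟩, hexact, (he'lt j).trans h.lt_one, hj, hclass⟩,
    hnum'P, hden'P⟩

/-- The good zeros of a representative. -/
theorem IsRep.exists_goodPart (hgap : S.GapBound n₀) (hrep : IsRep z num den m r) :
    ∃ (n : ℤ) (G : Divisor K S.F), (num : LaurentSeries K) ∈ S.space (S.atPt n) ∧
      S.IsEff G ∧ IsGoodDiv G ∧ Divisor.degree G = m ∧ badHom (S := S) G = -z ∧
      ∀ v, G v ≤ fdiv num v + S.atPt n v := by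
  obtain ⟨n, hn⟩ := hrep.regular
  obtain ⟨x, hx, hxo, -, hnumx⟩ := hrep.exists_red
  obtain ⟨E, hE⟩ : ∃ E : Divisor K S.F, E = fdiv num + S.atPt n := ⟨_, rfl⟩
  have hEeff : S.IsEff E := hE ▸ isEff_fdiv_add hrep.ne_zero hn
  obtain ⟨B, hB⟩ : ∃ B : Divisor K S.F, B = badPart (S := S) E := ⟨_, rfl⟩
  obtain ⟨G, hG⟩ : ∃ G : Divisor K S.F, G = E - B := ⟨_, rfl⟩
  have hbad : badHom (S := S) B = z := by
    rw [hB, hE, map_add, badPart_atPt, map_add, badHom_atPt, add_zero, ← hrep.class_eq]
  have hall : badHom (S := S) E = 0 := by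
    rw [hE, map_add, badHom_fdiv, badHom_atPt, add_zero]
  refine ⟨n, G, hn, ?_, ?_, ?_, ?_, fun v => ?_⟩
  · rw [hG, hB]; exact isEff_sub_badPart (S := S) hEeff
  · rw [hG, hB]; exact isGoodDiv_sub_badPart (S := S) E
  · have h1 : goodDeg (S := S) (fdiv num) = m := by
      rw [goodDeg_fdiv hgap hn hx hnumx, hxo, neg_neg]
    rw [hG, map_sub, hB, ← h1]
    show goodDeg (S := S) E = goodDeg (S := S) (fdiv num)
    rw [hE, goodDeg_add, goodDeg_atPt, add_zero]
  · rw [hG, map_sub, hbad, hall, zero_sub]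
  · have h2 : 0 ≤ B v := by rw [hB]; exact isEff_badPart (S := S) hEeff v
    have h3 : E v = fdiv num v + S.atPt n v := by rw [hE, Finsupp.add_apply]
    rw [hG, Finsupp.sub_apply]
    omega

/-- **A class with arbitrarily deep representatives of bounded pole order is zero.** -/
theorem eq_zero_of_deep (hgap : S.GapBound n₀) {r₁ : A.ValueGroup} (hr₁ : r₁ ≠ 0) (hr₁' : r₁ < 1)
    (h : ∀ r : A.ValueGroup, r ≠ 0 → r < 1 → ∃ num den : S.F, IsRep z num den m r) : z = 0 := by
  classical
  obtain ⟨num₁, den₁, h₁⟩ := h r₁ hr₁ hr₁'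
  obtain ⟨-, E0, -, hE0eff, hE0good, hE0deg, hE0z, -⟩ := h₁.exists_goodPart hgap
  -- a nonzero section of `m • pt - E0` finishes the proof
  by_cases hsec : ∃ y ∈ S.space (S.atPt m - E0), y ≠ 0
  · obtain ⟨y, hy, hy0⟩ := hsec
    obtain ⟨f, rfl, hf⟩ := S.exists_of_mem_space hy
    have hf0 : f ≠ 0 := fun h0 => hy0 (by rw [h0]; rfl)
    have heff : S.IsEff (fdiv f + S.atPt m - E0) := fun v => by
      have h1 := (hf v).resolve_left hf0
      rw [Finsupp.sub_apply] at h1
      rw [Finsupp.sub_apply, Finsupp.add_apply, fdiv_apply hf0]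
      omega
    have h2 := S.eq_zero_of_effective heff
      (by rw [map_sub, map_add, degree_fdiv, S.degree_atPt, hE0deg]; ring)
    rw [sub_eq_zero] at h2
    rw [← h2, map_add, badHom_fdiv, badHom_atPt, zero_add] at hE0z
    exact neg_eq_zero.mp hE0z.symm
  exfalso
  push Not at hsec
  obtain ⟨B₀, hB₀⟩ := exists_isExact hgap hE0eff hE0good
  set B : ℤ := max B₀ m with hB
  have := S.finiteDimensional_space (S.atPt B - E0)
  obtain ⟨Bv, hBv0, hBv⟩ := exists_valuation_bound {i : ℤ | i < -m} (S.space (S.atPt B - E0))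
    (S.normalizable_space (hE0eff.offNonpos B)) (by
      intro y hy hyz
      refine hsec y ?_
      obtain ⟨f, rfl, hf⟩ := S.exists_of_mem_space hy
      refine S.coe_mem_space.mpr fun v => ?_
      rcases eq_or_ne f 0 with hf0 | hf0
      · exact Or.inl hf0
      right
      have h1 := (hf v).resolve_left hf0
      rcases eq_or_ne v S.pt with rfl | hvp
      · have hE0pt : E0 S.pt = 0 := by_contra fun hne => hE0good _ hne isBad_pt
        rw [Finsupp.sub_apply, S.atPt_self, hE0pt, sub_zero, S.ord_pt]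
        by_contra hlt
        have h2 := hyz (f : LaurentSeries K).order (by show _ < -m; omega)
        exact hf0 (Subtype.ext (HahnSeries.coeff_order_eq_zero.mp h2))
      · rw [Finsupp.sub_apply, S.atPt_of_ne _ hvp] at h1 ⊢
        exact h1)
  set r : A.ValueGroup := min r₁ (r₁ / Bv) with hr
  have hr0 : r ≠ 0 := by
    rcases min_choice r₁ (r₁ / Bv) with h' | h' <;> rw [hr, h']
    · exact hr₁
    · exact div_ne_zero hr₁ hBv0
  obtain ⟨num, den, hrep⟩ := h r hr0 ((min_le_left _ _).trans_lt hr₁')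
  obtain ⟨n, G, hn, hGeff, hGgood, hGdeg, hGz, hGle⟩ := hrep.exists_goodPart hgap
  obtain ⟨x, hx, hxo, hdenx, hnumx⟩ := hrep.exists_red
  obtain ⟨φ, hφ, hφdiv⟩ := principal_of_badHom_eq_zero (R := G - E0)
    (by rw [map_sub, hGz, hE0z, sub_self])
  rw [map_sub, hGdeg, hE0deg, sub_self, atPt, Finsupp.single_zero, sub_zero] at hφdiv
  obtain ⟨BX, hBX⟩ := exists_isExact hgap hGeff hGgood
  obtain ⟨X, hX, hXG⟩ := hBX BX le_rfl
  set Y₀ : S.F := X / φ with hY₀
  have hY₀ne : Y₀ ≠ 0 := div_ne_zero hX.ne_zero hφ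
  have hY₀mem : (Y₀ : LaurentSeries K) ∈ S.space (S.atPt BX - E0) := by
    refine S.coe_mem_space.mpr fun v => Or.inr ?_
    rw [← fdiv_apply hY₀ne, hY₀, fdiv_div hX.ne_zero hφ, hφdiv, Finsupp.sub_apply,
      Finsupp.sub_apply, Finsupp.sub_apply, fdiv_apply hX.ne_zero]
    have h1 := (S.coe_mem_space.mp hXG v).resolve_left hX.ne_zero
    rw [Finsupp.sub_apply] at h1
    omega
  obtain ⟨c, hc, yb, hyb, hcy⟩ := S.normalizable_space (hE0eff.offNonpos BX) _ hY₀mem
    (fun h0 => hY₀ne (Subtype.ext h0))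
  set lam : S.F := algebraMap K S.F c * (num / φ) with hlam
  have hlamne : lam ≠ 0 :=
    mul_ne_zero ((map_ne_zero _).mpr hc) (div_ne_zero hrep.ne_zero hφ)
  have hlammem : (lam : LaurentSeries K) ∈ S.space (S.atPt n - E0) := by
    refine S.coe_mem_space.mpr fun v => Or.inr ?_
    rw [← fdiv_apply hlamne, hlam, fdiv_algebraMap_mul hc (div_ne_zero hrep.ne_zero hφ),
      fdiv_div hrep.ne_zero hφ, hφdiv, Finsupp.sub_apply, Finsupp.sub_apply, Finsupp.sub_apply]
    have h1 := hGle v
    omega
  have hprod : (lam : LaurentSeries K) * X =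
      (num : LaurentSeries K) * (c • (Y₀ : LaurentSeries K)) := by
    have h1 : lam * X = num * (algebraMap K S.F c * Y₀) := by
      rw [hlam, hY₀]; ring
    have h2 := congrArg Subtype.val h1
    rw [smul_eq_algebraMap_mul]
    simpa only [MulMemClass.coe_mul, IntermediateField.coe_algebraMap_apply] using h2
  obtain ⟨xX, hxX, -, hXred⟩ := hX.2
  have hlam1 : BoundedBy A (lam : LaurentSeries K) 1 :=
    boundedBy_of_mul_red (hE0eff.offNonpos n) hlammem hXred hxX
      (by rw [hprod]; exact (hrep.boundedBy_num.mul hcy.boundedBy).mono (one_mul _).le)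
  obtain ⟨lb, hlb⟩ := exists_red_of_coeff_mem π (coeff_mem_of_boundedBy_one hlam1)
  have hlb0 : lb ≠ 0 := by
    rintro rfl
    have h1 := hlb.mul hXred
    rw [hprod, zero_mul] at h1
    exact mul_ne_zero hx hyb ((hnumx.mul hcy).unique h1)
  have hdeep : ∀ i, i < -m → A.valuation ((lam : LaurentSeries K).coeff i) ≤ r := by
    refine coeff_small_of_mul_exact hX fun i hi => ?_
    rw [hprod, show (num : LaurentSeries K) * (c • (Y₀ : LaurentSeries K)) =
        (den : LaurentSeries K) * (c • (Y₀ : LaurentSeries K)) +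
          ((num : LaurentSeries K) - (den : LaurentSeries K)) * (c • (Y₀ : LaurentSeries K))
            by ring,
      HahnSeries.coeff_add, coeff_mul_eq_zero_of_poleLE
        (m := m) (n := BX) (by simpa [atPt_self] using S.poleLE_space hrep.exact.1)
        ((S.poleLE_space (Submodule.smul_mem _ c hY₀mem)).mono (by
          rw [Finsupp.sub_apply, S.atPt_self]; have := hE0eff S.pt; omega)) hi, zero_add]
    exact ((hrep.close.mul hcy.boundedBy).mono (mul_one r).le) i
  obtain ⟨cr, hcr, hcrb⟩ := exists_lower hE0eff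
    (fun j hj => hB₀ j ((le_max_left _ _).trans hj.le)) hlammem
    (fun i hi => hdeep i (lt_of_lt_of_le hi (neg_le_neg (le_max_right _ _))))
  obtain ⟨i, hi⟩ : ∃ i, lb.coeff i ≠ 0 := by
    by_contra hall
    push Not at hall
    exact hlb0 (HahnSeries.ext (funext hall))
  have hrlt : r < 1 := hrep.lt_one
  have hcred : Red A π cr lb := by
    have h1 := hlb.sub (boundedBy_of_lt_of_red S.surj hcrb hrlt)
    rwa [sub_sub_cancel, sub_zero] at h1
  have h1 := hcred.coeff_valuation_eq_one S.surj hi
  have h2 := hBv cr hcr r (fun j (hj : j < -m) => by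
    rw [show cr.coeff j = (lam : LaurentSeries K).coeff j -
      ((lam : LaurentSeries K) - cr).coeff j by rw [HahnSeries.coeff_sub]; ring]
    exact (A.valuation.map_sub _ _).trans (max_le (hdeep j hj) (hcrb j))) i
  rw [h1] at h2
  have h3 : Bv * r ≤ r₁ := by
    refine (mul_le_mul' le_rfl (min_le_right _ _)).trans_eq ?_
    rw [mul_div_cancel₀ _ hBv0]
  exact absurd ((h2.trans h3).trans_lt hr₁') (lt_irrefl 1)

end Fermat.Agent.MazurStep
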