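import Fermat.Agent.Reduction.Ideals

/-!
# The residue disc of `q = 0` and exact functions

A place is *bad* if its reduced ideal is trivial, i.e. it reduces to `q = 0`. The reduced pole
order of a normalised regular function is the number of its good zeros. A class reduces to zero
iff it is represented by bad places only.
-/

set_option autoImplicit false
attribute [-instance] IsScalarTower.of_algHom

noncomputable section

namespace Fermat.Agent.MazurStep

open HahnSeries AlgebraicCurve
open Fermat.Agent.Reduction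
open Fermat.Agent.Reduction.CurveRed

variable {K k : Type*} [Field K] [Field k] {A : ValuationSubring K} {π : A →+* k}
  {S : CurveRed A π} {n₀ : ℕ}

/-- The place reduces to `q = 0`. -/
def IsBad (v : Place K S.F) : Prop := S.effIdeal' (Finsupp.single v 1) = ⊤

open Classical in
/-- The part of a divisor supported at bad places. -/
def badPart : Divisor K S.F →+ Divisor K S.F where
  toFun D := D.filter IsBad
  map_zero' := Finsupp.filter_zero _
  map_add' _ _ := Finsupp.filter_add

/-- The number of good places of a divisor. -/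
def goodDeg (D : Divisor K S.F) : ℤ := Divisor.degree D - Divisor.degree (badPart (S := S) D)

/-- The divisor is supported at bad places. -/
def IsBadDiv (D : Divisor K S.F) : Prop := ∀ v, D v ≠ 0 → IsBad v

/-- The divisor is supported at good places. -/
def IsGoodDiv (D : Divisor K S.F) : Prop := ∀ v, D v ≠ 0 → ¬ IsBad v

theorem badPart_apply_bad {D : Divisor K S.F} {v : Place K S.F} (h : IsBad v) :
    badPart (S := S) D v = D v := by
  classical exact Finsupp.filter_apply_pos _ _ h

theorem badPart_apply_good {D : Divisor K S.F} {v : Place K S.F} (h : ¬ IsBad v) :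
    badPart (S := S) D v = 0 := by
  classical exact Finsupp.filter_apply_neg _ _ h

theorem isBadDiv_badPart (D : Divisor K S.F) : IsBadDiv (badPart (S := S) D) := fun _ hv => by
  by_contra h
  exact hv (badPart_apply_good h)

theorem badPart_eq_self {D : Divisor K S.F} (h : IsBadDiv D) : badPart (S := S) D = D := by
  ext v
  by_cases hv : IsBad v
  · exact badPart_apply_bad hv
  · rw [badPart_apply_good hv]
    by_contra hne
    exact hv (h v (Ne.symm hne))

theorem badPart_eq_zero {D : Divisor K S.F} (h : IsGoodDiv D) : badPart (S := S) D = 0 := by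
  ext v
  by_cases hv : IsBad v
  · rw [badPart_apply_bad hv]
    by_contra hne
    exact h v hne hv
  · exact badPart_apply_good hv

theorem isGoodDiv_sub_badPart (D : Divisor K S.F) :
    IsGoodDiv (D - badPart (S := S) D) := fun v hv hb => by
  rw [Finsupp.sub_apply, badPart_apply_bad hb, sub_self] at hv
  exact hv rfl

theorem isEff_badPart {E : Divisor K S.F} (hE : S.IsEff E) :
    S.IsEff (badPart (S := S) E) := fun v => by
  by_cases hv : IsBad v
  · rw [badPart_apply_bad hv]; exact hE v
  · rw [badPart_apply_good hv]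

theorem isEff_sub_badPart {E : Divisor K S.F} (hE : S.IsEff E) : S.IsEff (E - badPart (S := S) E) :=
  fun v => by
  rw [Finsupp.sub_apply]
  by_cases hv : IsBad v
  · rw [badPart_apply_bad hv, sub_self]
  · rw [badPart_apply_good hv, sub_zero]; exact hE v

theorem goodDeg_add (D D' : Divisor K S.F) : goodDeg (D + D') = goodDeg D + goodDeg D' := by
  simp only [goodDeg, map_add]; ring

theorem degree_badPart_mono {E E' : Divisor K S.F} (h : ∀ v, E v ≤ E' v) :
    Divisor.degree (badPart (S := S) E) ≤ Divisor.degree (badPart (S := S) E') := by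
  have h1 : 0 ≤ Divisor.degree (badPart (S := S) (E' - E)) :=
    degree_nonneg_of_isEff (isEff_badPart fun v => by
      rw [Finsupp.sub_apply]; exact sub_nonneg.mpr (h v))
  rw [map_sub, map_sub] at h1
  omega

/-! ### Ideals -/

theorem effIdeal_le_one {E : Divisor K S.F} (hE : S.IsEff E) : S.effIdeal E ≤ 1 := fun _ hx =>
  Submodule.mem_one.mpr ⟨⟨_, mem_Cbar_of_mem_effIdeal hE hx⟩, rfl⟩

theorem effIdeal'_antitone {E E' : Divisor K S.F} (h : ∀ v, E v ≤ E' v) :
    S.effIdeal' E' ≤ S.effIdeal' E := by
  intro x hx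
  obtain ⟨n, y, hy, hyx⟩ := mem_effIdeal.mp (mem_effIdeal'.mp hx)
  refine mem_effIdeal'.mpr ⟨n, y, S.space_mono (fun v => ?_) hy, hyx⟩
  simp only [Finsupp.sub_apply]
  exact sub_le_sub_left (h v) _

/-- The codimension of the ideal of an effective divisor is its number of good places. -/
theorem finrank_quotient_effIdeal' (hgap : S.GapBound n₀) {E : Divisor K S.F} (hE : S.IsEff E) :
    (Module.finrank k (S.Cbar ⧸ S.effIdeal' E) : ℤ) = goodDeg E := by
  obtain ⟨d, hd⟩ := Int.eq_ofNat_of_zero_le (degree_nonneg_of_isEff hE)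
  induction d generalizing E with
  | zero =>
    have hE0 : E = 0 := S.eq_zero_of_effective hE (by simpa using hd)
    subst hE0
    rw [effIdeal'_zero, Module.finrank_zero_of_subsingleton]
    simp [goodDeg]
  | succ d ih =>
    obtain ⟨v, E', rfl, -, hE', hdeg⟩ := hE.exists_eq_single_add hd
    have hv := isEff_single (S := S) v zero_le_one
    rw [hgap.effIdeal'_add hv hE', hgap.finrank_quotient_mul (hgap.effIdeal'_ne_bot hv)
      (hgap.effIdeal'_ne_bot hE'), Nat.cast_add, ih hE' hdeg, goodDeg_add]
    congr 1
    by_cases hbad : IsBad v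
    · rw [show S.effIdeal' (Finsupp.single v 1) = ⊤ from hbad,
        Module.finrank_zero_of_subsingleton, goodDeg, badPart_eq_self fun w hw => ?_, sub_self,
        Nat.cast_zero]
      rwa [(Finsupp.single_apply_ne_zero.mp hw).1]
    · rw [(hgap.effIdeal'_single_isMaximal hbad).2, goodDeg, badPart_eq_zero fun w hw => ?_,
        map_zero, sub_zero, Divisor.degree_single, S.deg_one]
      · simp
      · rwa [(Finsupp.single_apply_ne_zero.mp hw).1]

/-- **The reduced pole order is the number of good zeros.** -/
theorem order_red_eq (hgap : S.GapBound n₀) {E : Divisor K S.F} (hE : S.IsEff E) {M : ℤ} {h : S.F}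
    (hh : h ≠ 0) (hdiv : ∀ v, v.ord h = E v - S.atPt M v) {t : LaurentSeries k} (ht : t ≠ 0)
    (hht : Red A π (h : LaurentSeries K) t) : -t.order = goodDeg E := by
  have hspan := effIdeal_eq_span hE hh hdiv ht hht
  have htC : t ∈ S.Cbar :=
    mem_Cbar_of_mem_effIdeal hE (hspan.symm ▸ Submodule.mem_span_singleton_self t)
  rw [← finrank_quotient_effIdeal' hgap hE, effIdeal'_eq_span (x := ⟨t, htC⟩) hspan,
    hgap.finrank_quotient_span (fun h0 => ht (congrArg Subtype.val h0))]

theorem isBad_pt : IsBad S.pt := by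
  refine (Ideal.eq_top_iff_one _).mpr ?_
  show ((1 : S.Cbar) : LaurentSeries k) ∈ S.effIdeal (Finsupp.single S.pt 1)
  rw [effIdeal_eq_span (isEff_single S.pt zero_le_one) (M := 1) (one_ne_zero (α := S.F))
    (fun v => by rw [v.ord_one]; exact (sub_self _).symm) (one_ne_zero (α := LaurentSeries k))
    (by rw [OneMemClass.coe_one]; exact red_one), OneMemClass.coe_one]
  exact Submodule.mem_span_singleton_self 1

theorem isBadDiv_atPt (n : ℤ) : IsBadDiv (S.atPt n) := fun v hv => by
  rcases eq_or_ne v S.pt with rfl | h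
  · exact isBad_pt
  · exact absurd (S.atPt_of_ne n h) hv

/-- A bound for the reduced pole order of the sections vanishing on a divisor. -/
theorem poleLE_redSub_sub (hgap : S.GapBound n₀) {E : Divisor K S.F} (hE : S.IsEff E) {n : ℤ}
    {x : LaurentSeries k} (hx : x ∈ redSub S.surj (S.space (S.atPt n - E))) :
    PoleLE (n - Divisor.degree (badPart (S := S) E)) x := by
  rcases eq_or_ne x 0 with rfl | hx0
  · exact fun _ _ => rfl
  obtain ⟨y, hy, hyx⟩ := hx
  obtain ⟨u, rfl, hu⟩ := S.exists_of_mem_space hy
  have hu0 : u ≠ 0 := fun h => hx0 (hyx.unique (by rw [h]; exact red_zero))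
  obtain ⟨Eu, hEu, hdeg⟩ := S.exists_div hu0
  have hmono : ∀ v, E v ≤ (Eu + S.atPt n) v := fun v => by
    have h1 := (hu v).resolve_left hu0
    rw [Finsupp.sub_apply] at h1
    rw [Finsupp.add_apply, hEu v]
    omega
  have heff : S.IsEff (Eu + S.atPt n) := fun v => (hE v).trans (hmono v)
  have h1 := order_red_eq hgap heff (M := n) hu0
    (fun v => by rw [Finsupp.add_apply, hEu v]; ring) hx0 hyx
  have h2 := degree_badPart_mono hmono
  rw [goodDeg, map_add Divisor.degree, hdeg, S.degree_atPt] at h1
  exact (poleLE_iff_order hx0).mpr (by omega)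

/-- For bad effective `R`, the sections vanishing on `R` reduce onto everything of pole order
reduced by `deg R`. -/
theorem redSub_bad_eq (hgap : S.GapBound n₀) {R : Divisor K S.F} (hR : S.IsEff R)
    (hbad : IsBadDiv R) {n : ℤ} (hn : (n₀ : ℤ) + Divisor.degree R ≤ n) :
    redSub S.surj (S.space (S.atPt n - R)) = S.regularSub (n - Divisor.degree R) := by
  have := hgap.finite (n - Divisor.degree R)
  have := S.finiteDimensional_space (S.atPt n - R)
  refine Submodule.eq_of_le_of_finrank_le (fun x hx => ?_) ?_
  · refine ⟨?_, by simpa [badPart_eq_self hbad] using poleLE_redSub_sub hgap hR hx⟩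
    exact hgap.mem_Cbar_iff.mp (mem_Cbar_of_mem_effIdeal hR ⟨n.toNat, redSub_mono _
      (S.space_mono fun v => by
        simp only [Finsupp.sub_apply]
        refine sub_le_sub_right ?_ _
        rcases eq_or_ne v S.pt with rfl | hv
        · simp only [atPt_self]; exact Int.self_le_toNat _
        · simp [atPt_of_ne, hv]) hx⟩)
  · rw [finrank_redSub S.surj _ (S.normalizable_space (hR.offNonpos n))]
    have h1 := S.finrank_space_ge (S.atPt n - R)
    rw [map_sub, S.degree_atPt] at h1
    have h2 := hgap.le (n - Divisor.degree R) (by omega)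
    omega

/-- Elements of an ideal with bounded poles, in large degree. -/
theorem finrank_inf_polePart_le (hgap : S.GapBound n₀) {a : Ideal S.Cbar} {x : S.Cbar}
    (hx : x ≠ 0) (hxa : x ∈ a) {N : ℤ} (hN : (n₀ : ℤ) - (x : LaurentSeries k).order ≤ N)
    (W : Submodule k S.Cbar) (hW : W ≤ S.polePart N) (hWa : ∀ w ∈ W, w ∈ a) :
    (Module.finrank k W : ℤ) + Module.finrank k (S.Cbar ⧸ a) ≤
      Module.finrank k (S.polePart N) := by
  have := (hgap.finrank_quotient_le hx hxa hN).2 W hW hWa
  omega

/-- **Exact sections**: for a good effective divisor every large pole order is attained. -/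
theorem exists_exact (hgap : S.GapBound n₀) {E : Divisor K S.F} (hE : S.IsEff E)
    (hgood : IsGoodDiv E) :
    ∃ B : ℤ, ∀ m : ℤ, B ≤ m →
      ∃ y ∈ S.space (S.atPt m - E), ∃ x : LaurentSeries k, x ≠ 0 ∧ x.order = -m ∧ Red A π y x := by
  obtain ⟨x₀, hx₀a, hx₀⟩ := Submodule.exists_mem_ne_zero_of_ne_bot (hgap.effIdeal'_ne_bot hE)
  have hx₀s : (x₀ : LaurentSeries k) ≠ 0 := fun h => hx₀ (Subtype.ext h)
  have hx₀o := hgap.order_nonpos x₀.2 hx₀s
  refine ⟨(n₀ : ℤ) - (x₀ : LaurentSeries k).order + 1 + S.g + Divisor.degree E, fun m hm => ?_⟩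
  have hdeg0 := degree_nonneg_of_isEff hE
  by_contra hne
  push Not at hne
  set V := redSub S.surj (S.space (S.atPt m - E)) with hV
  have := S.finiteDimensional_space (S.atPt m - E)
  have hdim := finrank_redSub S.surj _ (S.normalizable_space (hE.offNonpos m))
  rw [← hV] at hdim
  have hge := S.finrank_space_ge (S.atPt m - E)
  rw [map_sub, S.degree_atPt] at hge
  have hmemC : ∀ u : V, (u : LaurentSeries k) ∈ S.effIdeal E := fun u => by
    refine ⟨m.toNat, redSub_mono _ (S.space_mono fun v => ?_) u.2⟩
    simp only [Finsupp.sub_apply]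
    refine sub_le_sub_right ?_ _
    rcases eq_or_ne v S.pt with rfl | hv
    · simp only [atPt_self]; exact Int.self_le_toNat _
    · simp [atPt_of_ne, hv]
  let ι : V →ₗ[k] S.Cbar :=
    { toFun := fun u => ⟨u, mem_Cbar_of_mem_effIdeal hE (hmemC u)⟩
      map_add' := fun _ _ => rfl
      map_smul' := fun c u => Subtype.ext (by
        simp only [RingHom.id_apply, SetLike.val_smul, Algebra.smul_def (A := S.Cbar),
          MulMemClass.coe_mul, Subalgebra.coe_algebraMap, smul_eq_algebraMap_mul]) }
  have hιinj : Function.Injective ι := fun a b h =>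
    Subtype.ext (congrArg (fun z : S.Cbar => (z : LaurentSeries k)) h)
  have hιN : LinearMap.range ι ≤ S.polePart (m - 1) := by
    rintro _ ⟨u, rfl⟩
    show PoleLE (m - 1) (u : LaurentSeries k)
    rcases eq_or_ne (u : LaurentSeries k) 0 with h0 | h0
    · rw [h0]; exact fun _ _ => rfl
    · obtain ⟨y, hy, hyu⟩ := u.2
      have h1 := (poleLE_iff_order h0).mp (redSub_sub_le_polePart hE u.2)
      have h2 := hne y hy _ h0
      refine (poleLE_iff_order h0).mpr ?_
      by_contra h3
      exact h2 (by omega) hyu
  have h1 := finrank_inf_polePart_le hgap hx₀ hx₀a (N := m - 1) (by omega) _ hιN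
    (by rintro _ ⟨u, rfl⟩; exact hmemC u)
  rw [LinearMap.finrank_range_of_inj hιinj, finrank_quotient_effIdeal' hgap hE, goodDeg,
    badPart_eq_zero hgood, map_zero, sub_zero, hgap.finrank_polePart (by omega)] at h1
  omega

/-! ### Classes reducing to zero -/

/-- An effective divisor has trivial reduced ideal iff it is bad. -/
theorem effIdeal'_eq_top_iff (hgap : S.GapBound n₀) {E : Divisor K S.F} (hE : S.IsEff E) :
    S.effIdeal' E = ⊤ ↔ IsBadDiv E := by
  constructor
  · intro h v hv
    refine top_unique (h.ge.trans (effIdeal'_antitone fun w => ?_))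
    classical
    rw [Finsupp.single_apply]
    split_ifs with hw
    · subst hw; have := hE v; omega
    · exact hE w
  · intro h
    by_contra hne
    have h1 := hgap.finrank_quotient_pos (hgap.effIdeal'_ne_bot hE) hne
    have h2 := finrank_quotient_effIdeal' hgap hE
    rw [goodDeg, badPart_eq_self h, sub_self] at h2
    omega

theorem effIdeal_eq_one (hgap : S.GapBound n₀) {E : Divisor K S.F} (hE : S.IsEff E)
    (h : IsBadDiv E) : S.effIdeal E = 1 := by
  refine le_antisymm (effIdeal_le_one hE) (Submodule.one_le.mpr ?_)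
  have h1 := (Ideal.eq_top_iff_one _).mp ((effIdeal'_eq_top_iff hgap hE).mpr h)
  exact h1

/-- Bad divisors reduce to zero. -/
theorem classHom_bad (hgap : S.GapBound n₀) {E : Divisor K S.F} (hE : S.IsEff E)
    (h : IsBadDiv E) : hgap.classHom E = 0 := by
  rw [hgap.classHom_eff hE 1 (effIdeal_eq_one hgap hE h).symm, picClass_one]

/-- The class of `R - (deg R) • pt`. -/
def badClass (R : Divisor K S.F) : Pic0 K S.F :=
  Pic0.mk ⟨R - S.atPt (Divisor.degree R), by
    rw [Divisor.mem_degZero, map_sub, S.degree_atPt, sub_self]⟩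

theorem badClass_add (R R' : Divisor K S.F) : badClass (R + R') = badClass R + badClass R' := by
  rw [badClass, badClass, badClass, ← Pic0.mk_add]
  refine congrArg _ (Subtype.ext ?_)
  simp only [AddSubgroup.coe_add]
  rw [map_add, S.atPt_add]
  abel

/-! ### Simple zeros -/

/-- For a good place there is a reduced function such that each of its lifts has exactly one zero
reducing to that place. -/
theorem exists_unique_zero (hgap : S.GapBound n₀) {v : Place K S.F} (hv : ¬ IsBad v) :
    ∃ (n : ℕ) (x : LaurentSeries k), x ∈ redSub S.surj (S.space (S.atPt (n : ℤ))) ∧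
      ∀ u : S.F, (u : LaurentSeries K) ∈ S.space (S.atPt (n : ℤ)) →
        Red A π (u : LaurentSeries K) x →
        ∃! w : Place K S.F, (0 < w.ord u + S.atPt (n : ℤ) w) ∧
          S.effIdeal' (Finsupp.single w 1) = S.effIdeal' (Finsupp.single v 1) := by
  have := hgap.isDedekindDomain
  have hEv : S.IsEff (Finsupp.single v 1) := isEff_single v zero_le_one
  set P := S.effIdeal' (Finsupp.single v 1) with hPdef
  have hP0 : P ≠ ⊥ := hgap.effIdeal'_ne_bot hEv
  obtain ⟨hPmax, -⟩ := hgap.effIdeal'_single_isMaximal hv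
  have hlt : P * P < P := lt_of_le_of_ne Ideal.mul_le_left fun heq =>
    hv (mul_left_cancel₀ hP0 (heq.trans (Ideal.mul_top _).symm))
  obtain ⟨c, hcP, hcP2⟩ := SetLike.exists_of_lt hlt
  obtain ⟨n, hn⟩ := c.2
  refine ⟨n, c, hn, fun u hu hux => ?_⟩
  have hu0 : u ≠ 0 := by
    rintro rfl
    refine hcP2 ?_
    have : c = 0 := Subtype.ext (hux.unique red_zero)
    rw [this]
    exact Submodule.zero_mem _
  obtain ⟨Eu, hEu, -⟩ := S.exists_div hu0
  obtain ⟨u', hu', huv⟩ := S.exists_of_mem_space hu
  obtain rfl : u' = u := Subtype.ext hu'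
  set E := Eu + S.atPt (n : ℤ) with hEdef
  have hE : S.IsEff E := fun w => by
    have h1 := (huv w).resolve_left hu0
    rw [hEdef, Finsupp.add_apply, hEu w]
    omega
  have hEapp : ∀ w, E w = w.ord u' + S.atPt (n : ℤ) w := fun w => by
    rw [hEdef, Finsupp.add_apply, hEu w]
  have hc0 : (c : LaurentSeries k) ≠ 0 := fun h => hcP2 (by
    rw [show c = 0 from Subtype.ext h]; exact Submodule.zero_mem _)
  have hspan := effIdeal_eq_span hE hu0 (M := (n : ℤ))
    (fun w => by rw [hEdef, Finsupp.add_apply, hEu w]; ring) hc0 hux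
  have hEP : S.effIdeal' E ≤ P := by
    intro a ha
    obtain ⟨e, he⟩ := Submodule.mem_span_singleton.mp (hspan.le (mem_effIdeal'.mp ha))
    have : a = e * c := Subtype.ext (by rw [MulMemClass.coe_mul]; exact he.symm)
    rw [this]
    exact P.mul_mem_left e hcP
  have hcE : c ∈ S.effIdeal' E :=
    mem_effIdeal'.mpr (hspan.symm.le (Submodule.mem_span_singleton_self _))
  have hex : ∃ w, 0 < E w ∧ S.effIdeal' (Finsupp.single w 1) = P := by
    obtain ⟨d, hd⟩ := Int.eq_ofNat_of_zero_le (degree_nonneg_of_isEff hE)
    clear hspan hcE hEapp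
    revert hEP hE hd
    generalize E = G
    intro hG hGP hd
    induction d generalizing G with
    | zero =>
      rw [S.eq_zero_of_effective hG (by simpa using hd), effIdeal'_zero] at hGP
      exact absurd (top_unique hGP) hPmax.ne_top
    | succ d ih =>
      obtain ⟨w, G', rfl, hw, hG', hdeg⟩ := hG.exists_eq_single_add hd
      rw [hgap.effIdeal'_add (isEff_single w zero_le_one) hG'] at hGP
      rcases hPmax.isPrime.mul_le.mp hGP with h | h
      · refine ⟨w, hw, ?_⟩
        by_cases hwb : IsBad w
        · exact absurd (top_unique (hwb.ge.trans h)) hPmax.ne_top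
        · exact (hgap.effIdeal'_single_isMaximal hwb).1.eq_of_le hPmax.ne_top h
      · obtain ⟨w', hw', hw'P⟩ := ih _ hG' h hdeg
        exact ⟨w', lt_of_lt_of_le hw' (le_add_of_nonneg_left (isEff_single w zero_le_one w')),
          hw'P⟩
  obtain ⟨w, hw, hwP⟩ := hex
  refine ⟨w, ⟨hEapp w ▸ hw, hwP⟩, fun w' ⟨hw', hw'P⟩ => ?_⟩
  rw [← hEapp w'] at hw'
  by_contra hne
  refine hcP2 ?_
  have hle : ∀ z, (Finsupp.single w' 1 + Finsupp.single w 1 : Divisor K S.F) z ≤ E z := fun z => by
    classical
    rw [Finsupp.add_apply, Finsupp.single_apply, Finsupp.single_apply]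
    have := hE z
    split_ifs with h1 h2 h2
    · exact absurd (h1.trans h2.symm) hne
    · subst h1; omega
    · subst h2; omega
    · omega
  have := effIdeal'_antitone hle hcE
  rwa [hgap.effIdeal'_add (isEff_single w' zero_le_one) (isEff_single w zero_le_one), hw'P,
    hwP] at this

end Fermat.Agent.MazurStep
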