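import Fermat.Agent.MordellWeil.Divisible
import Fermat.Agent.FF.ModularField
import Fermat.Agent.Gal.Places

/-!
# `J₀(N)(ℚ̄)` is divisible

`exists_nsmul_eq_jZero`: every point of `J₀(N)(ℚ̄)` is `n` times a point for every `n > 0`, because
`ℚ̄` is countable.
-/

set_option autoImplicit false

noncomputable section

open AlgebraicCurve ModularCurve

namespace Fermat.Agent.MazurStep

/-- **Divisibility of `J₀(N)(ℚ̄)`.** -/
theorem exists_nsmul_eq_jZero (N : ℕ) [NeZero N] (x : JZero N) (n : ℕ) (hn : 0 < n) :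
    ∃ y : JZero N, n • y = x :=
  haveI : Countable (AlgebraicClosure ℚ) := Cardinal.mk_le_aleph0_iff.mp
    ((Algebra.IsAlgebraic.cardinalMk_le_max ℚ (AlgebraicClosure ℚ)).trans
      (max_le Cardinal.mk_le_aleph0 le_rfl))
  Fermat.Agent.MW.exists_nsmul_eq_of_countable n hn.ne' x

end Fermat.Agent.MazurStep
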