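import Fermat.Agent.MazurStep.Climb

/-!
# Torsion in the kernel of reduction

For a class `z` killed by `l`, reducing to zero, in the part on which the Frobenius matrix is
invertible, the level `|Λ|` is reached (`Λ ^ (l - 1) = -l`); the residue `τ` of `t / Λ` is additive,
determines `z`, satisfies `M τ ^ l = τ` and transforms under a symmetry by the residue of `σ Λ / Λ`.
-/

set_option autoImplicit false
attribute [-instance] IsScalarTower.of_algHom

noncomputable section

namespace Fermat.Agent.MazurStep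

open HahnSeries AlgebraicCurve
open Fermat.Agent.Reduction
open Fermat.Agent.Reduction.CurveRed

variable {K k : Type*} [Field K] [Field k] {A : ValuationSubring K} {π : A →+* k}
  {S : CurveRed A π} {n₀ : ℕ} {z z' : Pic0 K S.F} {num den : S.F} {m : ℤ} {r : A.ValueGroup}

/-- The data of the formal group at `l`: the Frobenius matrix `M`, invertible modulo `l` on the
image of the matrix `E`, and a root `Λ` of `-l` of order `l - 1`. -/
structure LocalData (S : CurveRed A π) (n₀ : ℕ) where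
  /-- the cusp forms -/
  Φ : Forms S
  gap : S.GapBound n₀
  /-- the residue characteristic -/
  l : ℕ
  prime : l.Prime
  valuation_lt : A.valuation (l : K) < 1
  ne_zero : (l : K) ≠ 0
  /-- the Frobenius matrix -/
  M : Matrix (Fin S.g) (Fin S.g) ℤ
  isFrob : Φ.IsFrobMatrix l M
  /-- the matrix cutting out the part under consideration -/
  E : Matrix (Fin S.g) (Fin S.g) ℤ
  /-- an inverse of `M` on the image of `E` -/
  M' : Matrix (Fin S.g) (Fin S.g) ℤ
  inverse : ∀ i j, (l : ℤ) ∣ (M' * (E * M)) i j - E i j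
  /-- a root of `-l` -/
  Λ : K
  Λ_pow : Λ ^ (l - 1) = -(l : K)

/-- `op` acts on representatives through the matrix `mat`. -/
def LocalData.Tracks (L : LocalData S n₀) (op : Pic0 K S.F →+ Pic0 K S.F)
    (mat : Matrix (Fin S.g) (Fin S.g) ℤ) : Prop :=
  ∀ (H : Set (Sym S)) (z : Pic0 K S.F) (num den : S.F) (m : ℤ) (r : A.ValueGroup),
    IsRatRep n₀ H z num den m r → ∃ (num' den' : S.F) (m' : ℤ),
      IsRatRep n₀ H (op z) num' den' m' r ∧ ∀ i, A.valuation
        (L.Φ.tang num' den' i - ∑ j, (mat i j : K) * L.Φ.tang num den j) ≤ r * r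

/-- A set of symmetries with the full residue field and discrete fixed constants. -/
structure Good (L : LocalData S n₀) (H : Set (Sym S)) : Prop where
  rich : Rich H
  disc : Discrete A (fixedField H) (A.valuation (L.l : K))

namespace LocalData

variable (L : LocalData S n₀)

/-- The valuation of `l`. -/
def γ : A.ValueGroup := A.valuation (L.l : K)

/-- The valuation of `Λ`. -/
def ρ : A.ValueGroup := A.valuation L.Λ

theorem γ_ne_zero : L.γ ≠ 0 := (Valuation.ne_zero_iff _).mpr L.ne_zero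

theorem γ_lt_one : L.γ < 1 := L.valuation_lt

theorem ρ_pow : L.ρ ^ (L.l - 1) = L.γ := by rw [ρ, γ, ← map_pow, L.Λ_pow, Valuation.map_neg]

theorem Λ_pow_prime : L.Λ ^ L.l = -(L.l : K) * L.Λ := by
  rw [← L.Λ_pow, ← pow_succ, Nat.sub_add_cancel L.prime.pos]

theorem Λ_ne_zero : L.Λ ≠ 0 := fun h => by
  have h1 := L.Λ_pow
  rw [h, zero_pow (by have := L.prime.two_le; omega), eq_comm, neg_eq_zero] at h1
  exact L.ne_zero h1

theorem ρ_ne_zero : L.ρ ≠ 0 := (Valuation.ne_zero_iff _).mpr L.Λ_ne_zero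

theorem ρ_lt_one : L.ρ < 1 := by
  by_contra h
  rw [not_lt] at h
  exact (L.γ_lt_one.trans_le (one_le_pow₀ (n := L.l - 1) h)).ne L.ρ_pow.symm

theorem γ_le_ρ : L.γ ≤ L.ρ := by
  rw [← L.ρ_pow]
  exact pow_le_of_le_one zero_le L.ρ_lt_one.le (by have := L.prime.two_le; omega)

theorem ρ_pow_prime : L.ρ ^ L.l = L.γ * L.ρ := by
  rw [← L.ρ_pow, ← pow_succ, Nat.sub_add_cancel L.prime.pos]

theorem pow_prime_eq {r : A.ValueGroup} : r ^ L.l = r ^ (L.l - 1) * r := by
  rw [← pow_succ, Nat.sub_add_cancel L.prime.pos]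

/-! ### Reaching the level of `Λ` -/

/-- **A representative at the level of `Λ`.** -/
theorem exists_rep_ρ {op : Pic0 K S.F →+ Pic0 K S.F} (hop : L.Tracks op L.E) {H : Set (Sym S)}
    (hH : Good L H) (hz : L.gap.sp z = 0) (hfix : ∀ σ ∈ H, σ.act z = z) (hlz : L.l • z = 0)
    (hopz : op z = z) : ∃ (num den : S.F) (m : ℤ), IsRatRep n₀ H z num den m L.ρ := by
  obtain ⟨num, den, m, r, h⟩ := exists_isRatRep hH.rich L.gap hz hfix
  obtain ⟨num', den', r', -, h', hlev⟩ :=
    exists_climb L.Φ L.gap hH.rich L.γ_ne_zero L.γ_lt_one hH.disc h 1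
  refine ⟨num', den', m, h'.mono ?_ L.ρ_lt_one⟩
  rcases hlev with hle | ⟨i, hi⟩
  · exact hle.trans ((pow_one L.γ).le.trans L.γ_le_ρ)
  by_contra hgt
  rw [not_le] at hgt
  have hr0 : r' ≠ 0 := ne_zero_of_lt hgt
  have hr1 := h'.1.lt_one
  have hγr : L.γ * r' < r' ^ L.l := by
    rw [L.pow_prime_eq, ← L.ρ_pow]
    exact mul_lt_mul_of_pos_right (pow_lt_pow_left₀ hgt zero_le
      (by have := L.prime.two_le; omega)) (zero_lt_iff.mpr hr0)
  have hR : r' ^ L.l < 1 := pow_lt_one₀ zero_le hr1 L.prime.ne_zero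
  have hrel : ∀ i, A.valuation (∑ j, (L.M i j : K) * L.Φ.tang num' den' j ^ L.l) < r' ^ L.l := by
    intro i
    have h1 := L.Φ.valuation_tang_torsion L.gap h'.1 L.prime L.valuation_lt L.isFrob hlz hR hγr.le
      le_rfl i
    have h2 : A.valuation ((L.l : K) * L.Φ.tang num' den' i) < r' ^ L.l := by
      rw [map_mul]
      exact (mul_le_mul' le_rfl (L.Φ.valuation_tang_le h'.1 i)).trans_lt hγr
    have h3 : max (A.valuation (L.l : K) * (r' * r')) (r' ^ L.l * r' ^ L.l) < r' ^ L.l := by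
      refine max_lt ?_ ((mul_lt_mul_of_pos_left hR (pow_pos (zero_lt_iff.mpr hr0) _)).trans_eq
        (mul_one _))
      rw [← mul_assoc]
      exact ((mul_le_of_le_one_right' hr1.le).trans_lt hγr)
    have h4 := (A.valuation.map_sub ((L.l : K) * L.Φ.tang num' den' i +
      ∑ j, (L.M i j : K) * L.Φ.tang num' den' j ^ L.l)
      ((L.l : K) * L.Φ.tang num' den' i)).trans_lt (max_lt (h1.trans_lt h3) h2)
    rwa [add_sub_cancel_left] at h4
  have hEt := valuation_lt_of_frob L.prime L.valuation_lt L.inverse hr0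
    (L.Φ.valuation_tang_le h'.1) hrel i
  obtain ⟨num₂, den₂, m₂, h₂, hmat⟩ := hop H z num' den' m r' h'
  rw [hopz] at h₂
  have hd := L.Φ.valuation_tang_sub_le' L.gap h'.1 h₂.1 i
  have hrr : r' * r' < r' :=
    (mul_lt_mul_of_pos_left hr1 (zero_lt_iff.mpr hr0)).trans_eq (mul_one _)
  have h5 : A.valuation (L.Φ.tang num' den' i - L.Φ.tang num₂ den₂ i +
      (L.Φ.tang num₂ den₂ i - ∑ j, (L.E i j : K) * L.Φ.tang num' den' j) +
      ∑ j, (L.E i j : K) * L.Φ.tang num' den' j) < r' :=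
    (A.valuation.map_add _ _).trans_lt (max_lt ((A.valuation.map_add _ _).trans_lt
      (max_lt (hd.trans_lt hrr) ((hmat i).trans_lt hrr))) hEt)
  rw [sub_add_sub_cancel, sub_add_cancel, hi] at h5
  exact lt_irrefl _ h5

/-! ### The residue of `t / Λ` -/

open Classical in
/-- The residue of `a / Λ`. -/
def res (a : K) : k := if h : a / L.Λ ∈ A then π ⟨_, h⟩ else 0

/-- The residue of the tangent divided by `Λ`. -/
def tau (num den : S.F) (i : Fin S.g) : k := L.res (L.Φ.tang num den i)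

theorem div_mem {a : K} (ha : A.valuation a ≤ L.ρ) : a / L.Λ ∈ A := by
  rw [← ValuationSubring.valuation_le_one_iff, map_div₀]
  exact (div_le_one₀ (zero_lt_iff.mpr L.ρ_ne_zero)).mpr ha

theorem res_eq {a : K} (ha : A.valuation a ≤ L.ρ) : L.res a = π ⟨_, L.div_mem ha⟩ :=
  dif_pos (L.div_mem ha)

theorem res_congr {a b : K} (hb : A.valuation b ≤ L.ρ) (h : A.valuation (a - b) < L.ρ) :
    L.res a = L.res b := by
  have ha : A.valuation a ≤ L.ρ := by
    rw [← sub_add_cancel a b]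
    exact (A.valuation.map_add _ _).trans (max_le h.le hb)
  rw [L.res_eq ha, L.res_eq hb, ← sub_eq_zero, ← map_sub, residue_eq_zero_iff S.surj]
  show A.valuation (a / L.Λ - b / L.Λ) < 1
  rw [← sub_div, map_div₀]
  exact (div_lt_one₀ (zero_lt_iff.mpr L.ρ_ne_zero)).mpr h

theorem res_add {a b : K} (ha : A.valuation a ≤ L.ρ) (hb : A.valuation b ≤ L.ρ) :
    L.res (a + b) = L.res a + L.res b := by
  rw [L.res_eq ha, L.res_eq hb, L.res_eq ((A.valuation.map_add _ _).trans (max_le ha hb)),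
    ← map_add]
  exact congrArg π (Subtype.ext (add_div a b L.Λ))

theorem res_intMul (q : ℤ) {a : K} (ha : A.valuation a ≤ L.ρ) :
    L.res ((q : K) * a) = (q : k) * L.res a := by
  have hq : A.valuation ((q : K) * a) ≤ L.ρ := by
    rw [map_mul]
    exact (mul_le_of_le_one_left' (valuation_intCast_le_one q)).trans ha
  rw [L.res_eq ha, L.res_eq hq, ← map_intCast π q, ← map_mul]
  exact congrArg π (Subtype.ext (mul_div_assoc _ a L.Λ))

theorem res_sum {ι : Type*} (s : Finset ι) {f : ι → K} (hf : ∀ j ∈ s, A.valuation (f j) ≤ L.ρ) :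
    L.res (∑ j ∈ s, f j) = ∑ j ∈ s, L.res (f j) := by
  classical
  induction s using Finset.induction with
  | empty =>
    rw [Finset.sum_empty, Finset.sum_empty, L.res_eq (by simp), ← map_zero π]
    exact congrArg π (Subtype.ext (zero_div _))
  | insert a s ha ih =>
    rw [Finset.sum_insert ha, Finset.sum_insert ha,
      L.res_add (hf a (Finset.mem_insert_self a s))
        (A.valuation.map_sum_le fun j hj => hf j (Finset.mem_insert_of_mem hj)),
      ih fun j hj => hf j (Finset.mem_insert_of_mem hj)]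

theorem valuation_tang_le_ρ (h : IsRep z num den m L.ρ) (i : Fin S.g) :
    A.valuation (L.Φ.tang num den i) ≤ L.ρ := L.Φ.valuation_tang_le h i

theorem ρ_sq_lt : L.ρ * L.ρ < L.ρ :=
  (mul_lt_mul_of_pos_left L.ρ_lt_one (zero_lt_iff.mpr L.ρ_ne_zero)).trans_eq (mul_one _)

/-- The residue does not depend on the representative. -/
theorem tau_eq {num' den' : S.F} {m' : ℤ} (h : IsRep z num den m L.ρ)
    (h' : IsRep z num' den' m' L.ρ) : L.tau num den = L.tau num' den' := funext fun i =>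
  L.res_congr (L.valuation_tang_le_ρ h' i)
    ((L.Φ.valuation_tang_sub_le' L.gap h h' i).trans_lt L.ρ_sq_lt)

/-- The residue is additive. -/
theorem tau_mul {num' den' : S.F} {m' : ℤ} (h : IsRep z num den m L.ρ)
    (h' : IsRep z' num' den' m' L.ρ) :
    L.tau (num * num') (den * den') = L.tau num den + L.tau num' den' := funext fun i => by
  have hle : A.valuation (L.Φ.tang num den i + L.Φ.tang num' den' i) ≤ L.ρ :=
    (A.valuation.map_add _ _).trans
      (max_le (L.valuation_tang_le_ρ h i) (L.valuation_tang_le_ρ h' i))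
  rw [tau, L.res_congr hle ((L.Φ.tang_mul h h' i).trans_lt L.ρ_sq_lt),
    L.res_add (L.valuation_tang_le_ρ h i) (L.valuation_tang_le_ρ h' i)]
  rfl

/-- The residue of a tracked operator. -/
theorem tau_mat {mat : Matrix (Fin S.g) (Fin S.g) ℤ} {num' den' : S.F}
    (h : IsRep z num den m L.ρ)
    (hmat : ∀ i, A.valuation
      (L.Φ.tang num' den' i - ∑ j, (mat i j : K) * L.Φ.tang num den j) ≤ L.ρ * L.ρ)
    (i : Fin S.g) : L.tau num' den' i = ∑ j, (mat i j : k) * L.tau num den j := by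
  have hle : ∀ j, A.valuation ((mat i j : K) * L.Φ.tang num den j) ≤ L.ρ := fun j => by
    rw [map_mul]
    exact (mul_le_of_le_one_left' (valuation_intCast_le_one _)).trans (L.valuation_tang_le_ρ h j)
  rw [tau, L.res_congr (A.valuation.map_sum_le fun j _ => hle j) ((hmat i).trans_lt L.ρ_sq_lt),
    L.res_sum _ fun j _ => hle j]
  exact Finset.sum_congr rfl fun j _ => L.res_intMul _ (L.valuation_tang_le_ρ h j)

/-- **The equation** `M τ ^ l = τ` for the residue of a class killed by `l`. -/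
theorem tau_frob (h : IsRep z num den m L.ρ) (hlz : L.l • z = 0) (i : Fin S.g) :
    ∑ j, (L.M i j : k) * L.tau num den j ^ L.l = L.tau num den i := by
  have hγρ : L.γ * L.ρ < 1 := (mul_le_of_le_one_left' L.γ_lt_one.le).trans_lt L.ρ_lt_one
  have h1 := L.Φ.valuation_tang_torsion L.gap h L.prime L.valuation_lt L.isFrob hlz hγρ le_rfl
    L.ρ_pow_prime.le i
  have h2 : max (A.valuation (L.l : K) * (L.ρ * L.ρ)) (L.γ * L.ρ * (L.γ * L.ρ)) < L.γ * L.ρ := by
    refine max_lt (mul_lt_mul_of_pos_left L.ρ_sq_lt (zero_lt_iff.mpr L.γ_ne_zero)) ?_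
    exact (mul_lt_mul_of_pos_left hγρ
      (zero_lt_iff.mpr (mul_ne_zero L.γ_ne_zero L.ρ_ne_zero))).trans_eq (mul_one _)
  set t := L.Φ.tang num den with ht
  let u : Fin S.g → A := fun j => ⟨t j / L.Λ, L.div_mem (L.valuation_tang_le_ρ h j)⟩
  have hu : ∀ j, L.tau num den j = π (u j) := fun j => L.res_eq (L.valuation_tang_le_ρ h j)
  simp only [hu]
  rw [← sub_eq_zero]
  simp only [← map_intCast π, ← map_pow, ← map_mul, ← map_sum, ← map_sub]
  rw [residue_eq_zero_iff S.surj]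
  have he : ((∑ j, (L.M i j : A) * u j ^ L.l - u i : A) : K) =
      ((L.l : K) * t i + ∑ j, (L.M i j : K) * t j ^ L.l) / L.Λ ^ L.l := by
    push_cast
    simp only [u, div_pow, ← mul_div_assoc, ← Finset.sum_div]
    rw [add_div, sub_eq_add_neg, add_comm]
    congr 1
    rw [L.Λ_pow_prime, neg_mul, div_neg, mul_div_mul_left _ _ L.ne_zero]
  rw [he, map_div₀, map_pow, show A.valuation L.Λ = L.ρ from rfl, L.ρ_pow_prime]
  exact (div_lt_one₀ (zero_lt_iff.mpr (mul_ne_zero L.γ_ne_zero L.ρ_ne_zero))).mpr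
    (h1.trans_lt h2)

/-- **The residue determines the class.** -/
theorem eq_zero_of_tau {H : Set (Sym S)} (hH : Good L H) (h : IsRatRep n₀ H z num den m L.ρ)
    (hlz : L.l • z = 0) (hτ : L.tau num den = 0) : z = 0 := by
  have hlt : ∀ i, A.valuation (L.Φ.tang num den i) < L.ρ := fun i => by
    have h0 : L.res (L.Φ.tang num den i) = 0 := congrFun hτ i
    rw [L.res_eq (L.valuation_tang_le_ρ h.1 i), residue_eq_zero_iff S.surj] at h0
    change A.valuation (L.Φ.tang num den i / L.Λ) < 1 at h0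
    rw [map_div₀] at h0
    exact (div_lt_one₀ (zero_lt_iff.mpr L.ρ_ne_zero)).mp h0
  obtain ⟨num₁, den₁, r₁, hr₁, h₁, hn₁, hd₁⟩ := h.1.deepen_mem L.Φ L.gap (liftable_rat hH.rich)
    h.2.2.1 h.2.2.2 L.ρ_ne_zero h.2.1 hlt
  refine eq_zero_of_deep (m := m) L.gap L.γ_ne_zero L.γ_lt_one fun r hr0 _ => ?_
  obtain ⟨b, hb⟩ := A.valuation_surjective r
  obtain ⟨N, hN⟩ : ∃ N : ℕ, L.γ ^ N ≤ r := by
    obtain ⟨N, hN⟩ := S.arch (L.l : A)
      ((residue_eq_zero_iff S.surj _).mpr (by simpa using L.valuation_lt)) b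
      (fun h0 => hr0 (by rw [← hb, h0, map_zero]))
    exact ⟨N, by rw [← hb]; simpa [γ] using hN⟩
  obtain ⟨num₂, den₂, r₂, hr₂, h₂, hlev⟩ := exists_climb L.Φ L.gap hH.rich L.γ_ne_zero
    L.γ_lt_one hH.disc (⟨h₁, h.2.1, hn₁, hd₁⟩ : IsRatRep n₀ H z num₁ den₁ m r₁) N
  refine ⟨num₂, den₂, h₂.1.mono ?_ ‹_›⟩
  rcases hlev with hle | ⟨i, hi⟩
  · exact hle.trans hN
  by_contra hgt
  rw [not_le] at hgt
  have hr2 : r₂ ≠ 0 := ne_zero_of_lt hgt
  have hr2ρ : r₂ < L.ρ := hr₂.trans_lt hr₁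
  have hγr1 : L.γ * r₂ < 1 :=
    (mul_le_of_le_one_left' L.γ_lt_one.le).trans_lt h₂.1.lt_one
  have hpow : r₂ ^ L.l < L.γ * r₂ := by
    rw [L.pow_prime_eq, ← L.ρ_pow]
    exact mul_lt_mul_of_pos_right (pow_lt_pow_left₀ hr2ρ zero_le
      (by have := L.prime.two_le; omega)) (zero_lt_iff.mpr hr2)
  have h1 := L.Φ.valuation_tang_torsion L.gap h₂.1 L.prime L.valuation_lt L.isFrob hlz hγr1 le_rfl
    hpow.le i
  have h3 : max (A.valuation (L.l : K) * (r₂ * r₂)) (L.γ * r₂ * (L.γ * r₂)) < L.γ * r₂ := by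
    refine max_lt (mul_lt_mul_of_pos_left ?_ (zero_lt_iff.mpr L.γ_ne_zero)) ?_
    · exact (mul_lt_mul_of_pos_left h₂.1.lt_one (zero_lt_iff.mpr hr2)).trans_eq (mul_one _)
    · exact (mul_lt_mul_of_pos_left hγr1
        (zero_lt_iff.mpr (mul_ne_zero L.γ_ne_zero hr2))).trans_eq (mul_one _)
  have h4 : A.valuation (∑ j, (L.M i j : K) * L.Φ.tang num₂ den₂ j ^ L.l) < L.γ * r₂ := by
    refine A.valuation.map_sum_lt (mul_ne_zero L.γ_ne_zero hr2) fun j _ => ?_
    rw [map_mul, map_pow]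
    exact (mul_le_of_le_one_left' (valuation_intCast_le_one _)).trans_lt
      ((pow_le_pow_left' (L.Φ.valuation_tang_le h₂.1 j) _).trans_lt hpow)
  have h5 := (A.valuation.map_sub ((L.l : K) * L.Φ.tang num₂ den₂ i +
    ∑ j, (L.M i j : K) * L.Φ.tang num₂ den₂ j ^ L.l)
    (∑ j, (L.M i j : K) * L.Φ.tang num₂ den₂ j ^ L.l)).trans_lt (max_lt (h1.trans_lt h3) h4)
  rw [add_sub_cancel_right, map_mul, hi] at h5
  exact lt_irrefl _ h5

/-- **Equivariance**: a symmetry multiplies the residue by the residue of `σ Λ / Λ`. -/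
theorem tau_map (σ : Sym S) {c : k} (hc : ∀ hm : σ.base L.Λ / L.Λ ∈ A, π ⟨_, hm⟩ = c)
    (h : IsRep z num den m L.ρ) :
    L.tau (σ.ringAut num) (σ.ringAut den) = c • L.tau num den := funext fun i => by
  have ha := L.valuation_tang_le_ρ h i
  have hb : A.valuation (σ.base (L.Φ.tang num den i)) ≤ L.ρ := (σ.map_valuation _).le.trans ha
  have hm : σ.base L.Λ / L.Λ ∈ A := L.div_mem (σ.map_valuation _).le
  rw [tau, σ.tang_map, Pi.smul_apply, smul_eq_mul, tau, L.res_eq ha, L.res_eq hb, ← hc hm,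
    ← σ.residue_eq ⟨_, L.div_mem ha⟩ ((σ.apply_mem_iff _).mpr (L.div_mem ha)), ← map_mul]
  refine congrArg π (Subtype.ext ?_)
  show σ.base (L.Φ.tang num den i) / L.Λ =
    σ.base L.Λ / L.Λ * σ.base (L.Φ.tang num den i / L.Λ)
  rw [map_div₀]
  field_simp [L.Λ_ne_zero, (map_ne_zero_iff _ σ.base.injective).mpr L.Λ_ne_zero]

end LocalData

end Fermat.Agent.MazurStep
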