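import Fermat.Agent.MazurStep.HeckeSer
import Fermat.Agent.MazurStep.Torsion

/-!
# The norm lift of `T_l` on representatives

A correspondence given by the series `heckeSer l` on functions maps a representative at level `r`
to one at level `r` and acts on tangents through the coefficient matrix of `T_l` modulo `r * r`.
The relation between operators and matrices is closed under sums and composites.
-/

set_option autoImplicit false
attribute [-instance] IsScalarTower.of_algHom

noncomputable section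

namespace Fermat.Agent.MazurStep

open HahnSeries AlgebraicCurve ModularCurve
open Fermat.Agent.Reduction
open Fermat.Agent.Reduction.CurveRed

variable {K k : Type*} [Field K] [Field k] {A : ValuationSubring K} {π : A →+* k}

/-- A correspondence given on functions by `heckeSer l`. -/
structure NormLift (S : CurveRed A π) (l : ℕ) [NeZero l] where
  /-- the action on divisors -/
  T : Divisor K S.F →+ Divisor K S.F
  /-- the action on classes -/
  op : Pic0 K S.F →+ Pic0 K S.F
  isEff : ∀ E, S.IsEff E → S.IsEff (T E)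
  map_pt : T (S.atPt 1) = S.atPt ((l : ℤ) + 1)
  degree : ∀ E, Divisor.degree (T E) = ((l : ℤ) + 1) * Divisor.degree E
  lift : ∀ u : S.F, u ≠ 0 → ∃ u' : S.F,
    (u' : LaurentSeries K) = heckeSer l (u : LaurentSeries K) ∧ fdiv u' = T (fdiv u)
  op_mk : ∀ D : Divisor.degZero (K := K) (F := S.F),
    op (Pic0.mk D) = Pic0.mk ⟨T (D : Divisor K S.F), Divisor.mem_degZero.mpr (by
      rw [degree, Divisor.mem_degZero.mp D.2, mul_zero])⟩

variable {S : CurveRed A π} {n₀ : ℕ} {z : Pic0 K S.F} {num den : S.F} {m : ℤ} {r : A.ValueGroup}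

namespace NormLift

variable {l : ℕ} [NeZero l] (L : NormLift S l)

theorem map_atPt (n : ℤ) : L.T (S.atPt n) = S.atPt (((l : ℤ) + 1) * n) := by
  have h : S.atPt n = n • S.atPt 1 := by
    rw [atPt, atPt, Finsupp.smul_single, zsmul_one, Int.cast_id]
  have h' : S.atPt (((l : ℤ) + 1) * n) = n • S.atPt ((l : ℤ) + 1) := by
    rw [atPt, atPt, Finsupp.smul_single, zsmul_eq_mul, Int.cast_id, mul_comm]
  rw [h, h', map_zsmul, L.map_pt]

theorem map_mono {D D' : Divisor K S.F} (h : ∀ v, D v ≤ D' v) (v : Place K S.F) :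
    L.T D v ≤ L.T D' v := by
  have h1 := L.isEff (D' - D) (fun w => by rw [Finsupp.sub_apply]; exact sub_nonneg.mpr (h w)) v
  rw [map_sub, Finsupp.sub_apply] at h1
  linarith

/-- The lift of a function regular outside `q = 0` up to a divisor. -/
theorem exists_lift_mem_space {D : Divisor K S.F} {u : S.F} (hu : u ≠ 0)
    (h : (u : LaurentSeries K) ∈ S.space D) : ∃ u' : S.F, u' ≠ 0 ∧
      (u' : LaurentSeries K) = heckeSer l (u : LaurentSeries K) ∧ fdiv u' = L.T (fdiv u) ∧
      (u' : LaurentSeries K) ∈ S.space (L.T D) := by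
  obtain ⟨u', hu's, hu'd⟩ := L.lift u hu
  have hune : u' ≠ 0 := fun h0 =>
    heckeSer_ne_zero l (fun h1 => hu (Subtype.ext h1)) (by rw [← hu's, h0]; rfl)
  refine ⟨u', hune, hu's, hu'd, S.coe_mem_space.mpr fun v => Or.inr ?_⟩
  rw [← fdiv_apply hune, hu'd]
  have hle : ∀ w, (-D) w ≤ fdiv u w := fun w => by
    rw [Finsupp.neg_apply, fdiv_apply hu]
    exact (S.coe_mem_space.mp h w).resolve_left hu
  have h1 := L.map_mono hle v
  rwa [map_neg, Finsupp.neg_apply] at h1

include L in
theorem exists_exact (h : IsExact num m) : ∃ u' : S.F,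
    (u' : LaurentSeries K) = heckeSer l (num : LaurentSeries K) ∧
      IsExact u' (((l : ℤ) + 1) * m) := by
  obtain ⟨x, hx, hxo, hred⟩ := h.2
  obtain ⟨u', -, hu's, -, hu'm⟩ := L.exists_lift_mem_space h.ne_zero h.1
  rw [L.map_atPt] at hu'm
  refine ⟨u', hu's, hu'm, heckeSer l x, heckeSer_ne_zero l hx, ?_, ?_⟩
  · rw [order_heckeSer, hxo]; ring
  · rw [hu's]; exact red_heckeSer l hred

theorem effIdeal'_map_eq_top {v : Place K S.F} (hv : IsBad v) :
    S.effIdeal' (L.T (Finsupp.single v 1)) = ⊤ := by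
  have h1 : (1 : S.Cbar) ∈ S.effIdeal' (Finsupp.single v 1) := hv.symm ▸ Submodule.mem_top
  obtain ⟨n, y, hy, hyx⟩ := mem_effIdeal.mp (mem_effIdeal'.mp h1)
  rw [OneMemClass.coe_one] at hyx
  obtain ⟨u, rfl, -⟩ := S.exists_of_mem_space hy
  have hu : u ≠ 0 := by
    rintro rfl
    exact one_ne_zero (hyx.unique red_zero)
  obtain ⟨u', -, hu's, -, hu'm⟩ := L.exists_lift_mem_space hu hy
  rw [map_sub, L.map_atPt] at hu'm
  refine (Ideal.eq_top_iff_one _).mpr (mem_effIdeal'.mpr (mem_effIdeal.mpr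
    ⟨(l + 1) * n, (u' : LaurentSeries K), ?_, ?_⟩))
  · push_cast
    exact hu'm
  · rw [OneMemClass.coe_one, hu's, ← heckeSer_one (R := k) l]
    exact red_heckeSer l hyx

theorem isBadDiv_map (hgap : S.GapBound n₀) {R : Divisor K S.F} (hR : IsBadDiv R) :
    IsBadDiv (L.T R) := by
  classical
  intro w hw
  rw [← Finsupp.sum_single R, map_finsuppSum, Finsupp.sum, Finsupp.finsetSum_apply] at hw
  obtain ⟨v, hv, hvw⟩ := Finset.exists_ne_zero_of_sum_ne_zero hw
  have hbad := (effIdeal'_eq_top_iff hgap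
    (L.isEff _ (isEff_single v (zero_le_one (α := ℤ))))).mp
    (L.effIdeal'_map_eq_top (hR v (Finsupp.mem_support_iff.mp hv)))
  refine hbad w fun h0 => hvw ?_
  rw [show Finsupp.single v (R v) = R v • Finsupp.single v (1 : ℤ) by
    rw [Finsupp.smul_single, smul_eq_mul, mul_one], map_zsmul, Finsupp.smul_apply, h0, smul_zero]

theorem op_badHom (R : Divisor K S.F) : L.op (badHom (S := S) R) = badHom (S := S) (L.T R) := by
  rw [badHom_apply, badHom_apply, badClass, badClass, L.op_mk]
  refine congrArg Pic0.mk (Subtype.ext ?_)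
  show L.T (R - S.atPt (Divisor.degree R)) = L.T R - S.atPt (Divisor.degree (L.T R))
  rw [map_sub, L.map_atPt, L.degree]

theorem badPart_map_fdiv (hgap : S.GapBound n₀) (h : IsRep z num den m r) {num' : S.F} {n' : ℤ}
    (hs : (num' : LaurentSeries K) = heckeSer l (num : LaurentSeries K))
    (hd : fdiv num' = L.T (fdiv num))
    (hn' : (num' : LaurentSeries K) ∈ S.space (S.atPt n')) :
    badPart (S := S) (fdiv num') = L.T (badPart (S := S) (fdiv num)) := by
  obtain ⟨n, hn⟩ := h.regular
  obtain ⟨x, hx, hxo, -, hnumx⟩ := h.exists_red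
  set G := fdiv num - badPart (S := S) (fdiv num) with hG
  have hGeff : S.IsEff G := fun v => by
    by_cases hb : IsBad v
    · rw [hG, Finsupp.sub_apply, badPart_apply_bad hb, sub_self]
    · have h1 := isEff_fdiv_add h.ne_zero hn v
      have hvp : v ≠ S.pt := fun hvp => hb (hvp ▸ isBad_pt)
      rw [Finsupp.add_apply, S.atPt_of_ne _ hvp, add_zero] at h1
      rw [hG, Finsupp.sub_apply, badPart_apply_good hb, sub_zero]
      exact h1
  have hT : fdiv num' = L.T (badPart (S := S) (fdiv num)) + L.T G := by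
    rw [hd, ← map_add, hG, add_sub_cancel]
  have hgd := goodDeg_fdiv hgap hn hx hnumx
  have hred' : Red A π (num' : LaurentSeries K) (heckeSer l x) := by
    rw [hs]; exact red_heckeSer l hnumx
  have hgd' := goodDeg_fdiv hgap hn' (heckeSer_ne_zero l hx) hred'
  have hdegG : Divisor.degree G = goodDeg (fdiv num) := by rw [hG, map_sub]; rfl
  have hbT : badPart (S := S) (L.T (badPart (S := S) (fdiv num))) =
      L.T (badPart (S := S) (fdiv num)) :=
    badPart_eq_self (L.isBadDiv_map hgap (isBadDiv_badPart _))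
  have hzero : badPart (S := S) (L.T G) = 0 := by
    refine S.eq_zero_of_effective (isEff_badPart (L.isEff _ hGeff)) ?_
    rw [hT, goodDeg_add, goodDeg, hbT, sub_self, zero_add, goodDeg, L.degree, hdegG, hgd,
      order_heckeSer] at hgd'
    linarith
  rw [hT, map_add, hzero, add_zero, hbT]

theorem boundedBy_heckeSer_sub {y w δ : LaurentSeries K} {x : LaurentSeries k}
    (hy : y = (1 + δ) * w) (hδ : BoundedBy A δ r) (hr : r ≤ 1) (hw : Red A π w x) :
    BoundedBy A (heckeSer l y - heckeSer l w) r := by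
  subst hy
  rw [heckeSer_mul, ← sub_one_mul]
  exact ((boundedBy_heckeSer_one_add l hδ hr).2.mul (red_heckeSer l hw).boundedBy).mono
    (mul_one r).le

/-- **The norm lift on representatives.** -/
theorem isRep (hgap : S.GapBound n₀) (h : IsRep z num den m r) : ∃ num' den' : S.F,
    (num' : LaurentSeries K) = heckeSer l (num : LaurentSeries K) ∧
    (den' : LaurentSeries K) = heckeSer l (den : LaurentSeries K) ∧
    IsRep (L.op z) num' den' (((l : ℤ) + 1) * m) r := by
  obtain ⟨n, hn⟩ := h.regular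
  obtain ⟨num', -, hns, hnd, hnm⟩ := L.exists_lift_mem_space h.ne_zero hn
  obtain ⟨den', hds, hdx⟩ := L.exists_exact h.exact
  rw [L.map_atPt] at hnm
  refine ⟨num', den', hns, hds, ⟨_, hnm⟩, hdx, h.lt_one, ?_, ?_⟩
  · have hden0 := h.exact.coe_ne_zero
    have h1 : (num : LaurentSeries K) = (1 + dev num den) * (den : LaurentSeries K) := by
      rw [one_add_dev hden0, inv_mul_cancel_right₀ hden0]
    obtain ⟨x, -, -, hxd, -⟩ := h.exists_red
    rw [hns, hds]
    exact boundedBy_heckeSer_sub h1 h.boundedBy_dev h.lt_one.le hxd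
  · rw [h.class_eq, L.op_badHom, L.badPart_map_fdiv hgap h hns hnd hnm]

theorem dev_eq {num' den' : S.F} (hden : (den : LaurentSeries K) ≠ 0)
    (hns : (num' : LaurentSeries K) = heckeSer l (num : LaurentSeries K))
    (hds : (den' : LaurentSeries K) = heckeSer l (den : LaurentSeries K)) :
    dev num' den' = heckeSer l (1 + dev num den) - 1 := by
  have h1 : (num : LaurentSeries K) = (1 + dev num den) * (den : LaurentSeries K) := by
    rw [one_add_dev hden, inv_mul_cancel_right₀ hden]
  have hne : (den' : LaurentSeries K) ≠ 0 := hds ▸ heckeSer_ne_zero l hden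
  rw [eq_sub_iff_add_eq, add_comm, one_add_dev hne, hns, hds, h1, heckeSer_mul,
    mul_inv_cancel_right₀ (heckeSer_ne_zero l hden)]

/-- `M` gives the coefficients of `T_l`. -/
def _root_.Fermat.Agent.MazurStep.Forms.IsHeckeMatrix (Φ : Forms S) (l : ℕ)
    (M : Matrix (Fin S.g) (Fin S.g) ℤ) : Prop :=
  ∀ i n, Φ.coef i (n * l) + (if l ∣ n then (l : ℤ) * Φ.coef i (n / l) else 0) =
    ∑ j, M i j * Φ.coef j n

/-- The norm lift multiplies tangents by the Hecke matrix, modulo `r * r`. -/
theorem valuation_tang_sub_le (Φ : Forms S) {M : Matrix (Fin S.g) (Fin S.g) ℤ}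
    (hM : Φ.IsHeckeMatrix l M) (h : IsRep z num den m r) {num' den' : S.F}
    (hns : (num' : LaurentSeries K) = heckeSer l (num : LaurentSeries K))
    (hds : (den' : LaurentSeries K) = heckeSer l (den : LaurentSeries K)) (i : Fin S.g) :
    A.valuation (Φ.tang num' den' i - ∑ j, (M i j : K) * Φ.tang num den j) ≤ r * r := by
  have key : Φ.pair (heckeLin l (dev num den)) i = ∑ j, (M i j : K) * Φ.tang num den j := by
    rw [Forms.pair, coeff_heckeLin_mul_intSer]
    have hser : intSer K (fun n => Φ.coef i (n * l) +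
        if l ∣ n then (l : ℤ) * Φ.coef i (n / l) else 0) =
        ∑ j, algebraMap K (LaurentSeries K) (M i j : K) * intSer K (Φ.coef j) := by
      ext t
      rw [HahnSeries.coeff_sum, intSer_coeff]
      simp only [coeff_algebraMap_mul, intSer_coeff]
      by_cases ht : 0 ≤ t
      · simp only [if_pos ht]
        rw [hM]
        push_cast
        rfl
      · simp [if_neg ht]
    rw [hser, Finset.mul_sum, HahnSeries.coeff_sum]
    refine Finset.sum_congr rfl fun j _ => ?_
    rw [mul_left_comm, coeff_algebraMap_mul, Forms.tang, Forms.pair]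
  rw [← key, Forms.tang, dev_eq h.exact.coe_ne_zero hns hds,
    ← Pi.sub_apply (Φ.pair _) (Φ.pair _), ← Φ.pair_sub]
  exact Φ.valuation_pair_boundedBy
    (boundedBy_heckeSer_one_add l h.boundedBy_dev h.lt_one.le).1 i

theorem heckeSer_mem_ratSeries {K₀ : Subfield K} {y : LaurentSeries K}
    (hy : y ∈ ratSeries K₀) : heckeSer l y ∈ ratSeries K₀ := by
  obtain ⟨w, rfl⟩ := hy
  exact ⟨heckeSer l w, coeffMap_heckeSer l _ w⟩

end NormLift

/-- `op` acts on rational representatives through the matrix `mat`. -/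
def Forms.Acts (Φ : Forms S) (n₀ : ℕ) (op : Pic0 K S.F →+ Pic0 K S.F)
    (mat : Matrix (Fin S.g) (Fin S.g) ℤ) : Prop :=
  ∀ (H : Set (Sym S)) (z : Pic0 K S.F) (num den : S.F) (m : ℤ) (r : A.ValueGroup),
    IsRatRep n₀ H z num den m r → ∃ (num' den' : S.F) (m' : ℤ),
      IsRatRep n₀ H (op z) num' den' m' r ∧ ∀ i, A.valuation
        (Φ.tang num' den' i - ∑ j, (mat i j : K) * Φ.tang num den j) ≤ r * r

/-- **`T_l` acts on tangents through its coefficient matrix.** -/
theorem NormLift.acts {l : ℕ} [NeZero l] (L : NormLift S l) (Φ : Forms S) (hgap : S.GapBound n₀)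
    {M : Matrix (Fin S.g) (Fin S.g) ℤ} (hM : Φ.IsHeckeMatrix l M) : Φ.Acts n₀ L.op M := by
  intro H z num den m r ⟨h, hm, hnr, hdr⟩
  obtain ⟨num', den', hns, hds, h'⟩ := L.isRep hgap h
  refine ⟨num', den', _, ⟨h', ?_, hns ▸ heckeSer_mem_ratSeries hnr,
    hds ▸ heckeSer_mem_ratSeries hdr⟩, valuation_tang_sub_le Φ hM h hns hds⟩
  nlinarith [Int.natCast_nonneg l, Int.natCast_nonneg n₀]

variable {Φ : Forms S}

/-- The identity acts through the identity matrix. -/
theorem Forms.acts_id (Φ : Forms S) : Φ.Acts n₀ (AddMonoidHom.id _) 1 :=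
  fun _ _ num den m _ h => ⟨num, den, m, h, fun i => by
    rw [Finset.sum_eq_single i (fun j _ hj => by simp [Ne.symm hj]) (by simp)]
    simp⟩

/-- Composites of operators act through products of their matrices. -/
theorem Forms.Acts.comp {f g : Pic0 K S.F →+ Pic0 K S.F} {F G : Matrix (Fin S.g) (Fin S.g) ℤ}
    (hf : Φ.Acts n₀ f F) (hg : Φ.Acts n₀ g G) : Φ.Acts n₀ (f.comp g) (F * G) := by
  intro H z num den m r h
  obtain ⟨num₁, den₁, m₁, h₁, e₁⟩ := hg H z num den m r h
  obtain ⟨num₂, den₂, m₂, h₂, e₂⟩ := hf H _ num₁ den₁ m₁ r h₁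
  refine ⟨num₂, den₂, m₂, h₂, fun i => ?_⟩
  have hsum : A.valuation (∑ j, (F i j : K) * (Φ.tang num₁ den₁ j -
      ∑ k', (G j k' : K) * Φ.tang num den k')) ≤ r * r :=
    A.valuation.map_sum_le fun j _ => by
      rw [map_mul]
      exact (mul_le_mul' (valuation_intCast_le_one _) (e₁ j)).trans (one_mul _).le
  have hrw : ∑ j, ((F * G) i j : K) * Φ.tang num den j =
      ∑ j, (F i j : K) * ∑ k', (G j k' : K) * Φ.tang num den k' := by
    simp only [Matrix.mul_apply, Int.cast_sum, Int.cast_mul, Finset.sum_mul, Finset.mul_sum,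
      mul_assoc]
    exact Finset.sum_comm
  rw [hrw]
  have h3 := (A.valuation.map_add _ _).trans (max_le (e₂ i) hsum)
  refine le_of_eq_of_le (congrArg A.valuation ?_) h3
  simp only [mul_sub, Finset.sum_sub_distrib]
  ring

/-- Sums of operators act through sums of their matrices. -/
theorem Forms.Acts.add {f g : Pic0 K S.F →+ Pic0 K S.F} {F G : Matrix (Fin S.g) (Fin S.g) ℤ}
    (hf : Φ.Acts n₀ f F) (hg : Φ.Acts n₀ g G) : Φ.Acts n₀ (f + g) (F + G) := by
  intro H z num den m r h
  obtain ⟨num₁, den₁, m₁, h₁, e₁⟩ := hf H z num den m r h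
  obtain ⟨num₂, den₂, m₂, h₂, e₂⟩ := hg H z num den m r h
  have hmul := h₁.1.mul h₂.1
  rw [max_self] at hmul
  refine ⟨num₁ * num₂, den₁ * den₂, m₁ + m₂, ⟨hmul, ?_, ?_, ?_⟩, fun i => ?_⟩
  · have := h₁.2.1; have := h₂.2.1; omega
  · rw [MulMemClass.coe_mul]; exact (ratSeries _).mul_mem h₁.2.2.1 h₂.2.2.1
  · rw [MulMemClass.coe_mul]; exact (ratSeries _).mul_mem h₁.2.2.2 h₂.2.2.2
  have h4 := (A.valuation.map_add _ _).trans (max_le (Φ.tang_mul h₁.1 h₂.1 i)
    ((A.valuation.map_add _ _).trans (max_le (e₁ i) (e₂ i))))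
  refine le_of_eq_of_le (congrArg A.valuation ?_) h4
  simp only [Matrix.add_apply, Int.cast_add, add_mul, Finset.sum_add_distrib]
  ring

end Fermat.Agent.MazurStep
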