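import Mathlib

/-!
# Semilinear fixed points

For a matrix over `ZMod l` and a field `k` of characteristic `l`, vectors with `M v ^ l = v` which
are independent over `ZMod l` are independent over `k`; the solutions of `α ^ l = A α` span when `A`
is invertible and `k` is algebraically closed, so every functional on such vectors is given by one
of them.
-/

set_option autoImplicit false

noncomputable section

namespace Fermat.Agent.MazurStep.Semilinear

open Finset

theorem charP_of_algebra {k : Type*} [Field k] {l : ℕ} [Fact l.Prime] [Algebra (ZMod l) k] :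
    CharP k l :=
  charP_of_injective_ringHom (algebraMap (ZMod l) k).injective l

variable {k : Type*} [Field k] {l : ℕ} [Fact l.Prime] [Algebra (ZMod l) k] {n : Type*} [Fintype n]

/-- The map `v ↦ M (v ^ l)`. -/
def frob (M : Matrix n n (ZMod l)) (v : n → k) : n → k :=
  (M.map (algebraMap (ZMod l) k)).mulVec fun j => v j ^ l


theorem frob_sum (M : Matrix n n (ZMod l)) {ι : Type*} (s : Finset ι) (c : ι → k) (v : ι → n → k) :
    frob M (∑ i ∈ s, c i • v i) = ∑ i ∈ s, c i ^ l • frob M (v i) := by
  have := charP_of_algebra (k := k) (l := l)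
  have h : (fun j => (∑ i ∈ s, c i • v i) j ^ l) = ∑ i ∈ s, c i ^ l • fun j => v i j ^ l := by
    funext j
    simp only [Finset.sum_apply, Pi.smul_apply, smul_eq_mul]
    rw [sum_pow_char]
    simp only [mul_pow]
  rw [frob, h, Matrix.mulVec_sum]
  simp only [Matrix.mulVec_smul, frob]

/-- An element fixed by the Frobenius lies in the prime field. -/
theorem exists_eq_of_pow_eq {c : k} (hc : c ^ l = c) :
    ∃ q : ZMod l, algebraMap (ZMod l) k q = c := by
  have := charP_of_algebra (k := k) (l := l)
  have h : c ∈ (⊥ : Subfield k) := (Subfield.mem_bot_iff_pow_eq_self k l).mpr hc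
  have hle : (⊥ : Subfield k) ≤ (algebraMap (ZMod l) k).fieldRange := bot_le
  exact hle h

/-- **Fixed vectors: independence descends.** -/
theorem linearIndependent_fixed (M : Matrix n n (ZMod l)) {ι : Type*} {v : ι → n → k}
    (hfix : ∀ i, frob M (v i) = v i) (hli : LinearIndependent (ZMod l) v) :
    LinearIndependent k v := by
  classical
  rw [linearIndependent_iff']
  intro s
  induction s using Finset.strongInduction with
  | H s ih =>
    intro c hc i hi
    by_contra hci
    set d : ι → k := fun j => c j / c i with hd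
    have hd0 : ∑ j ∈ s, d j • v j = 0 := by
      have := congrArg ((c i)⁻¹ • ·) hc
      simp only [Finset.smul_sum, smul_smul, smul_zero] at this
      simpa only [hd, div_eq_inv_mul] using this
    have hd1 : ∑ j ∈ s, d j ^ l • v j = 0 := by
      have := congrArg (frob M) hd0
      rw [frob_sum] at this
      simp only [hfix] at this
      rw [this]
      funext a
      simp [frob, Matrix.mulVec, dotProduct, zero_pow (Fact.out : l.Prime).ne_zero]
    have hdi : d i = 1 := div_self hci
    have hsub : ∀ j ∈ s.erase i, d j ^ l - d j = 0 := by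
      refine ih _ (Finset.erase_ssubset hi) _ ?_
      rw [Finset.sum_erase _ (by rw [hdi, one_pow, sub_self, zero_smul])]
      simp only [sub_smul, Finset.sum_sub_distrib, hd0, hd1, sub_self]
    have hq : ∀ j, ∃ q : ZMod l, j ∈ s → algebraMap (ZMod l) k q = d j := by
      intro j
      by_cases hj : j ∈ s
      · obtain ⟨q, hq⟩ := exists_eq_of_pow_eq (l := l) (c := d j) (by
          rcases eq_or_ne j i with rfl | hji
          · rw [hdi, one_pow]
          · exact sub_eq_zero.mp (hsub j (Finset.mem_erase.mpr ⟨hji, hj⟩)))
        exact ⟨q, fun _ => hq⟩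
      · exact ⟨0, fun h => absurd h hj⟩
    choose q hq using hq
    have h0 := linearIndependent_iff'.mp hli s q (by
      rw [← hd0]
      exact Finset.sum_congr rfl fun j hj => by rw [← hq j hj, algebraMap_smul]) i hi
    have h1 := hq i hi
    rw [h0, map_zero, hdi] at h1
    exact zero_ne_one h1

theorem exists_pow_eq_one [DecidableEq n] {A B : Matrix n n (ZMod l)} (hAB : B * A = 1) :
    ∃ N, 0 < N ∧ B ^ N = 1 := by
  let u : (Matrix n n (ZMod l))ˣ := ⟨B, A, hAB, mul_eq_one_comm.mp hAB⟩
  refine ⟨orderOf u, orderOf_pos u, ?_⟩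
  have := congrArg (fun w : (Matrix n n (ZMod l))ˣ => (w : Matrix n n (ZMod l)))
    (pow_orderOf_eq_one u)
  simpa only [Units.val_pow_eq_pow_val, Units.val_one] using this

/-- **The solutions of `α ^ l = A α` span.** -/
theorem span_eq_top [IsAlgClosed k] [DecidableEq n] {A B : Matrix n n (ZMod l)} (hAB : A * B = 1) :
    Submodule.span k
      {α : n → k | (fun j => α j ^ l) = (A.map (algebraMap (ZMod l) k)).mulVec α} = ⊤ := by
  classical
  have := charP_of_algebra (k := k) (l := l)
  have hl := (Fact.out : l.Prime)
  obtain ⟨N, hN, hBN⟩ := exists_pow_eq_one (mul_eq_one_comm.mp hAB)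
  set φ := algebraMap (ZMod l) k with hφ
  set q := l ^ N with hq
  have hq1 : 1 < q := Nat.one_lt_pow hN.ne' hl.one_lt
  let e : k → (n → ZMod l) → n → k := fun c v =>
    ∑ i ∈ Finset.range N, c ^ l ^ i • fun j => φ ((B ^ i).mulVec v j)
  have hmem : ∀ c v, c ^ q = c → (fun j => e c v j ^ l) = (A.map φ).mulVec (e c v) := by
    intro c v hc
    have hlhs : (fun j => e c v j ^ l) =
        ∑ i ∈ Finset.range N, c ^ l ^ (i + 1) • fun j => φ ((B ^ i).mulVec v j) := by
      funext j
      simp only [e, Finset.sum_apply, Pi.smul_apply, smul_eq_mul]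
      rw [sum_pow_char]
      refine Finset.sum_congr rfl fun i _ => ?_
      rw [mul_pow, ← pow_mul, ← pow_succ, ← map_pow φ, ZMod.pow_card]
    set T : ℕ → n → k := fun i => c ^ l ^ i • fun j => φ ((B ^ i).mulVec v j) with hT
    have hshift : ∑ i ∈ Finset.range N, T (i + 1) = ∑ i ∈ Finset.range N, T i := by
      have h1 := Finset.sum_range_succ T N
      have h2 := Finset.sum_range_succ' T N
      have h3 : T N = T 0 := by
        simp only [hT, ← hq, hc, hBN, pow_zero, pow_one]
      rw [h3] at h1
      exact add_right_cancel (h2.symm.trans h1)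
    rw [hlhs, show e c v = ∑ i ∈ Finset.range N, T (i + 1) from hshift.symm, Matrix.mulVec_sum]
    refine Finset.sum_congr rfl fun i _ => ?_
    simp only [hT]
    rw [Matrix.mulVec_smul, show (fun j => φ ((B ^ (i + 1)).mulVec v j)) =
      φ ∘ (B ^ (i + 1)).mulVec v from rfl]
    congr 1
    funext j
    rw [← RingHom.map_mulVec, Matrix.mulVec_mulVec, pow_succ', ← Matrix.mul_assoc, hAB,
      Matrix.one_mul]
  rw [← Submodule.dualAnnihilator_eq_bot_iff, Submodule.eq_bot_iff]
  intro f hf
  rw [Submodule.mem_dualAnnihilator] at hf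
  suffices key : ∀ v : n → ZMod l, f (fun j => φ (v j)) = 0 by
    refine (Pi.basisFun k n).ext fun i => ?_
    have h := key (Pi.single i 1)
    rw [LinearMap.zero_apply, Pi.basisFun_apply, ← h]
    congr 1
    funext j
    rcases eq_or_ne j i with rfl | hji
    · simp
    · simp [hji]
  intro v
  -- a polynomial with too many roots
  let P : Polynomial k := ∑ i ∈ Finset.range N,
    Polynomial.C (f fun j => φ ((B ^ i).mulVec v j)) * Polynomial.X ^ (l ^ i)
  have hroot : ∀ c : k, c ^ q = c → P.eval c = 0 := by
    intro c hc
    have h := hf _ (Submodule.subset_span (hmem c v hc))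
    simp only [e, map_sum, map_smul, smul_eq_mul] at h
    simp only [P, Polynomial.eval_finsetSum, Polynomial.eval_mul, Polynomial.eval_C,
      Polynomial.eval_pow, Polynomial.eval_X]
    rw [← h]
    exact Finset.sum_congr rfl fun i _ => mul_comm _ _
  have hdeg : P.natDegree < q := by
    refine lt_of_le_of_lt (Polynomial.natDegree_sum_le_of_forall_le (n := l ^ (N - 1)) _ _
      fun i hi => ?_) (Nat.pow_lt_pow_right hl.one_lt (by omega))
    refine (Polynomial.natDegree_C_mul_X_pow_le _ _).trans (Nat.pow_le_pow_right hl.pos ?_)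
    rw [Finset.mem_range] at hi
    omega
  have hP : P = 0 := by
    set g : Polynomial k := Polynomial.X ^ q - Polynomial.X with hg
    have hgd : g.natDegree = q := FiniteField.X_pow_card_sub_X_natDegree_eq k hq1
    have hqk : (q : k) = 0 := by
      rw [hq, Nat.cast_pow, CharP.cast_eq_zero, zero_pow hN.ne']
    have hsep : g.Separable := by
      rw [Polynomial.separable_def, hg, Polynomial.derivative_sub, Polynomial.derivative_X_pow,
        Polynomial.derivative_X, hqk, Polynomial.C_0, zero_mul, zero_sub]
      exact isCoprime_one_right.neg_right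
    have hcard : Fintype.card (g.rootSet k) = q := by
      rw [Polynomial.card_rootSet_eq_natDegree hsep (IsAlgClosed.splits _), hgd]
    refine Polynomial.eq_zero_of_natDegree_lt_card_of_eval_eq_zero P
      (f := fun x : g.rootSet k => (x : k)) Subtype.val_injective (fun x => ?_) (hcard ▸ hdeg)
    refine hroot _ ?_
    have := (Polynomial.mem_rootSet.mp x.2).2
    simpa [hg, sub_eq_zero] using this
  have h1 := congrArg (fun p : Polynomial k => p.coeff 1) hP
  simp only [P, Polynomial.finsetSum_coeff, Polynomial.coeff_C_mul, Polynomial.coeff_X_pow,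
    Polynomial.coeff_zero] at h1
  rw [Finset.sum_eq_single 0] at h1
  · simpa using h1
  · intro i _ hi
    rw [if_neg (fun h => ?_), mul_zero]
    have := Nat.one_lt_pow hi hl.one_lt
    omega
  · intro h
    exact absurd (Finset.mem_range.mpr hN) h

variable {G : Type*} [AddCommGroup G] [Module (ZMod l) G]

/-- The linear map to fixed vectors stays injective on families: bound on the size of `G`. -/
theorem finrank_le (M : Matrix n n (ZMod l)) {τ : G →ₗ[ZMod l] n → k}
    (hinj : Function.Injective τ) (hfix : ∀ x, frob M (τ x) = τ x) (P : Submodule k (n → k))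
    (hP : ∀ x, τ x ∈ P) :
    Module.Finite (ZMod l) G ∧ Module.finrank (ZMod l) G ≤ Module.finrank k P := by
  have key : ∀ s : Finset G, LinearIndependent (ZMod l) (fun i : s => (i : G)) →
      s.card ≤ Module.finrank k P := by
    intro s hs
    have h1 : LinearIndependent (ZMod l) (fun i : s => τ i) :=
      hs.map' τ (LinearMap.ker_eq_bot.mpr hinj)
    have h2 := linearIndependent_fixed M (fun i => hfix _) h1
    have h3 : LinearIndependent k (fun i : s => (⟨τ i, hP i⟩ : P)) :=
      LinearIndependent.of_comp P.subtype h2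
    simpa using h3.fintype_card_le_finrank
  have hrank : Module.rank (ZMod l) G ≤ (Module.finrank k P : Cardinal) := rank_le key
  have hfin : Module.Finite (ZMod l) G :=
    Module.rank_lt_aleph0_iff.mp (hrank.trans_lt Cardinal.natCast_lt_aleph0)
  refine ⟨hfin, ?_⟩
  rw [← Module.finrank_eq_rank] at hrank
  exact_mod_cast hrank

/-- **Every functional is given by a solution of `α ^ l = A α`.** -/
theorem exists_dual [IsAlgClosed k] [DecidableEq n] (M : Matrix n n (ZMod l))
    {B : Matrix n n (ZMod l)} (hMB : M.transpose * B = 1) {τ : G →ₗ[ZMod l] n → k}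
    (hinj : Function.Injective τ) (hfix : ∀ x, frob M (τ x) = τ x) (f : G →ₗ[ZMod l] ZMod l) :
    ∃ α : n → k, (fun j => α j ^ l) = (M.transpose.map (algebraMap (ZMod l) k)).mulVec α ∧
      ∀ x, α ⬝ᵥ τ x = algebraMap (ZMod l) k (f x) := by
  classical
  have := charP_of_algebra (k := k) (l := l)
  set φ := algebraMap (ZMod l) k with hφ
  have hl := (Fact.out : l.Prime)
  let Sol : Submodule (ZMod l) (n → k) :=
    { carrier := {α | (fun j => α j ^ l) = (M.transpose.map φ).mulVec α}
      zero_mem' := by
        funext j
        simp [Matrix.mulVec, dotProduct, zero_pow hl.ne_zero]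
      add_mem' := fun {a b} ha hb => by
        show (fun j => (a + b) j ^ l) = (M.transpose.map φ).mulVec (a + b)
        rw [Matrix.mulVec_add, ← ha, ← hb]
        funext j
        simp [add_pow_char]
      smul_mem' := fun q a ha => by
        show (fun j => (q • a) j ^ l) = (M.transpose.map φ).mulVec (q • a)
        rw [← algebraMap_smul k q a, Matrix.mulVec_smul, ← ha]
        funext j
        simp [mul_pow, ← map_pow, ZMod.pow_card] }
  have hpair : ∀ α ∈ Sol, ∀ x, (α ⬝ᵥ τ x) ^ l = α ⬝ᵥ τ x := by
    intro α hα x
    rw [dotProduct, sum_pow_char]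
    simp only [mul_pow]
    rw [show (∑ i, α i ^ l * τ x i ^ l) = (fun j => α j ^ l) ⬝ᵥ (fun j => τ x j ^ l) from rfl,
      show (fun j => α j ^ l) = _ from hα, Matrix.transpose_map, Matrix.mulVec_transpose,
      ← Matrix.dotProduct_mulVec]
    show α ⬝ᵥ frob M (τ x) = α ⬝ᵥ τ x
    rw [hfix]
  obtain ⟨hfinG, -⟩ := finrank_le M hinj hfix ⊤ fun x => Submodule.mem_top
  have hval : ∀ (α : Sol) (x : G), ∃ q : ZMod l, φ q = (α : n → k) ⬝ᵥ τ x :=
    fun α x => exists_eq_of_pow_eq (hpair α α.2 x)
  choose ev hev using hval
  let Θ : Sol →ₗ[ZMod l] Module.Dual (ZMod l) G :=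
    { toFun := fun α =>
        { toFun := ev α
          map_add' := fun x y => φ.injective (by simp [hev, dotProduct_add])
          map_smul' := fun q x => φ.injective (by
            show φ (ev α (q • x)) = φ (q * ev α x)
            rw [map_mul, hev, hev, τ.map_smul, ← algebraMap_smul k q (τ x), dotProduct_smul,
              smul_eq_mul]) }
      map_add' := fun a b => LinearMap.ext fun x => φ.injective (by
        simp [hev, add_dotProduct])
      map_smul' := fun q a => LinearMap.ext fun x => φ.injective (by
        show φ (ev (q • a) x) = φ (q * ev a x)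
        rw [map_mul, hev, hev, Submodule.coe_smul, ← algebraMap_smul k q (a : n → k),
          smul_dotProduct, smul_eq_mul]) }
  have hbot : (LinearMap.range Θ).dualCoannihilator = ⊥ := by
    rw [Submodule.eq_bot_iff]
    intro x hx
    rw [Submodule.mem_dualCoannihilator] at hx
    refine hinj ((map_zero τ).symm ▸ ?_)
    have hzero : ∀ α : n → k, α ∈ Submodule.span k
        {α : n → k | (fun j => α j ^ l) = (M.transpose.map φ).mulVec α} → α ⬝ᵥ τ x = 0 := by
      intro α hα
      induction hα using Submodule.span_induction with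
      | mem α hα =>
        rw [← hev ⟨α, hα⟩ x, ← map_zero φ]
        exact congrArg φ (hx (Θ ⟨α, hα⟩) ⟨_, rfl⟩)
      | zero => rw [zero_dotProduct]
      | add a b _ _ ha hb => rw [add_dotProduct, ha, hb, add_zero]
      | smul c a _ ha => rw [smul_dotProduct, ha, smul_zero]
    funext j
    have := hzero (Pi.single j 1) ((span_eq_top (k := k) hMB).symm ▸ Submodule.mem_top)
    simpa using this
  have hrange : LinearMap.range Θ = ⊤ := by
    have h := Subspace.dualCoannihilator_dualAnnihilator_eq (W := LinearMap.range Θ)
    rw [hbot, Submodule.dualAnnihilator_bot] at h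
    exact h.symm
  obtain ⟨α, hα⟩ := LinearMap.range_eq_top.mp hrange f
  exact ⟨α, α.2, fun x => by rw [← hα]; exact (hev α x).symm⟩

end Fermat.Agent.MazurStep.Semilinear
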