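import Fermat.Agent.MazurStep.AS
import Fermat.Agent.MazurStep.Semilinear

/-!
# The formal group at `l`: counting and the Kummer obstruction

The piece in the kernel of reduction has at most `l ^ rank E` elements, and if the translates of a
point lie in the piece, composing them with a functional never gives a nonzero multiple of the
Kummer character of `±l`.
-/

set_option autoImplicit false
attribute [-instance] IsScalarTower.of_algHom

noncomputable section

namespace Fermat.Agent.MazurStep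

open AlgebraicCurve
open Fermat.Agent.Reduction
open Fermat.Agent.Reduction.CurveRed

variable {K k : Type*} [Field K] [Field k] {A : ValuationSubring K} {π : A →+* k}
  {S : CurveRed A π} {n₀ : ℕ}

namespace LocalGroup

variable {L : LocalData S n₀} {Γ : Type*} [Group Γ] (T : LocalGroup L Γ)
  {op : Pic0 K S.F →+ Pic0 K S.F} {G : AddSubgroup (Pic0 K S.F)}

/-- The matrix over the prime field. -/
def toZMod (L : LocalData S n₀) (M : Matrix (Fin S.g) (Fin S.g) ℤ) :
    Matrix (Fin S.g) (Fin S.g) (ZMod L.l) :=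
  (Int.castRingHom (ZMod L.l)).mapMatrix M

theorem algebraMap_toZMod [Algebra (ZMod L.l) k] (M : Matrix (Fin S.g) (Fin S.g) ℤ)
    (i j : Fin S.g) :
    (toZMod L M).map (algebraMap (ZMod L.l) k) i j = (M i j : k) := by
  simp [toZMod]

theorem toZMod_eq_of_dvd {M N : Matrix (Fin S.g) (Fin S.g) ℤ}
    (h : ∀ i j, (L.l : ℤ) ∣ M i j - N i j) : toZMod L M = toZMod L N := by
  ext i j
  simp only [toZMod, RingHom.mapMatrix_apply, Matrix.map_apply, eq_intCast]
  exact ((ZMod.intCast_eq_intCast_iff_dvd_sub _ _ _).mpr (h i j)).symm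

theorem frob_tauHom [Fact L.l.Prime] [Algebra (ZMod L.l) k] (hG : T.IsPiece op G) (x : G) :
    Semilinear.frob (toZMod L L.M) (T.tauHom hG x) = T.tauHom hG x := funext fun i => by
  rw [← T.tauHom_frob hG x i]
  simp only [Semilinear.frob, Matrix.mulVec, dotProduct, algebraMap_toZMod]

/-- **Counting the piece.** -/
theorem card_piece_le (hG : T.IsPiece op G) :
    Finite G ∧ Nat.card G ≤
      L.l ^ Module.finrank k (LinearMap.range (L.E.map (Int.cast : ℤ → k)).mulVecLin) := by
  classical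
  have := charP_l L
  have : Fact L.l.Prime := ⟨L.prime⟩
  let : Algebra (ZMod L.l) k := ZMod.algebra k L.l
  let : Module (ZMod L.l) G :=
    AddCommGroup.zmodModule fun x => Subtype.ext (hG.torsion x x.2)
  let τ : G →ₗ[ZMod L.l] (Fin S.g → k) := AddMonoidHom.toZModLinearMap L.l (T.tauHom hG)
  obtain ⟨hfin, hle⟩ : Module.Finite (ZMod L.l) G ∧ Module.finrank (ZMod L.l) G ≤
      Module.finrank k (LinearMap.range (L.E.map (Int.cast : ℤ → k)).mulVecLin) :=
    Semilinear.finrank_le (toZMod L L.M) (τ := τ) (T.tauHom_injective hG)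
    (fun x => T.frob_tauHom hG x) (LinearMap.range (L.E.map (Int.cast : ℤ → k)).mulVecLin)
    (fun x => ⟨T.tauHom hG x, funext fun i => by
      refine Eq.trans ?_ (T.tauHom_E hG x i)
      simp [Matrix.mulVec, dotProduct]⟩)
  have : Finite G := @Module.finite_of_finite (ZMod L.l) G _ _ _ _ hfin
  refine ⟨inferInstance, ?_⟩
  rw [@Module.natCard_eq_pow_finrank (ZMod L.l) G _ _ _ hfin, Nat.card_zmod]
  exact Nat.pow_le_pow_right L.prime.pos hle

/-- The stabiliser of a class. -/
def stab (z : Pic0 K S.F) : Subgroup Γ where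
  carrier := {σ | (T.sym σ).act z = z}
  mul_mem' := fun {σ τ} (hσ : (T.sym σ).act z = z) (hτ : (T.sym τ).act z = z) => by
    show (T.sym (σ * τ)).act z = z
    rw [T.act_mul, hτ, hσ]
  one_mem' := by
    show (T.sym 1).act z = z
    have h := T.act_mul 1 1 z
    rw [one_mul] at h
    exact (MulAction.injective (T.sym 1).semi h).symm
  inv_mem' := fun {σ} (hσ : (T.sym σ).act z = z) => by
    show (T.sym σ⁻¹).act z = z
    have h1 : (T.sym 1).act z = z := by
      have h := T.act_mul 1 1 z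
      rw [one_mul] at h
      exact (MulAction.injective (T.sym 1).semi h).symm
    conv_lhs => rw [← hσ, ← T.act_mul, inv_mul_cancel, h1]

/-- The inverse of `M E + 1 - E` modulo `l`. -/
theorem exists_inverse (hEE : ∀ i j, (L.l : ℤ) ∣ (L.E * L.E) i j - L.E i j)
    (hEM : ∀ i j, (L.l : ℤ) ∣ (L.E * L.M) i j - (L.M * L.E) i j) :
    toZMod L (L.M' * L.E + 1 - L.E) * toZMod L (L.M * L.E + 1 - L.E) = 1 := by
  have e1 : toZMod L L.E * toZMod L L.E = toZMod L L.E := by
    rw [toZMod, ← map_mul]; exact toZMod_eq_of_dvd hEE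
  have e2 : toZMod L L.E * toZMod L L.M = toZMod L L.M * toZMod L L.E := by
    rw [toZMod, toZMod, ← map_mul, ← map_mul]; exact toZMod_eq_of_dvd hEM
  have e3 : toZMod L L.M' * (toZMod L L.E * toZMod L L.M) = toZMod L L.E := by
    rw [toZMod, toZMod, toZMod, ← map_mul, ← map_mul]; exact toZMod_eq_of_dvd L.inverse
  have e4 : toZMod L L.M' * toZMod L L.E * (toZMod L L.M * toZMod L L.E) = toZMod L L.E := by
    rw [← mul_assoc, mul_assoc (toZMod L L.M') (toZMod L L.E), e3, e1]
  have e5 : toZMod L L.E * (toZMod L L.M * toZMod L L.E) = toZMod L L.M * toZMod L L.E := by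
    rw [← mul_assoc, e2, mul_assoc, e1]
  have e6 : toZMod L L.M' * toZMod L L.E * toZMod L L.E = toZMod L L.M' * toZMod L L.E := by
    rw [mul_assoc, e1]
  simp only [toZMod, map_sub, map_add, map_mul, map_one] at *
  noncomm_ring [e1, e4, e5, e6]

theorem frob_twist [Fact L.l.Prime] [Algebra (ZMod L.l) k] (hG : T.IsPiece op G) :
    ∀ x : G, Semilinear.frob (toZMod L (L.M * L.E + 1 - L.E)) (T.tauHom hG x) = T.tauHom hG x := by
  intro x
  have := charP_l L
  have hE : (L.E.map (Int.cast : ℤ → k)).mulVec (fun j => T.tauHom hG x j ^ L.l) =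
      fun j => T.tauHom hG x j ^ L.l := by
    funext i
    have h := congrArg (fun x : k => x ^ L.l) (T.tauHom_E hG x i)
    rw [sum_pow_char (R := k) L.l] at h
    rw [← h]
    simp only [Matrix.mulVec, dotProduct]
    refine Finset.sum_congr rfl fun j _ => ?_
    rw [mul_pow, Matrix.map_apply]
    congr 1
    rw [← map_intCast (algebraMap (ZMod L.l) k), ← map_pow, ZMod.pow_card]
  have hmap : (toZMod L (L.M * L.E + 1 - L.E)).map (algebraMap (ZMod L.l) k) =
      L.M.map (Int.cast : ℤ → k) * L.E.map (Int.cast : ℤ → k) + 1 -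
        L.E.map (Int.cast : ℤ → k) := by
    rw [show (toZMod L (L.M * L.E + 1 - L.E)).map (algebraMap (ZMod L.l) k) =
        (Int.castRingHom k).mapMatrix (L.M * L.E + 1 - L.E) from
      Matrix.ext fun i j => algebraMap_toZMod _ i j,
      map_sub, map_add, map_mul, map_one]
    rfl
  rw [Semilinear.frob, hmap, Matrix.sub_mulVec, Matrix.add_mulVec, ← Matrix.mulVec_mulVec, hE,
    Matrix.one_mulVec, add_sub_cancel_right]
  funext i
  rw [← T.tauHom_frob hG x i]
  simp [Matrix.mulVec, dotProduct]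

/-- The combination `∑ a i * t i` nearly satisfies `X ^ l + l X = ∑ a i * tx i`. -/
theorem valuation_combination {R : A.ValueGroup} (hR : IsRootLevel L R)
    (hEE : ∀ i j, (L.l : ℤ) ∣ (L.E * L.E) i j - L.E i j) {a t t' tx : Fin S.g → K}
    (ha1 : ∀ i, A.valuation (a i) ≤ 1) (htR : ∀ i, A.valuation (t i) ≤ R)
    (ht'R : ∀ i, A.valuation (t' i) ≤ R)
    (htE : ∀ i, A.valuation (t i - ∑ j, (L.E i j : K) * t' j) ≤ R * R)
    (hrel : ∀ i, A.valuation ((L.l : K) * t i + ∑ j, (L.M i j : K) * t j ^ L.l - tx i) ≤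
      L.γ * L.ρ)
    (hT2 : ∀ i, A.valuation (a i ^ L.l -
      ∑ j, a j * (((L.M * L.E + 1 - L.E) j i : ℤ) : K)) ≤ L.γ) :
    A.valuation ((∑ i, a i * t i) ^ L.l + (L.l : K) * ∑ i, a i * t i - ∑ i, a i * tx i) ≤
      L.γ * L.ρ := by
  classical
  set Q : Matrix (Fin S.g) (Fin S.g) ℤ := L.M * L.E + 1 - L.E with hQ
  set w₁ : K := ∑ i, a i * t i with hw₁
  set τx : K := ∑ i, a i * tx i with hτx
  have hγγ : L.γ * L.γ ≤ L.γ * L.ρ := mul_le_mul' le_rfl L.γ_le_ρ
  have hRl : R ^ L.l = L.γ := hR.pow_eq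
  set D : Matrix (Fin S.g) (Fin S.g) ℤ := L.E - 1 with hD
  have hDt : ∀ i, A.valuation (∑ j, (D i j : K) * t j) ≤ R * R := by
    intro i
    set u : Fin S.g → K := fun j => t j - ∑ k', (L.E j k' : K) * t' k' with hu
    have e : ∑ j, (D i j : K) * t j = ∑ j, (D i j : K) * u j +
        ∑ k', (((L.E * L.E) i k' - L.E i k' : ℤ) : K) * t' k' := by
      have e1 : ∀ k', (((L.E * L.E) i k' - L.E i k' : ℤ) : K) =
          ∑ j, (D i j : K) * (L.E j k' : K) := fun k' => by
        rw [show (L.E * L.E) i k' - L.E i k' = (D * L.E) i k' by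
          rw [hD, sub_mul, one_mul, Matrix.sub_apply], Matrix.mul_apply]
        push_cast
        rfl
      simp only [e1, hu, mul_sub, Finset.sum_sub_distrib, Finset.mul_sum, Finset.sum_mul,
        mul_assoc]
      rw [Finset.sum_comm (γ := Fin S.g)]
      abel
    rw [e]
    refine (A.valuation.map_add _ _).trans (max_le ?_ ?_)
    · refine A.valuation.map_sum_le fun j _ => ?_
      rw [map_mul]
      exact (mul_le_of_le_one_left' (valuation_intCast_le_one _)).trans (htE j)
    · refine A.valuation.map_sum_le fun j _ => ?_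
      rw [map_mul]
      exact (mul_le_mul' (valuation_intCast_le_of_dvd (hEE i j)) (ht'R j)).trans
        (mul_le_mul' hR.γ_le le_rfl)
  have hDl : ∀ i, A.valuation (∑ j, (D i j : K) * t j ^ L.l) ≤ L.γ * L.ρ := by
    intro i
    have h1 := valuation_intMul_pow_sub L.prime (fun j => D i j) htR
    rw [hRl] at h1
    rw [show ∑ j, (D i j : K) * t j ^ L.l = (∑ j, (D i j : K) * t j) ^ L.l -
      ((∑ j, (D i j : K) * t j) ^ L.l - ∑ j, (D i j : K) * t j ^ L.l) by ring]
    refine (A.valuation.map_sub _ _).trans (max_le ?_ (h1.trans hγγ))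
    rw [map_pow]
    refine (pow_le_pow_left' (hDt i) _).trans ?_
    rw [mul_pow, hRl]
    exact hγγ
  have hT3 : ∀ j, A.valuation (∑ i, ((Q j i : K) - (L.M j i : K)) * t i ^ L.l) ≤
      L.γ * L.ρ := by
    intro j
    have hQM : Q - L.M = (L.M - 1) * D := by rw [hQ, hD]; noncomm_ring
    have e : ∀ i, (Q j i : K) - (L.M j i : K) =
        ∑ b', ((L.M - 1) j b' : K) * (D b' i : K) := fun i => by
      rw [← Int.cast_sub, ← Matrix.sub_apply, hQM, Matrix.mul_apply]
      push_cast
      rfl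
    simp only [e, Finset.sum_mul, mul_assoc]
    rw [Finset.sum_comm]
    refine A.valuation.map_sum_le fun b' _ => ?_
    rw [← Finset.mul_sum, map_mul]
    exact (mul_le_of_le_one_left' (valuation_intCast_le_one _)).trans (hDl b')
  have hsplit : w₁ ^ L.l + (L.l : K) * w₁ - τx =
      (w₁ ^ L.l - ∑ i, (a i * t i) ^ L.l) +
      ∑ i, (a i ^ L.l - ∑ j, a j * (Q j i : K)) * t i ^ L.l +
      ∑ j, a j * (∑ i, ((Q j i : K) - (L.M j i : K)) * t i ^ L.l) +
      ∑ j, a j * ((L.l : K) * t j + ∑ i, (L.M j i : K) * t i ^ L.l - tx j) := by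
    simp only [hw₁, hτx, sub_mul, mul_sub, mul_add, Finset.mul_sum, Finset.sum_mul,
      Finset.sum_sub_distrib, Finset.sum_add_distrib, mul_pow, mul_assoc]
    rw [Finset.sum_comm (f := fun i j => a j * ((Q j i : K) * t i ^ L.l)),
      show ∑ i, (L.l : K) * (a i * t i) = ∑ j, a j * ((L.l : K) * t j) from
        Finset.sum_congr rfl fun i _ => by ring]
    ring
  rw [hsplit]
  refine (A.valuation.map_add _ _).trans (max_le ((A.valuation.map_add _ _).trans (max_le
    ((A.valuation.map_add _ _).trans (max_le ?_ ?_)) ?_)) ?_)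
  · have h := valuation_sum_pow_sub (A := A) (r := R) L.prime Finset.univ (fun i => a i * t i)
      fun i _ => by rw [map_mul]; exact (mul_le_of_le_one_left' (ha1 i)).trans (htR i)
    rw [hRl] at h
    exact h.trans hγγ
  · refine A.valuation.map_sum_le fun i _ => ?_
    rw [map_mul, map_pow]
    refine (mul_le_mul' (hT2 i) (pow_le_pow_left' (htR i) _)).trans ?_
    rw [hRl]
    exact hγγ
  · refine A.valuation.map_sum_le fun j _ => ?_
    rw [map_mul]
    exact (mul_le_of_le_one_left' (ha1 j)).trans (hT3 j)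
  · refine A.valuation.map_sum_le fun j _ => ?_
    rw [map_mul]
    exact (mul_le_of_le_one_left' (ha1 j)).trans (hrel j)

/-- **The Kummer obstruction.** -/
theorem kummer [IsAlgClosed K] [IsAlgClosed k] (hG : T.IsPiece op G)
    (hopc : ∀ σ z, op ((T.sym σ).act z) = (T.sym σ).act (op z))
    (hEE : ∀ i j, (L.l : ℤ) ∣ (L.E * L.E) i j - L.E i j)
    (hEM : ∀ i j, (L.l : ℤ) ∣ (L.E * L.M) i j - (L.M * L.E) i j)
    {y : Pic0 K S.F} (hy : ∀ σ, (T.sym σ).act y - y ∈ G)
    {f : Pic0 K S.F → ZMod L.l} (hf : ∀ a ∈ G, ∀ b ∈ G, f (a + b) = f a + f b)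
    {ζ : K} (hζ : IsPrimitiveRoot ζ L.l) {lam : K}
    (hlam : ∀ σ, (T.sym σ).base (lam ^ L.l) = lam ^ L.l)
    (hlamv : A.valuation lam ^ L.l = L.γ) (c : ZMod L.l)
    (hc : ∀ σ, (T.sym σ).base ζ = ζ → ∀ j : ℕ, (T.sym σ).base lam = ζ ^ j * lam →
      f ((T.sym σ).act y - y) = c * j) : c = 0 := by
  classical
  have := charP_l L
  have : Fact L.l.Prime := ⟨L.prime⟩
  let : Algebra (ZMod L.l) k := ZMod.algebra k L.l
  let : Module (ZMod L.l) G :=
    AddCommGroup.zmodModule fun x => Subtype.ext (hG.torsion x x.2)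
  set R : A.ValueGroup := A.valuation lam with hRdef
  have hR : IsRootLevel L R := ⟨hlamv⟩
  -- reduce to a point reducing to zero
  obtain ⟨y₀, hy₀, hy₀fix⟩ := exists_fixed_sp_eq T.rich L.gap y
  have hy₁sp : L.gap.sp (y - y₀) = 0 := by rw [map_sub, hy₀, sub_self]
  have hzeq : ∀ σ, (T.sym σ).act (y - y₀) - (y - y₀) = (T.sym σ).act y - y := fun σ => by
    rw [T.act_sub, hy₀fix _ ⟨σ, rfl⟩]; abel
  obtain ⟨hfinζ, -⟩ := index_fixing_zeta T hζ
  obtain ⟨H₀, hH₀, hH₀fix⟩ := T.finiteIndex (y - y₀)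
  have : (T.stab (y - y₀)).FiniteIndex :=
    Subgroup.finiteIndex_of_le (H := H₀) fun σ hσ => hH₀fix σ hσ
  set H := T.fixing {ζ} ⊓ T.stab (y - y₀) with hH
  obtain ⟨y', num, den, m, hy', hrep, htR, t', ht'R, htE⟩ :=
    T.exists_rep_root hG hopc hR H hy₁sp (fun σ hσ => hσ.2) fun σ => by rw [hzeq]; exact hy σ
  have hz' : ∀ σ, (T.sym σ).act y' - y' = (T.sym σ).act y - y := fun σ => by rw [hy', hzeq]
  set t := L.Φ.tang num den with ht
  -- powers of elements fixing `ζ` lie in `H`
  have hpowH : ∀ σ, (T.sym σ).base ζ = ζ → σ ^ L.l ∈ H := by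
    intro σ hσ
    refine ⟨Subgroup.pow_mem _ (T.mem_fixing_singleton.mpr hσ) _, ?_⟩
    have hw : (T.sym σ).act ((T.sym σ).act y - y) = (T.sym σ).act y - y := by
      refine (T.act_eq_nsmul hG (hy σ) σ (c := 1) fun hm => ?_).trans (one_nsmul _)
      rw [Nat.cast_one, ← map_one π]
      refine congrArg π (Subtype.ext ?_)
      show (T.sym σ).base L.Λ / L.Λ = 1
      rw [apply_Λ T hζ hσ, div_self L.Λ_ne_zero]
    have hiter : ∀ i : ℕ, (T.sym (σ ^ i)).act (y - y₀) =
        y - y₀ + i • ((T.sym σ).act y - y) := by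
      intro i
      induction i with
      | zero => rw [pow_zero, zero_nsmul, add_zero]; exact (T.stab (y - y₀)).one_mem
      | succ i ih =>
        have h1 := hzeq σ
        rw [sub_eq_iff_eq_add'] at h1
        rw [pow_succ', T.act_mul, ih, show (T.sym σ).act (y - y₀ + i • ((T.sym σ).act y - y)) =
          (T.sym σ).act (y - y₀) + (T.sym σ).act (i • ((T.sym σ).act y - y)) from
            smul_add (T.sym σ).semi _ _, T.act_nsmul, hw, h1, succ_nsmul', add_assoc]
    show (T.sym (σ ^ L.l)).act (y - y₀) = y - y₀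
    rw [hiter, hG.torsion _ (hy σ), add_zero]
  -- the fixed multiple
  have hxfix : ∀ s ∈ Set.range T.sym, s.act (L.l • y') = L.l • y' := by
    rintro _ ⟨σ, rfl⟩
    rw [T.act_nsmul, ← sub_eq_zero, ← nsmul_sub, hz' σ]
    exact hG.torsion _ (hy σ)
  obtain ⟨numx, denx, mx, rx, hx⟩ := exists_isRatRep T.rich L.gap
    (z := L.l • y') (by rw [map_nsmul, hrep.1.sp_eq_zero L.gap, nsmul_zero]) hxfix
  obtain ⟨rx', hrx', hx', hxlev⟩ := hx.1.exists_level
  have hrx : rx' ≤ L.γ := by
    rcases hxlev with rfl | ⟨i', hi'⟩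
    · exact zero_le
    rw [← hi']
    exact T.valuation_le_of_fixed
      (mem_ratSeries.mp ((ratSeries _).sub_mem hx.2.2.1 hx.2.2.2) i')
      (hi'.trans_lt (hrx'.trans_lt hx.1.lt_one))
  set tx := L.Φ.tang numx denx with htxdef
  have htxfix : ∀ i, tx i ∈ T.fixedAll := L.Φ.tang_mem hx.2.2.1 hx.2.2.2
  have hρ0 := L.ρ_ne_zero
  have hγγ : L.γ * L.γ ≤ L.γ * L.ρ := mul_le_mul' le_rfl L.γ_le_ρ
  have hrel : ∀ i, A.valuation ((L.l : K) * t i + ∑ j, (L.M i j : K) * t j ^ L.l - tx i) ≤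
      L.γ * L.ρ := fun i =>
    (L.Φ.valuation_tang_relation L.gap hrep.1 L.prime L.valuation_lt L.isFrob hx' L.γ_lt_one
      hR.γR_le hR.pow_eq.le hrx i).trans (max_le (mul_le_mul' le_rfl hR.sq_le) hγγ)
  -- the functional
  set Q : Matrix (Fin S.g) (Fin S.g) ℤ := L.M * L.E + 1 - L.E with hQ
  have hQB : (toZMod L Q).transpose * (toZMod L (L.M' * L.E + 1 - L.E)).transpose = 1 := by
    rw [← Matrix.transpose_mul, exists_inverse hEE hEM, Matrix.transpose_one]
  have hQfix := T.frob_twist hG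
  rw [← hQ] at hQfix
  let τl : G →ₗ[ZMod L.l] (Fin S.g → k) := AddMonoidHom.toZModLinearMap L.l (T.tauHom hG)
  let fl : G →ₗ[ZMod L.l] ZMod L.l := AddMonoidHom.toZModLinearMap L.l
    (AddMonoidHom.mk' (fun x : G => f (x : Pic0 K S.F)) fun a b => hf _ a.2 _ b.2)
  obtain ⟨α, hαeq, hαf⟩ := Semilinear.exists_dual (toZMod L Q) hQB (τ := τl)
    (T.tauHom_injective hG) hQfix fl
  choose aA haπ using fun i => S.surj (α i)
  choose b hbfix hbπ using fun i => T.rich (aA i)
  set a : Fin S.g → K := fun i => (b i : K) with hadef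
  have hafix : ∀ i, a i ∈ T.fixedAll := hbfix
  have ha1 : ∀ i, A.valuation (a i) ≤ 1 := fun i =>
    (ValuationSubring.valuation_le_one_iff _ _).mpr (b i).2
  have haα : ∀ i, π (b i) = α i := fun i => by rw [hbπ, haπ]
  have hT2 : ∀ i, A.valuation (a i ^ L.l - ∑ j, a j * (Q j i : K)) ≤ L.γ := by
    intro i
    refine T.valuation_le_of_fixed (T.fixedAll.sub_mem (T.fixedAll.pow_mem (hafix i) _)
      (T.fixedAll.sum_mem fun j _ => T.fixedAll.mul_mem (hafix j) (intCast_mem T.fixedAll _))) ?_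
    have h := congrFun hαeq i
    simp only [Matrix.mulVec, dotProduct, Matrix.transpose_map, Matrix.transpose_apply,
      algebraMap_toZMod] at h
    have h0 : π (b i ^ L.l - ∑ j, b j * (Q j i : A)) = 0 := by
      simp only [map_sub, map_pow, map_sum, map_mul, map_intCast, haα]
      rw [h, sub_eq_zero]
      exact Finset.sum_congr rfl fun j _ => mul_comm _ _
    rw [residue_eq_zero_iff S.surj] at h0
    simpa [hadef] using h0
  set w₁ : K := ∑ i, a i * t i with hw₁
  set τx : K := ∑ i, a i * tx i with hτx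
  have hw₁R : A.valuation w₁ ≤ R := A.valuation.map_sum_le fun i _ => by
    rw [map_mul]; exact (mul_le_of_le_one_left' (ha1 i)).trans (htR i)
  have hX : A.valuation (w₁ ^ L.l + (L.l : K) * w₁ - τx) ≤ L.γ * L.ρ :=
    valuation_combination hR hEE ha1 htR ht'R htE hrel hT2

  -- the Artin-Schreier equation
  set e : K := (w₁ ^ L.l + (L.l : K) * w₁ - τx) / L.Λ ^ L.l with hedef
  have heA : e ∈ A := by
    rw [← ValuationSubring.valuation_le_one_iff, hedef, map_div₀, map_pow,
      show A.valuation L.Λ = L.ρ from rfl, L.ρ_pow_prime]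
    exact (div_le_one₀ (zero_lt_iff.mpr (mul_ne_zero L.γ_ne_zero hρ0))).mpr hX
  obtain ⟨e₀, he₀fix, he₀π⟩ := T.rich ⟨e, heA⟩
  set U : K := w₁ / L.Λ with hUdef
  set f₀ : K := τx / L.Λ ^ L.l + (e₀ : K) with hf₀def
  have hUf : A.valuation (U ^ L.l - U - f₀) < 1 := by
    have h1 : U ^ L.l - U - f₀ = e - e₀ := by
      rw [hUdef, hf₀def, hedef, div_pow, L.Λ_pow_prime]
      field_simp [L.ne_zero, L.Λ_ne_zero]
      ring
    rw [h1]
    have h2 : π (⟨e, heA⟩ - e₀) = 0 := by rw [map_sub, he₀π, sub_self]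
    rwa [residue_eq_zero_iff S.surj] at h2
  have hf₀ : ∀ σ, (T.sym σ).base ζ = ζ → (T.sym σ).base f₀ = f₀ := by
    intro σ hσ
    have hτxfix : τx ∈ T.fixedAll :=
      T.fixedAll.sum_mem fun i _ => T.fixedAll.mul_mem (hafix i) (htxfix i)
    rw [hf₀def, map_add, map_div₀, map_pow, apply_Λ T hζ hσ, T.mem_fixedAll.mp hτxfix σ,
      T.mem_fixedAll.mp he₀fix σ]
  have hU : A.valuation (U * L.Λ) ≤ A.valuation lam := by
    rw [hUdef, div_mul_cancel₀ _ L.Λ_ne_zero]; exact hw₁R
  suffices hk : (c.val : k) = 0 by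
    rw [← ZMod.natCast_zmod_val c, ZMod.natCast_eq_zero_iff]
    exact (CharP.cast_eq_zero_iff k L.l _).mp hk
  refine eq_zero_of_artinSchreier T hζ hlam hlamv hU hf₀ hUf c.val fun σ hσ j hj => ?_
  obtain ⟨_, numw, denw, mw, -, hw⟩ := T.exists_rep hG (hy σ)
  have hact : (T.sym σ).act y' = y' + ((T.sym σ).act y - y) := by
    rw [← hz' σ, add_sub_cancel]
  have htr := T.valuation_tang_translate hR hrep hw.1 (hpowH σ hσ) hact
  set tw := L.Φ.tang numw denw with htw
  have htau : T.tauHom hG ⟨_, hy σ⟩ = L.tau numw denw := T.tauFun_eq hG ⟨_, hy σ⟩ hw.1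
  have hres : ∑ i, α i * L.tau numw denw i = ((c.val * j : ℕ) : k) := by
    rw [← htau]
    refine (hαf ⟨_, hy σ⟩).trans ?_
    show algebraMap (ZMod L.l) k (f ((T.sym σ).act y - y)) = _
    rw [hc σ hσ j hj, ← map_natCast (algebraMap (ZMod L.l) k), Nat.cast_mul,
      ZMod.natCast_zmod_val]
  let v : Fin S.g → A := fun i => ⟨tw i / L.Λ, L.div_mem (L.valuation_tang_le_ρ hw.1 i)⟩
  have h1 : A.valuation (∑ i, a i * (tw i / L.Λ) - ((c.val * j : ℕ) : K)) < 1 := by
    have h0 : π (∑ i, b i * v i - ((c.val * j : ℕ) : A)) = 0 := by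
      simp only [map_sub, map_sum, map_mul, haα, map_natCast]
      rw [← hres, sub_eq_zero]
      exact Finset.sum_congr rfl fun i _ =>
        congrArg (α i * ·) (L.res_eq (L.valuation_tang_le_ρ hw.1 i)).symm
    rw [residue_eq_zero_iff S.surj] at h0
    simpa [hadef, v, -ZMod.natCast_val] using h0
  have h2 : A.valuation ((T.sym σ).base U - U - ∑ i, a i * (tw i / L.Λ)) < 1 := by
    rw [show (T.sym σ).base U - U - ∑ i, a i * (tw i / L.Λ) =
        (∑ i, a i * ((T.sym σ).base (t i) - (t i + tw i))) / L.Λ by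
      rw [hUdef, map_div₀, apply_Λ T hζ hσ, hw₁, map_sum]
      simp only [map_mul, T.mem_fixedAll.mp (hafix _) σ, ← mul_div_assoc, ← Finset.sum_div,
        ← sub_div, ← Finset.sum_sub_distrib]
      congr 1
      exact Finset.sum_congr rfl fun i _ => by ring, map_div₀,
      show A.valuation L.Λ = L.ρ from rfl]
    refine (div_lt_one₀ (zero_lt_iff.mpr hρ0)).mpr
      (A.valuation.map_sum_lt hρ0 fun i _ => ?_)
    rw [map_mul]
    exact (mul_le_of_le_one_left' (ha1 i)).trans_lt (htr i)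
  have h3 := (A.valuation.map_add _ _).trans_lt (max_lt h2 h1)
  rwa [sub_add_sub_cancel] at h3

end LocalGroup

end Fermat.Agent.MazurStep
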