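import Fermat.Agent.MazurStep.Rep
import Fermat.Prelude.Def_AlgebraicCurve_BaseChangeGalois

/-!
# Symmetries of a reduced curve acting trivially on residues

A symmetry is an automorphism of the constants which preserves the function field and the
valuation and is trivial on the residue field. It fixes the place `q = 0`, commutes with the
reduction of classes, and maps a representative of `z` at level `r` to one of `σ z`, the tangent
being conjugated.
-/

set_option autoImplicit false
attribute [-instance] IsScalarTower.of_algHom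

noncomputable section

namespace Fermat.Agent.MazurStep

open HahnSeries AlgebraicCurve ModularCurve
open Fermat.Agent.Reduction
open Fermat.Agent.Reduction.CurveRed

variable {K k : Type*} [Field K] [Field k] {A : ValuationSubring K} {π : A →+* k}

/-- An automorphism of the constants preserving the reduced curve, trivial on residues. -/
structure Sym (S : CurveRed A π) where
  /-- the automorphism of the constants -/
  base : K ≃+* K
  map_mem : ∀ u ∈ S.F, coeffMap (base : K →+* K) u ∈ S.F
  symm_map_mem : ∀ u ∈ S.F, coeffMap (base.symm : K →+* K) u ∈ S.F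
  map_valuation : ∀ a : K, A.valuation (base a) = A.valuation a
  residue_eq : ∀ (a : A) (h : base a ∈ A), π ⟨base a, h⟩ = π a

variable {S : CurveRed A π} {n₀ : ℕ}

namespace Sym

variable (σ : Sym S)

theorem apply_mem_iff (a : K) : σ.base a ∈ A ↔ a ∈ A := by
  rw [← ValuationSubring.valuation_le_one_iff, σ.map_valuation,
    ValuationSubring.valuation_le_one_iff]

theorem symm_valuation (a : K) : A.valuation (σ.base.symm a) = A.valuation a := by
  conv_rhs => rw [← σ.base.apply_symm_apply a, σ.map_valuation]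

/-- The inverse of the automorphism of the constants is also trivial on residues. -/
theorem residue_symm_eq (a : A) (h : σ.base.symm a ∈ A) : π ⟨σ.base.symm a, h⟩ = π a := by
  have h1 := σ.residue_eq ⟨σ.base.symm a, h⟩ (by simp)
  rw [← h1]
  exact congrArg π (Subtype.ext (σ.base.apply_symm_apply _))

/-- The inverse symmetry. -/
def inv : Sym S where
  base := σ.base.symm
  map_mem := σ.symm_map_mem
  symm_map_mem := by simpa using σ.map_mem
  map_valuation := σ.symm_valuation
  residue_eq := σ.residue_symm_eq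

/-! ### The action on series -/

theorem coeffMap_symm_coeffMap (y : LaurentSeries K) :
    coeffMap (σ.base.symm : K →+* K) (coeffMap (σ.base : K →+* K) y) = y := by
  ext i; simp

theorem coeffMap_coeffMap_symm (y : LaurentSeries K) :
    coeffMap (σ.base : K →+* K) (coeffMap (σ.base.symm : K →+* K) y) = y := by
  ext i; simp

theorem red_map {y : LaurentSeries K} {x : LaurentSeries k} (h : Red A π y x) :
    Red A π (coeffMap (σ.base : K →+* K) y) x := fun i => by
  obtain ⟨hi, hπ⟩ := h i
  exact ⟨(σ.apply_mem_iff _).mpr hi, (σ.residue_eq ⟨_, hi⟩ _).trans hπ⟩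

theorem boundedBy_map {y : LaurentSeries K} {r : A.ValueGroup} (h : BoundedBy A y r) :
    BoundedBy A (coeffMap (σ.base : K →+* K) y) r := fun i => by
  rw [coeffMap_coeff]
  exact (σ.map_valuation _).le.trans (h i)

theorem order_map (y : LaurentSeries K) :
    (coeffMap (σ.base : K →+* K) y).order = y.order := by
  rcases eq_or_ne y 0 with rfl | hy
  · rw [map_zero]
  have hy' : coeffMap (σ.base : K →+* K) y ≠ 0 := fun h => hy (by
    rw [← σ.coeffMap_symm_coeffMap y, h, map_zero])
  refine le_antisymm (HahnSeries.order_le_of_coeff_ne_zero ?_)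
    (HahnSeries.le_order_iff_forall hy' |>.mpr fun i hi => ?_)
  · rw [coeffMap_coeff]
    exact (map_ne_zero_iff _ σ.base.injective).mpr (HahnSeries.coeff_order_eq_zero.not.mpr hy)
  · rw [coeffMap_coeff, HahnSeries.coeff_eq_zero_of_lt_order hi, map_zero]

/-! ### The action on the function field -/

/-- The induced automorphism of the function field. -/
def ringAut : S.F ≃+* S.F where
  toFun u := ⟨coeffMap (σ.base : K →+* K) (u : LaurentSeries K), σ.map_mem _ u.2⟩
  invFun u := ⟨coeffMap (σ.base.symm : K →+* K) (u : LaurentSeries K), σ.symm_map_mem _ u.2⟩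
  left_inv _ := Subtype.ext (σ.coeffMap_symm_coeffMap _)
  right_inv _ := Subtype.ext (σ.coeffMap_coeffMap_symm _)
  map_mul' _ _ := Subtype.ext (map_mul (coeffMap (σ.base : K →+* K)) _ _)
  map_add' _ _ := Subtype.ext (map_add (coeffMap (σ.base : K →+* K)) _ _)

theorem coe_ringAut (u : S.F) :
    ((σ.ringAut u : S.F) : LaurentSeries K) = coeffMap (σ.base : K →+* K) (u : LaurentSeries K) :=
  rfl

theorem ringAut_algebraMap (a : K) :
    σ.ringAut (algebraMap K S.F a) = algebraMap K S.F (σ.base a) :=
  Subtype.ext (coeffMap_algebraMap (σ.base : K →+* K) a)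

/-- The induced semilinear automorphism. -/
def semi : SemilinearAut K S.F := ⟨(σ.ringAut, σ.base), σ.ringAut_algebraMap⟩

theorem semi_smul (u : S.F) : σ.semi • u = σ.ringAut u := rfl

/-- The inverse symmetry induces the inverse semilinear automorphism. -/
theorem semi_smul_inv : σ.inv.semi = σ.semi⁻¹ :=
  Subtype.ext (Prod.ext (RingEquiv.ext fun _ => Subtype.ext rfl) rfl)

theorem ord_semi (v : Place K S.F) (u : S.F) : (σ.semi • v).ord (σ.ringAut u) = v.ord u :=
  SemilinearAut.ord_smul σ.semi v u

theorem semi_smul_pt : σ.semi • S.pt = S.pt := by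
  have key : ∀ u : S.F, (σ.semi • S.pt).ord u = S.pt.ord u := fun u => by
    have h := σ.ord_semi S.pt (σ.ringAut.symm u)
    rw [RingEquiv.apply_symm_apply] at h
    rw [h, S.ord_pt, S.ord_pt, ← σ.order_map (σ.ringAut.symm u : S.F), ← σ.coe_ringAut,
      RingEquiv.apply_symm_apply]
  refine Place.ext (SetLike.ext fun u => ?_)
  rcases eq_or_ne u 0 with rfl | hu
  · simp only [zero_mem]
  rw [FF.mem_toValuationSubring_iff_ord _ hu, FF.mem_toValuationSubring_iff_ord _ hu, key u]

/-- The action on divisors. -/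
def mapDiv : Divisor K S.F →+ Divisor K S.F :=
  DistribSMul.toAddMonoidHom (Divisor K S.F) σ.semi

theorem mapDiv_def (D : Divisor K S.F) : σ.mapDiv D = σ.semi • D := rfl

theorem mapDiv_apply_smul (D : Divisor K S.F) (v : Place K S.F) :
    σ.mapDiv D (σ.semi • v) = D v := SemilinearAut.divisor_smul_apply_smul σ.semi D v

theorem mapDiv_atPt (n : ℤ) : σ.mapDiv (S.atPt n) = S.atPt n := by
  rw [mapDiv_def, atPt, SemilinearAut.smul_single, σ.semi_smul_pt]

theorem degree_mapDiv (D : Divisor K S.F) : Divisor.degree (σ.mapDiv D) = Divisor.degree D :=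
  SemilinearAut.degree_smul σ.semi D

theorem isEff_mapDiv {E : Divisor K S.F} (hE : S.IsEff E) : S.IsEff (σ.mapDiv E) := fun v => by
  rw [mapDiv_def, SemilinearAut.divisor_smul_apply]
  exact hE _

theorem map_mem_space {D : Divisor K S.F} {y : LaurentSeries K} (hy : y ∈ S.space D) :
    coeffMap (σ.base : K →+* K) y ∈ S.space (σ.mapDiv D) := by
  obtain ⟨u, rfl, hu⟩ := S.exists_of_mem_space hy
  rw [← σ.coe_ringAut]
  refine S.coe_mem_space.mpr fun v => ?_
  rcases hu (σ.semi⁻¹ • v) with h | h
  · exact Or.inl (by rw [h, map_zero])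
  · refine Or.inr ?_
    have h1 := σ.mapDiv_apply_smul D (σ.semi⁻¹ • v)
    have h2 := σ.ord_semi (σ.semi⁻¹ • v) u
    rw [smul_inv_smul] at h1 h2
    omega

theorem map_mem_space_atPt {n : ℤ} {y : LaurentSeries K} (hy : y ∈ S.space (S.atPt n)) :
    coeffMap (σ.base : K →+* K) y ∈ S.space (S.atPt n) := by
  simpa only [σ.mapDiv_atPt] using σ.map_mem_space hy

theorem effIdeal_le_mapDiv (E : Divisor K S.F) : S.effIdeal E ≤ S.effIdeal (σ.mapDiv E) := by
  intro x hx
  obtain ⟨n, y, hy, hyx⟩ := mem_effIdeal.mp hx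
  refine mem_effIdeal.mpr ⟨n, _, ?_, σ.red_map hyx⟩
  simpa only [map_sub, σ.mapDiv_atPt] using σ.map_mem_space hy

theorem inv_mapDiv_mapDiv (E : Divisor K S.F) : σ.inv.mapDiv (σ.mapDiv E) = E := by
  rw [mapDiv_def, mapDiv_def, semi_smul_inv, inv_smul_smul]

/-- A symmetry does not change the reduced ideal of a divisor. -/
theorem effIdeal_mapDiv (E : Divisor K S.F) : S.effIdeal (σ.mapDiv E) = S.effIdeal E := by
  refine le_antisymm ?_ (σ.effIdeal_le_mapDiv E)
  have h := σ.inv.effIdeal_le_mapDiv (σ.mapDiv E)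
  rwa [σ.inv_mapDiv_mapDiv] at h

theorem effIdeal'_mapDiv (E : Divisor K S.F) : S.effIdeal' (σ.mapDiv E) = S.effIdeal' E := by
  rw [effIdeal', effIdeal', σ.effIdeal_mapDiv]

theorem isBad_smul_iff (v : Place K S.F) : IsBad (σ.semi • v) ↔ IsBad v := by
  rw [IsBad, IsBad, ← SemilinearAut.smul_single, ← mapDiv_def, σ.effIdeal'_mapDiv]

/-- The bad part commutes with a symmetry. -/
theorem badPart_mapDiv (D : Divisor K S.F) :
    badPart (S := S) (σ.mapDiv D) = σ.mapDiv (badPart (S := S) D) := by
  ext v
  obtain ⟨w, rfl⟩ : ∃ w, v = σ.semi • w := ⟨σ.semi⁻¹ • v, (smul_inv_smul _ _).symm⟩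
  rw [σ.mapDiv_apply_smul]
  by_cases h : IsBad w
  · rw [badPart_apply_bad ((σ.isBad_smul_iff w).mpr h), σ.mapDiv_apply_smul,
      badPart_apply_bad h]
  · rw [badPart_apply_good (mt (σ.isBad_smul_iff w).mp h), badPart_apply_good h]

theorem fdiv_ringAut (u : S.F) : fdiv (σ.ringAut u) = σ.mapDiv (fdiv u) := by
  rcases eq_or_ne u 0 with rfl | hu
  · rw [map_zero, fdiv, dif_neg (not_not.mpr rfl), map_zero]
  refine fdiv_eq ((map_ne_zero_iff _ σ.ringAut.injective).mpr hu) fun v => ?_
  obtain ⟨w, rfl⟩ : ∃ w, v = σ.semi • w := ⟨σ.semi⁻¹ • v, (smul_inv_smul _ _).symm⟩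
  rw [σ.mapDiv_apply_smul, σ.ord_semi, fdiv_apply hu]

/-- The action on divisor classes. -/
def act (z : Pic0 K S.F) : Pic0 K S.F := σ.semi • z

theorem act_def (z : Pic0 K S.F) : σ.act z = σ.semi • z := rfl

theorem act_mk (D : Divisor.degZero (K := K) (F := S.F)) :
    σ.act (Pic0.mk D) = Pic0.mk (SemilinearAut.degZeroSMulHom σ.semi D) := rfl

theorem badHom_mapDiv (R : Divisor K S.F) :
    badHom (S := S) (σ.mapDiv R) = σ.act (badHom (S := S) R) := by
  rw [badHom_apply, badHom_apply, badClass, badClass, act_mk]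
  refine congrArg Pic0.mk (Subtype.ext ?_)
  show σ.mapDiv R - S.atPt (Divisor.degree (σ.mapDiv R)) =
    σ.mapDiv (R - S.atPt (Divisor.degree R))
  rw [map_sub, σ.mapDiv_atPt, σ.degree_mapDiv]

/-! ### Reduction of classes and representatives -/

theorem classHom_mapDiv (hgap : S.GapBound n₀) (D : Divisor K S.F) :
    hgap.classHom (σ.mapDiv D) = hgap.classHom D := by
  induction D using Finsupp.induction with
  | zero => simp
  | single_add v n D _ _ ih =>
    rw [map_add σ.mapDiv, map_add, map_add, ih]
    congr 1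
    have hv : ∀ w : Place K S.F, (Finsupp.single w n : Divisor K S.F) =
        n • Finsupp.single w (1 : ℤ) := fun w => by simp
    rw [hv v, map_zsmul σ.mapDiv, map_zsmul, map_zsmul]
    congr 1
    have hE : S.IsEff (Finsupp.single v 1) := isEff_single v zero_le_one
    obtain ⟨u, hu⟩ := hgap.exists_effUnit hE
    rw [hgap.classHom_eff hE u hu,
      hgap.classHom_eff (σ.isEff_mapDiv hE) u (hu.trans (σ.effIdeal_mapDiv _).symm)]

/-- A class and its translate by a symmetry have the same reduction. -/
theorem sp_act (hgap : S.GapBound n₀) (z : Pic0 K S.F) : hgap.sp (σ.act z) = hgap.sp z := by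
  obtain ⟨D, rfl⟩ := Pic0.mk_surjective z
  rw [act_mk, hgap.sp_mk, hgap.sp_mk, SemilinearAut.coe_degZeroSMulHom, ← mapDiv_def,
    σ.classHom_mapDiv]

/-- A symmetry maps exact sections to exact sections of the same pole order. -/
theorem isExact_map {g : S.F} {m : ℤ} (h : IsExact g m) : IsExact (σ.ringAut g) m := by
  obtain ⟨hg, x, hx, hxo, hred⟩ := h
  exact ⟨σ.map_mem_space_atPt hg, x, hx, hxo, σ.red_map hred⟩

variable {z : Pic0 K S.F} {num den : S.F} {m : ℤ} {r : A.ValueGroup}

/-- A symmetry maps a representative of `z` to one of `σ z` at the same level. -/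
theorem isRep_map (h : IsRep z num den m r) :
    IsRep (σ.act z) (σ.ringAut num) (σ.ringAut den) m r := by
  obtain ⟨n, hn⟩ := h.regular
  refine ⟨⟨n, σ.map_mem_space_atPt hn⟩, σ.isExact_map h.exact, h.lt_one, ?_, ?_⟩
  · rw [σ.coe_ringAut, σ.coe_ringAut, ← map_sub]
    exact σ.boundedBy_map h.close
  · rw [σ.fdiv_ringAut, σ.badPart_mapDiv, σ.badHom_mapDiv, ← h.class_eq]

/-- The relative difference is conjugated by a symmetry. -/
theorem dev_map (num den : S.F) :
    dev (σ.ringAut num) (σ.ringAut den) = coeffMap (σ.base : K →+* K) (dev num den) := by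
  rw [dev, dev, σ.coe_ringAut, σ.coe_ringAut, map_mul, map_sub, map_inv₀]

theorem coeffMap_intSer (a : ℕ → ℤ) :
    coeffMap (σ.base : K →+* K) (intSer K a) = intSer K a := by
  ext i
  rw [coeffMap_coeff]
  rcases lt_or_ge i 0 with hi | hi
  · rw [intSer_coeff_of_neg _ hi, map_zero]
  · lift i to ℕ using hi
    rw [intSer_coeff_natCast, map_intCast]

/-- The tangent of a translate is the conjugated tangent. -/
theorem tang_map (Φ : Forms S) (num den : S.F) (i : Fin S.g) :
    Φ.tang (σ.ringAut num) (σ.ringAut den) i = σ.base (Φ.tang num den i) := by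
  rw [Forms.tang, Forms.tang, dev_map, Forms.pair, Forms.pair]
  conv_lhs => rw [← σ.coeffMap_intSer (Φ.coef i), ← map_mul, coeffMap_coeff]
  rfl

end Sym

end Fermat.Agent.MazurStep
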