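import Fermat.Agent.MazurStep.Rep
import Fermat.Agent.LevelLowerP.SeriesStep

/-!
# The series of the norm lift of `T_l`

`heckeSer l u = u(q ^ l) * seriesNorm l u` commutes with reduction, multiplies orders by `l + 1`,
and its linear part at `1` is paired with the cusp forms through the coefficients of `T_l`.
-/

set_option autoImplicit false

noncomputable section

namespace Fermat.Agent.MazurStep

open HahnSeries
open Fermat.Agent.Reduction
open Fermat.Agent.LevelLowerP (seriesNorm seriesSection seriesSection_coeff seriesNorm_mul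
  seriesNorm_one seriesNorm_one_add seriesNorm_ne_zero seriesNorm_pow seriesNorm_qExpand
  seriesSection_qExpand_mul coeffMap_seriesNorm coeffMap_seriesSection seriesNorm_ofPowerSeries
  seriesNorm_zpow seriesNorm_C)
open ModularCurve (coeffMap coeffMap_coeff qExpand qExpand_coeff_mul qExpand_coeff_of_not_dvd
  qExpand_injective qExpand_C)

variable {R : Type*} [CommRing R] (l : ℕ) [NeZero l]

/-- The series of the norm lift of `T_l`. -/
def heckeSer (y : LaurentSeries R) : LaurentSeries R := qExpand R l y * seriesNorm l y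

/-- Its linear part at `1`. -/
def heckeLin (y : LaurentSeries R) : LaurentSeries R :=
  qExpand R l y + (l : LaurentSeries R) * seriesSection l 0 y

theorem heckeSer_mul (y z : LaurentSeries R) :
    heckeSer l (y * z) = heckeSer l y * heckeSer l z := by
  simp only [heckeSer, map_mul, seriesNorm_mul]; ring

theorem heckeSer_one : heckeSer l (1 : LaurentSeries R) = 1 := by
  rw [heckeSer, map_one, seriesNorm_one, one_mul]

theorem coeffMap_heckeSer {R' : Type*} [CommRing R'] (f : R →+* R') (y : LaurentSeries R) :
    coeffMap f (heckeSer l y) = heckeSer l (coeffMap f y) := by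
  rw [heckeSer, heckeSer, map_mul, coeffMap_seriesNorm, ModularCurve.coeffMap_qExpand]

theorem coeffMap_heckeLin {R' : Type*} [CommRing R'] (f : R →+* R') (y : LaurentSeries R) :
    coeffMap f (heckeLin l y) = heckeLin l (coeffMap f y) := by
  rw [heckeLin, heckeLin, map_add, map_mul, map_natCast, coeffMap_seriesSection,
    ModularCurve.coeffMap_qExpand]

theorem heckeSer_one_add {e : R} (he : e * e = 0) (a : LaurentSeries R) :
    heckeSer l (1 + HahnSeries.C e * a) = 1 + HahnSeries.C e * heckeLin l a := by
  rw [heckeSer, seriesNorm_one_add l he, map_add, map_one, map_mul, qExpand_C, heckeLin, map_mul,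
    map_natCast]
  have h : (HahnSeries.C e : LaurentSeries R) * HahnSeries.C e = 0 := by
    rw [← map_mul, he, map_zero]
  linear_combination (qExpand R l a * (l : LaurentSeries R) * seriesSection l 0 a) * h

section Field

variable {k : Type*} [Field k]

omit [NeZero l] in
theorem order_single_one : (HahnSeries.single (1 : ℤ) (1 : k)).order = 1 :=
  HahnSeries.order_single one_ne_zero

theorem order_seriesNorm (g : LaurentSeries k) : (seriesNorm l g).order = g.order := by
  rcases eq_or_ne g 0 with rfl | hg
  · have h0 : seriesNorm l (0 : LaurentSeries k) = 0 := by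
      rw [show (0 : LaurentSeries k) = qExpand k l 0 by rw [map_zero], seriesNorm_qExpand, map_zero,
        zero_pow (NeZero.ne l)]
    rw [h0]
  set o := g.order
  set t : LaurentSeries k := HahnSeries.single (1 : ℤ) 1 with ht
  have ht0 : t ≠ 0 := HahnSeries.single_ne_zero one_ne_zero
  -- the uniformiser
  have htn : (seriesNorm l t).order = 1 := by
    have htl : t ^ l = qExpand k l t := by
      rw [ht, ModularCurve.qExpand_single, mul_one, HahnSeries.single_pow, one_pow, nsmul_one]
    have h1 : seriesNorm l t ^ l = t ^ l := by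
      conv_lhs => rw [← seriesNorm_pow, htl, seriesNorm_qExpand]
    have h2 := congrArg HahnSeries.order h1
    rw [HahnSeries.order_pow, HahnSeries.order_pow, ht, order_single_one, nsmul_eq_mul,
      nsmul_eq_mul, mul_one] at h2
    have : (l : ℤ) ≠ 0 := by exact_mod_cast NeZero.ne l
    exact mul_left_cancel₀ this (h2.trans (mul_one _).symm)
  -- a unit series
  have hunit : ∀ w : LaurentSeries k, w ≠ 0 → w.order = 0 → (seriesNorm l w).order = 0 := by
    intro w hw hwo
    have hle : ∀ v : LaurentSeries k, v ≠ 0 → 0 ≤ v.order → 0 ≤ (seriesNorm l v).order := by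
      intro v hv hvo
      obtain ⟨s, rfl⟩ := LevelLowerP.exists_eq_ofPowerSeries (g := v) fun n hn =>
        HahnSeries.coeff_eq_zero_of_lt_order (lt_of_lt_of_le hn hvo)
      obtain ⟨s', hs'⟩ := seriesNorm_ofPowerSeries l s
      have hne : seriesNorm l (HahnSeries.ofPowerSeries ℤ k s) ≠ 0 := seriesNorm_ne_zero l hv
      by_contra hlt
      push Not at hlt
      refine hne (HahnSeries.coeff_order_eq_zero.1 ?_)
      rw [hs'] at hlt ⊢
      exact ModularCurve.ofPowerSeries_coeff_of_neg _ hlt
    have h3 := HahnSeries.order_mul (seriesNorm_ne_zero l hw)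
      (seriesNorm_ne_zero l (inv_ne_zero hw))
    have h4 := HahnSeries.order_mul hw (inv_ne_zero hw)
    rw [← seriesNorm_mul, mul_inv_cancel₀ hw, seriesNorm_one, HahnSeries.order_one] at h3
    rw [mul_inv_cancel₀ hw, HahnSeries.order_one, hwo] at h4
    have h5 := hle w hw hwo.ge
    have h6 := hle _ (inv_ne_zero hw) (by omega)
    omega
  have hzpow : ∀ (v : LaurentSeries k), v ≠ 0 → ∀ n : ℤ, (v ^ n).order = n * v.order := by
    intro v hv n
    have hnat : ∀ m : ℕ, (v ^ m).order = (m : ℤ) * v.order := fun m => by
      rw [HahnSeries.order_pow, nsmul_eq_mul]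
    rcases Int.eq_nat_or_neg n with ⟨m, rfl | rfl⟩
    · rw [zpow_natCast, hnat]
    · have h1 := HahnSeries.order_mul (pow_ne_zero m hv) (inv_ne_zero (pow_ne_zero m hv))
      rw [mul_inv_cancel₀ (pow_ne_zero m hv), HahnSeries.order_one, hnat] at h1
      rw [zpow_neg, zpow_natCast]
      linarith
  have hz := zpow_ne_zero o ht0
  set w := g / t ^ o with hwdef
  have hw : w ≠ 0 := div_ne_zero hg hz
  have hgw : g = w * t ^ o := (div_mul_cancel₀ _ hz).symm
  have hwo : w.order = 0 := by
    have h1 := congrArg HahnSeries.order hgw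
    rw [HahnSeries.order_mul hw hz, hzpow t ht0, ht, order_single_one, mul_one] at h1
    omega
  calc (seriesNorm l g).order = (seriesNorm l w * seriesNorm l t ^ o).order := by
        rw [← seriesNorm_zpow l ht0, ← seriesNorm_mul, ← hgw]
    _ = o := by
      rw [HahnSeries.order_mul (seriesNorm_ne_zero l hw)
        (zpow_ne_zero _ (seriesNorm_ne_zero l ht0)),
        hunit w hw hwo, hzpow _ (seriesNorm_ne_zero l ht0), htn, mul_one, zero_add]

theorem order_qExpand_eq {y : LaurentSeries k} (hy : y ≠ 0) :
    (qExpand k l y).order = (l : ℤ) * y.order := by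
  have hne : qExpand k l y ≠ 0 := (map_ne_zero_iff _ (qExpand_injective l)).2 hy
  refine le_antisymm (HahnSeries.order_le_of_coeff_ne_zero ?_)
    ((HahnSeries.le_order_iff_forall hne).mpr fun i hi => ?_)
  · rw [qExpand_coeff_mul]
    exact HahnSeries.coeff_order_eq_zero.not.mpr hy
  · by_cases hd : (l : ℤ) ∣ i
    · obtain ⟨m, rfl⟩ := hd
      rw [qExpand_coeff_mul]
      exact HahnSeries.coeff_eq_zero_of_lt_order
        (lt_of_mul_lt_mul_left hi (Int.natCast_nonneg l))
    · exact qExpand_coeff_of_not_dvd l y hd

theorem heckeSer_ne_zero {y : LaurentSeries k} (hy : y ≠ 0) : heckeSer l y ≠ 0 :=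
  mul_ne_zero ((map_ne_zero_iff _ (qExpand_injective l)).2 hy) (seriesNorm_ne_zero l hy)

theorem order_heckeSer (y : LaurentSeries k) :
    (heckeSer l y).order = ((l : ℤ) + 1) * y.order := by
  rcases eq_or_ne y 0 with rfl | hy
  · simp [heckeSer]
  rw [heckeSer, HahnSeries.order_mul ((map_ne_zero_iff _ (qExpand_injective l)).2 hy)
    (seriesNorm_ne_zero l hy), order_seriesNorm, order_qExpand_eq l hy]
  ring

end Field

variable {K k : Type*} [Field K] [Field k] {A : ValuationSubring K} {π : A →+* k}

theorem red_heckeSer {y : LaurentSeries K} {x : LaurentSeries k} (h : Red A π y x) :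
    Red A π (heckeSer l y) (heckeSer l x) := by
  obtain ⟨z, rfl, rfl⟩ := red_iff_exists.mp h
  exact red_iff_exists.mpr ⟨heckeSer l z, coeffMap_heckeSer l _ z, coeffMap_heckeSer l _ z⟩

omit [NeZero l] in
theorem boundedBy_coeffMap_subtype (z : LaurentSeries A) :
    BoundedBy A (coeffMap A.subtype z) 1 := fun i => by
  rw [coeffMap_coeff]
  exact (ValuationSubring.valuation_le_one_iff _ _).mpr (z.coeff i).2

omit [NeZero l] in
/-- A series small in `A` comes from the quotient by the small elements. -/
theorem exists_of_boundedBy {y : LaurentSeries K} {r : A.ValueGroup} (hy : BoundedBy A y r)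
    {c : K} (hc : A.valuation c = r) :
    ∃ w : LaurentSeries A, y = algebraMap K (LaurentSeries K) c * coeffMap A.subtype w := by
  rcases eq_or_ne c 0 with rfl | hc0
  · refine ⟨0, ?_⟩
    rw [map_zero, zero_mul]
    ext i
    have h := hy i
    rw [← hc, map_zero] at h
    simpa using (A.valuation.zero_iff).mp (le_antisymm h zero_le)
  have hmem : ∀ i, c⁻¹ * y.coeff i ∈ A := fun i => by
    rw [← ValuationSubring.valuation_le_one_iff, map_mul, map_inv₀, hc]
    exact (mul_le_mul' le_rfl (hy i)).trans_eq
      (inv_mul_cancel₀ (hc ▸ (A.valuation.ne_zero_iff).mpr hc0))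
  refine ⟨⟨fun i => ⟨_, hmem i⟩, y.isPWO_support.mono fun i hi => ?_⟩, ?_⟩
  · simp only [Function.mem_support, ne_eq] at hi
    rw [HahnSeries.mem_support]
    exact fun h0 => hi (Subtype.ext (by simp [h0]))
  · ext i
    rw [coeff_algebraMap_mul, coeffMap_coeff]
    show y.coeff i = c * (c⁻¹ * y.coeff i)
    rw [mul_inv_cancel_left₀ hc0]

/-- The elements of valuation at most `s`. -/
def smallIdeal (A : ValuationSubring K) (s : A.ValueGroup) : Ideal A where
  carrier := {a | A.valuation (a : K) ≤ s}
  add_mem' {a b} ha hb := (A.valuation.map_add _ _).trans (max_le ha hb)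
  zero_mem' := by
    show A.valuation ((0 : A) : K) ≤ s
    rw [ZeroMemClass.coe_zero, map_zero]
    exact zero_le
  smul_mem' a b hb := by
    show A.valuation ((a * b : A) : K) ≤ s
    rw [MulMemClass.coe_mul, map_mul]
    exact (mul_le_of_le_one_left' ((ValuationSubring.valuation_le_one_iff _ _).mpr a.2)).trans hb

/-- **The linearisation of `heckeSer` at `1`.** -/
theorem boundedBy_heckeSer_one_add {δ : LaurentSeries K} {r : A.ValueGroup}
    (hδ : BoundedBy A δ r) (hr : r ≤ 1) :
    BoundedBy A (heckeSer l (1 + δ) - 1 - heckeLin l δ) (r * r) ∧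
      BoundedBy A (heckeSer l (1 + δ) - 1) r := by
  obtain ⟨c, hc⟩ := A.valuation_surjective r
  obtain ⟨w, rfl⟩ := exists_of_boundedBy hδ hc
  have hcA : c ∈ A := (ValuationSubring.valuation_le_one_iff _ _).mp (hc.le.trans hr)
  set ca : A := ⟨c, hcA⟩ with hca
  set q := Ideal.Quotient.mk (smallIdeal A (r * r))
  have hsq : q ca * q ca = 0 := by
    rw [← map_mul, Ideal.Quotient.eq_zero_iff_mem]
    show A.valuation ((ca * ca : A) : K) ≤ r * r
    rw [MulMemClass.coe_mul, map_mul, hca, hc]
  set X : LaurentSeries A := heckeSer l (1 + HahnSeries.C ca * w) - 1 -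
    HahnSeries.C ca * heckeLin l w with hX
  have hq : coeffMap q X = 0 := by
    rw [hX, map_sub, map_sub, coeffMap_heckeSer, map_add, map_one, map_mul, map_mul,
      coeffMap_heckeLin, show coeffMap q (HahnSeries.C ca) = HahnSeries.C (q ca) from
        ModularCurve.coeffMap_single q 0 ca, heckeSer_one_add l hsq]
    ring
  have hXb : BoundedBy A (coeffMap A.subtype X) (r * r) := fun i => by
    have h1 := congrArg (fun s : LaurentSeries _ => s.coeff i) hq
    simp only [coeffMap_coeff, HahnSeries.coeff_zero] at h1
    rw [coeffMap_coeff]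
    exact Ideal.Quotient.eq_zero_iff_mem.mp h1
  have hC : coeffMap A.subtype (HahnSeries.C ca) = algebraMap K (LaurentSeries K) c := by
    rw [HahnSeries.C_apply, ModularCurve.coeffMap_single,
      ModularCurve.algebraMap_laurentSeries_eq_single]
    rfl
  have hlin : heckeLin l (algebraMap K (LaurentSeries K) c * coeffMap A.subtype w) =
      algebraMap K (LaurentSeries K) c * coeffMap A.subtype (heckeLin l w) := by
    rw [coeffMap_heckeLin, show algebraMap K (LaurentSeries K) c = HahnSeries.C c by
      rw [ModularCurve.algebraMap_laurentSeries_eq_single]; rfl, heckeLin, heckeLin, map_mul,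
      qExpand_C,
      show seriesSection l 0 (HahnSeries.C c * coeffMap A.subtype w) =
        HahnSeries.C c * seriesSection l 0 (coeffMap A.subtype w) by
          rw [← qExpand_C l c, seriesSection_qExpand_mul, qExpand_C]]
    ring
  have hXeq : coeffMap A.subtype X =
      heckeSer l (1 + algebraMap K (LaurentSeries K) c * coeffMap A.subtype w) - 1 -
        heckeLin l (algebraMap K (LaurentSeries K) c * coeffMap A.subtype w) := by
    rw [hX, map_sub, map_sub, coeffMap_heckeSer, map_add, map_one, map_mul, map_mul, hC, hlin]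
  rw [hXeq] at hXb
  refine ⟨hXb, ?_⟩
  have h2 : BoundedBy A
      (heckeLin l (algebraMap K (LaurentSeries K) c * coeffMap A.subtype w)) r := by
    rw [hlin]
    exact (boundedBy_algebraMap_mul c (boundedBy_coeffMap_subtype _)).mono (by rw [hc, mul_one])
  have h3 := boundedBy_add (hXb.mono (mul_le_of_le_one_left' hr)) h2
  rwa [sub_add_cancel] at h3

omit [NeZero l] in
theorem intSer_coeff (a : ℕ → ℤ) (i : ℤ) :
    (intSer K a).coeff i = if 0 ≤ i then (a i.toNat : K) else 0 := by
  split_ifs with hi
  · lift i to ℕ using hi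
    simp [intSer_coeff_natCast]
  · exact intSer_coeff_of_neg a (by omega)

/-- **The pairing of the linear part**: the coefficients of `T_l`. -/
theorem coeff_heckeLin_mul_intSer (y : LaurentSeries K) (a : ℕ → ℤ) :
    (heckeLin l y * intSer K a).coeff 0 = (y * intSer K (fun n =>
      a (n * l) + if l ∣ n then (l : ℤ) * a (n / l) else 0)).coeff 0 := by
  have h1 : (qExpand K l y * intSer K a).coeff 0 =
      (y * seriesSection l 0 (intSer K a)).coeff 0 := by
    rw [← seriesSection_qExpand_mul, seriesSection_coeff, mul_zero, zero_add]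
  have h2 : (seriesSection l 0 y * intSer K a).coeff 0 =
      (y * qExpand K l (intSer K a)).coeff 0 := by
    have h := congrArg (fun s : LaurentSeries K => s.coeff 0)
      (seriesSection_qExpand_mul l 0 (intSer K a) y)
    simp only [seriesSection_coeff, mul_zero, zero_add] at h
    rw [mul_comm, ← h, mul_comm]
  have hl : (0 : ℤ) < l := by exact_mod_cast NeZero.pos l
  have key : intSer K (fun n => a (n * l) + if l ∣ n then (l : ℤ) * a (n / l) else 0) =
      seriesSection l 0 (intSer K a) + (l : LaurentSeries K) * qExpand K l (intSer K a) := by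
    ext i
    rw [HahnSeries.coeff_add, seriesSection_coeff, add_zero,
      ← map_natCast (algebraMap K (LaurentSeries K)) l, coeff_algebraMap_mul]
    rcases lt_or_ge i 0 with hi | hi
    · rw [intSer_coeff_of_neg _ hi, intSer_coeff_of_neg _ (mul_neg_of_pos_of_neg hl hi), zero_add]
      by_cases hd : (l : ℤ) ∣ i
      · obtain ⟨m, rfl⟩ := hd
        rw [qExpand_coeff_mul, intSer_coeff_of_neg _ (neg_of_mul_neg_right hi hl.le), mul_zero]
      · rw [qExpand_coeff_of_not_dvd l _ hd, mul_zero]
    · lift i to ℕ using hi
      rw [intSer_coeff_natCast, show (l : ℤ) * (i : ℤ) = ((i * l : ℕ) : ℤ) by push_cast; ring,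
        intSer_coeff_natCast]
      push_cast
      by_cases hd : l ∣ i
      · obtain ⟨m, rfl⟩ := hd
        rw [if_pos (dvd_mul_right l m), Nat.mul_div_cancel_left m (NeZero.pos l), Nat.cast_mul,
          qExpand_coeff_mul, intSer_coeff_natCast]
      · rw [if_neg hd, qExpand_coeff_of_not_dvd l _ fun h => hd (by exact_mod_cast h), mul_zero]
  rw [key, heckeLin, add_mul, mul_add, HahnSeries.coeff_add, HahnSeries.coeff_add, h1, mul_assoc,
    ← map_natCast (algebraMap K (LaurentSeries K)) l, coeff_algebraMap_mul, h2, mul_left_comm,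
    coeff_algebraMap_mul]

end Fermat.Agent.MazurStep
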