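import Fermat.Agent.MazurStep.Disc

/-!
# Congruences between series

`BoundedBy A y r` says that all coefficients of `y` have valuation at most `r`. We collect the
manipulations of such congruences for sections of a reduced curve: inverses of exact series,
reducing poles, and the Frobenius congruence for `l`-th powers.
-/

set_option autoImplicit false

noncomputable section

namespace Fermat.Agent.MazurStep

open HahnSeries AlgebraicCurve ModularCurve
open Fermat.Agent.Reduction
open Fermat.Agent.Reduction.CurveRed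

variable {K k : Type*} [Field K] [Field k] {A : ValuationSubring K} {π : A →+* k}

/-! ### Bounded series -/

theorem boundedBy_zero (r : A.ValueGroup) : BoundedBy A (0 : LaurentSeries K) r := fun i => by simp

theorem boundedBy_add {y z : LaurentSeries K} {r : A.ValueGroup} (hy : BoundedBy A y r)
    (hz : BoundedBy A z r) : BoundedBy A (y + z) r := fun i => by
  rw [HahnSeries.coeff_add]
  exact (A.valuation.map_add _ _).trans (max_le (hy i) (hz i))

theorem boundedBy_neg {y : LaurentSeries K} {r : A.ValueGroup} (hy : BoundedBy A y r) :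
    BoundedBy A (-y) r := fun i => by
  rw [HahnSeries.coeff_neg, Valuation.map_neg]
  exact hy i

theorem boundedBy_sub {y z : LaurentSeries K} {r : A.ValueGroup} (hy : BoundedBy A y r)
    (hz : BoundedBy A z r) : BoundedBy A (y - z) r := by
  rw [sub_eq_add_neg]
  exact boundedBy_add hy (boundedBy_neg hz)

theorem boundedBy_sum {ι : Type*} (s : Finset ι) {y : ι → LaurentSeries K} {r : A.ValueGroup}
    (h : ∀ i ∈ s, BoundedBy A (y i) r) : BoundedBy A (∑ i ∈ s, y i) r := by
  classical
  induction s using Finset.induction with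
  | empty => simpa using boundedBy_zero r
  | insert a s ha ih =>
    rw [Finset.sum_insert ha]
    exact boundedBy_add (h a (Finset.mem_insert_self a s))
      (ih fun i hi => h i (Finset.mem_insert_of_mem hi))

theorem boundedBy_smul (c : K) {y : LaurentSeries K} {r : A.ValueGroup} (hy : BoundedBy A y r) :
    BoundedBy A (c • y) (A.valuation c * r) := fun i => by
  rw [coeff_smulC, map_mul]
  exact mul_le_mul' le_rfl (hy i)

theorem boundedBy_algebraMap_mul (c : K) {y : LaurentSeries K} {r : A.ValueGroup}
    (hy : BoundedBy A y r) :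
    BoundedBy A (algebraMap K (LaurentSeries K) c * y) (A.valuation c * r) := by
  rw [← smul_eq_algebraMap_mul]
  exact boundedBy_smul c hy

theorem boundedBy_one_of_coeff_mem {y : LaurentSeries K} (h : ∀ i, y.coeff i ∈ A) :
    BoundedBy A y 1 := fun i => (ValuationSubring.valuation_le_one_iff _ _).mpr (h i)

theorem coeff_mem_of_boundedBy_one {y : LaurentSeries K} (h : BoundedBy A y 1) (i : ℤ) :
    y.coeff i ∈ A := (ValuationSubring.valuation_le_one_iff _ _).mp (h i)

theorem boundedBy_of_lt_of_red (hπ : Function.Surjective π) {y : LaurentSeries K} {r : A.ValueGroup}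
    (hy : BoundedBy A y r) (hr : r < 1) : Red A π y 0 := fun i =>
  ⟨coeff_mem_of_boundedBy_one (hy.mono hr.le) i, by
    rw [HahnSeries.coeff_zero, residue_eq_zero_iff hπ]
    exact (hy i).trans_lt hr⟩

/-- A normalisable series is bounded by the valuation of one of its coefficients. -/
theorem exists_max_coeff (hπ : Function.Surjective π) {y : LaurentSeries K}
    (h : Normalizable A π y) :
    ∃ i, y.coeff i ≠ 0 ∧ BoundedBy A y (A.valuation (y.coeff i)) := by
  obtain ⟨c, hc, x, hx, hred⟩ := h
  obtain ⟨i, hi⟩ : ∃ i, x.coeff i ≠ 0 := by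
    by_contra hall
    push Not at hall
    exact hx (HahnSeries.ext (funext hall))
  have h1 := hred.coeff_valuation_eq_one hπ hi
  rw [coeff_smulC, map_mul] at h1
  have hc0 : A.valuation c ≠ 0 := (A.valuation.ne_zero_iff).mpr hc
  refine ⟨i, fun h0 => by simp [h0] at h1, fun j => ?_⟩
  have h2 := (ValuationSubring.valuation_le_one_iff _ _).mpr (hred.coeff_mem j)
  rw [coeff_smulC, map_mul, ← h1] at h2
  exact le_of_mul_le_mul_left h2 (zero_lt_iff.mpr hc0)

/-! ### Exact series -/

/-- An integral series whose leading coefficient is a unit. -/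
def IsLeadUnit (y : LaurentSeries K) : Prop :=
  BoundedBy A y 1 ∧ A.valuation (y.coeff y.order) = 1

theorem isLeadUnit_of_red (hπ : Function.Surjective π) {y : LaurentSeries K}
    {x : LaurentSeries k} (h : Red A π y x) (hx : x ≠ 0) (ho : x.order ≤ y.order) :
    IsLeadUnit (A := A) y ∧ x.order = y.order := by
  have h1 := h.coeff_valuation_eq_one hπ (i := x.order)
    (fun h0 => hx (HahnSeries.coeff_order_eq_zero.mp h0))
  have hy : y.order ≤ x.order := HahnSeries.order_le_of_coeff_ne_zero fun h0 => by simp [h0] at h1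
  have he : x.order = y.order := le_antisymm ho hy
  exact ⟨⟨h.boundedBy, by rw [← he]; exact h1⟩, he⟩

/-- Exact integral series have integral inverses. -/
theorem boundedBy_inv {y : LaurentSeries K} (h : IsLeadUnit (A := A) y) :
    BoundedBy A y⁻¹ 1 := by
  let z : LaurentSeries A :=
    ⟨fun i => ⟨y.coeff i, coeff_mem_of_boundedBy_one h.1 i⟩, y.isPWO_support.mono fun i hi => by
      simp only [Function.mem_support, ne_eq] at hi
      rw [HahnSeries.mem_support]
      exact fun h0 => hi (Subtype.ext h0)⟩
  have hzy : coeffMap A.subtype z = y := HahnSeries.ext (funext fun i => rfl)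
  have hne : y.coeff y.order ≠ 0 := fun h0 => by have := h.2; simp [h0] at this
  have hz0 : z ≠ 0 := fun h0 => hne (by rw [← hzy, h0, map_zero, HahnSeries.coeff_zero])
  have hord : z.order = y.order := by
    refine le_antisymm (HahnSeries.order_le_of_coeff_ne_zero fun h0 => hne ?_)
      (HahnSeries.order_le_of_coeff_ne_zero fun h0 => ?_)
    · exact congrArg Subtype.val h0
    · refine HahnSeries.coeff_order_eq_zero.not.mpr hz0 (Subtype.ext ?_)
      exact h0
  have hu : IsUnit z := by
    refine HahnSeries.isUnit_iff.mpr ?_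
    rw [HahnSeries.leadingCoeff_eq, hord]
    exact (ValuationSubring.valuation_eq_one_iff A _).mpr h.2
  obtain ⟨u, hu⟩ := hu
  have hy : y⁻¹ = coeffMap A.subtype ((u⁻¹ : (LaurentSeries A)ˣ) : LaurentSeries A) := by
    refine inv_eq_of_mul_eq_one_right ?_
    rw [← hzy, ← hu, ← map_mul, Units.mul_inv, map_one]
  rw [hy]
  exact boundedBy_one_of_coeff_mem fun i => (((u⁻¹ : (LaurentSeries A)ˣ) :
    LaurentSeries A).coeff i).2

theorem poleLE_inv {y : LaurentSeries K} (hy : y ≠ 0) : PoleLE y.order y⁻¹ := by
  rw [poleLE_iff_order (inv_ne_zero hy)]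
  have := HahnSeries.order_mul hy (inv_ne_zero hy)
  rw [mul_inv_cancel₀ hy, HahnSeries.order_one] at this
  omega

theorem coeff_mul_eq_zero_of_poleLE {y z : LaurentSeries K} {m n : ℤ} (hy : PoleLE m y)
    (hz : PoleLE n z) {i : ℤ} (hi : i < -(m + n)) : (y * z).coeff i = 0 := hy.mul hz i hi

variable {S : CurveRed A π} {n₀ : ℕ}

/-- A section with exact reduced pole order `m`. -/
def IsExact (g : S.F) (m : ℤ) : Prop :=
  (g : LaurentSeries K) ∈ S.space (S.atPt m) ∧
    ∃ x : LaurentSeries k, x ≠ 0 ∧ x.order = -m ∧ Red A π (g : LaurentSeries K) x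

theorem IsExact.ne_zero {g : S.F} {m : ℤ} (h : IsExact g m) : g ≠ 0 := by
  rintro rfl
  obtain ⟨x, hx, -, hred⟩ := h.2
  exact hx (hred.unique red_zero)

theorem IsExact.coe_ne_zero {g : S.F} {m : ℤ} (h : IsExact g m) : (g : LaurentSeries K) ≠ 0 :=
  fun h0 => h.ne_zero (Subtype.ext h0)

theorem IsExact.isLeadUnit {g : S.F} {m : ℤ} (h : IsExact g m) :
    IsLeadUnit (A := A) (g : LaurentSeries K) ∧ (g : LaurentSeries K).order = -m := by
  obtain ⟨x, hx, hxo, hred⟩ := h.2
  have hp := S.poleLE_space h.1
  rw [S.atPt_self, poleLE_iff_order h.coe_ne_zero] at hp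
  obtain ⟨h1, h2⟩ := isLeadUnit_of_red S.surj hred hx (by omega)
  exact ⟨h1, by omega⟩

theorem IsExact.boundedBy {g : S.F} {m : ℤ} (h : IsExact g m) :
    BoundedBy A (g : LaurentSeries K) 1 := h.isLeadUnit.1.1

theorem IsExact.mul {g g' : S.F} {m m' : ℤ} (h : IsExact g m) (h' : IsExact g' m') :
    IsExact (g * g') (m + m') := by
  obtain ⟨x, hx, hxo, hred⟩ := h.2
  obtain ⟨x', hx', hxo', hred'⟩ := h'.2
  refine ⟨?_, x * x', mul_ne_zero hx hx', by rw [HahnSeries.order_mul hx hx', hxo, hxo']; ring, ?_⟩
  · rw [S.atPt_add, MulMemClass.coe_mul]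
    exact S.mul_mem_space h.1 h'.1
  · rw [MulMemClass.coe_mul]
    exact hred.mul hred'

theorem isExact_one : IsExact (1 : S.F) 0 :=
  ⟨S.one_mem_space (fun v => S.atPt_nonneg le_rfl v), 1, one_ne_zero,
    by rw [HahnSeries.order_one, neg_zero], red_one⟩

/-- The zeros of an exact section are good. -/
theorem IsExact.exists_zeros (hgap : S.GapBound n₀) {g : S.F} {m : ℤ} (h : IsExact g m) :
    ∃ E : Divisor K S.F, S.IsEff E ∧ IsGoodDiv E ∧ Divisor.degree E = m ∧
      ∀ v, v.ord g = E v - S.atPt m v := by
  obtain ⟨x, hx, hxo, hred⟩ := h.2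
  obtain ⟨Eg, hEg, hdeg⟩ := S.exists_div h.ne_zero
  obtain ⟨u, hu, hv⟩ := S.exists_of_mem_space h.1
  obtain rfl : u = g := Subtype.ext hu
  set E := Eg + S.atPt m with hE
  have heff : S.IsEff E := fun v => by
    have h1 := (hv v).resolve_left h.ne_zero
    rw [hE, Finsupp.add_apply, hEg v]
    omega
  have hdegE : Divisor.degree E = m := by rw [hE, map_add, hdeg, S.degree_atPt, zero_add]
  have hdiv : ∀ v, v.ord u = E v - S.atPt m v := fun v => by
    rw [hE, Finsupp.add_apply, hEg v]; ring
  have hgd := order_red_eq hgap heff h.ne_zero hdiv hx hred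
  refine ⟨E, heff, fun v hv hb => hv ?_, hdegE, hdiv⟩
  have hb0 : Divisor.degree (badPart E) = 0 := by rw [goodDeg, hdegE, hxo] at hgd; omega
  have h0 := S.eq_zero_of_effective (isEff_badPart heff) hb0
  rw [← badPart_apply_bad hb, h0, Finsupp.zero_apply]

/-- Exact sections exist for every large pole order. -/
theorem exists_isExact (hgap : S.GapBound n₀) {E : Divisor K S.F} (hE : S.IsEff E)
    (hgood : IsGoodDiv E) :
    ∃ B : ℤ, ∀ m : ℤ, B ≤ m →
      ∃ g : S.F, IsExact g m ∧ (g : LaurentSeries K) ∈ S.space (S.atPt m - E) := by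
  obtain ⟨B, hB⟩ := exists_exact hgap hE hgood
  refine ⟨B, fun m hm => ?_⟩
  obtain ⟨y, hy, x, hx, hxo, hred⟩ := hB m hm
  obtain ⟨g, rfl, -⟩ := S.exists_of_mem_space hy
  refine ⟨g, ⟨S.space_mono (fun v => ?_) hy, x, hx, hxo, hred⟩, hy⟩
  rw [Finsupp.sub_apply]
  have := hE v
  omega

/-- Subtract exact sections to lower the pole order. -/
theorem exists_lower {E : Divisor K S.F} (hE : S.IsEff E) {M : ℤ}
    (hex : ∀ m : ℤ, M < m →
      ∃ g : S.F, IsExact g m ∧ (g : LaurentSeries K) ∈ S.space (S.atPt m - E))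
    {N : ℤ} {y : LaurentSeries K} (hy : y ∈ S.space (S.atPt N - E)) {r : A.ValueGroup}
    (hsmall : ∀ i, i < -M → A.valuation (y.coeff i) ≤ r) :
    ∃ c ∈ S.space (S.atPt M - E), BoundedBy A (y - c) r := by
  suffices h : ∀ (d : ℕ) (y : LaurentSeries K), y ∈ S.space (S.atPt (M + d) - E) →
      (∀ i, i < -M → A.valuation (y.coeff i) ≤ r) →
      ∃ c ∈ S.space (S.atPt M - E), BoundedBy A (y - c) r by
    refine h (N - M).toNat y (S.space_mono (fun v => ?_) hy) hsmall
    simp only [Finsupp.sub_apply]
    refine sub_le_sub_right ?_ _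
    rcases eq_or_ne v S.pt with rfl | hv
    · simp only [atPt_self]; omega
    · simp [atPt_of_ne, hv]
  intro d
  induction d with
  | zero =>
    intro y hy _
    exact ⟨y, by simpa using hy, by rw [sub_self]; exact boundedBy_zero r⟩
  | succ d ih =>
    intro y hy hsm
    set m : ℤ := M + (d + 1 : ℕ) with hm
    obtain ⟨g, hg, hgE⟩ := hex m (by omega)
    obtain ⟨⟨-, hlead⟩, hgo⟩ := hg.isLeadUnit
    rw [hgo] at hlead
    have hne : (g : LaurentSeries K).coeff (-m) ≠ 0 := fun h0 => by simp [h0] at hlead
    set a : K := y.coeff (-m) / (g : LaurentSeries K).coeff (-m) with ha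
    have hav : A.valuation a ≤ r := by
      rw [ha, map_div₀, hlead, div_one]
      exact hsm _ (by omega)
    have hb : BoundedBy A (a • (g : LaurentSeries K)) r :=
      ((boundedBy_smul a hg.boundedBy).mono (by rw [mul_one]; exact hav))
    set y' := y - a • (g : LaurentSeries K) with hy'
    have hy'mem : y' ∈ S.space (S.atPt (M + d) - E) := by
      have h1 : y' ∈ S.space (S.atPt m - E) := Submodule.sub_mem _ hy (Submodule.smul_mem _ a hgE)
      obtain ⟨u, hu, hv⟩ := S.exists_of_mem_space h1
      rw [← hu]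
      refine S.coe_mem_space.mpr fun v => ?_
      rcases eq_or_ne u 0 with h0 | h0
      · exact Or.inl h0
      right
      have h2 := (hv v).resolve_left h0
      rcases eq_or_ne v S.pt with rfl | hvne
      · rw [Finsupp.sub_apply, S.atPt_self] at h2 ⊢
        by_cases hEpt : E S.pt = 0
        · rw [S.ord_pt, hEpt] at h2 ⊢
          by_contra hcon
          have hco : (u : LaurentSeries K).order = -m := by omega
          have : y'.coeff (-m) = 0 := by
            rw [hy', HahnSeries.coeff_sub, coeff_smulC, ha, div_mul_cancel₀ _ hne, sub_self]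
          rw [← hu, ← hco, HahnSeries.coeff_order_eq_zero] at this
          exact h0 (Subtype.ext this)
        · exfalso
          -- the exact section vanishes to positive order at `pt` relative to `m`
          obtain ⟨u', hu', hv'⟩ := S.exists_of_mem_space hgE
          have h3 := (hv' S.pt).resolve_left (fun h => hg.coe_ne_zero (by rw [← hu', h]; rfl))
          rw [Finsupp.sub_apply, S.atPt_self, S.ord_pt, hu', hgo] at h3
          have := hE S.pt
          omega
      · rw [Finsupp.sub_apply, S.atPt_of_ne _ hvne] at h2 ⊢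
        exact h2
    obtain ⟨c, hc, hcb⟩ := ih y' hy'mem fun i hi => by
      rw [hy', HahnSeries.coeff_sub]
      exact (A.valuation.map_sub _ _).trans (max_le (hsm i hi) (hb i))
    refine ⟨c, hc, ?_⟩
    rw [show y - c = (y' - c) + a • (g : LaurentSeries K) by rw [hy']; ring]
    exact boundedBy_add hcb hb

/-- A regular section whose coefficients in degree `≤ 0` are small is small. -/
theorem boundedBy_of_nonpos (hgap : S.GapBound n₀) {n : ℤ} {y : LaurentSeries K}
    (hy : y ∈ S.space (S.atPt n)) {r : A.ValueGroup}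
    (hsmall : ∀ i, i ≤ 0 → A.valuation (y.coeff i) ≤ r) : BoundedBy A y r := by
  rcases eq_or_ne y 0 with rfl | hy0
  · exact boundedBy_zero r
  obtain ⟨c, hc, x, hx, hred⟩ := S.normalizable_space (S.offNonpos_atPt n) y hy hy0
  obtain ⟨i₀, hi₀, hmax⟩ := exists_max_coeff S.surj ⟨c, hc, x, hx, hred⟩
  intro j
  refine (hmax j).trans ?_
  by_contra hlt
  rw [not_le] at hlt
  have hxC : x ∈ S.Cbar := ⟨n.toNat, c • y, Submodule.smul_mem _ c
    (S.space_atPt_mono (Int.self_le_toNat n) hy), hred⟩
  have hx0 := hgap.order_nonpos hxC hx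
  have h1 := hred.coeff_valuation_eq_one S.surj (i := x.order)
    (fun h0 => hx (HahnSeries.coeff_order_eq_zero.mp h0))
  rw [coeff_smulC, map_mul] at h1
  have h2 : A.valuation c * A.valuation (y.coeff i₀) ≤ 1 := by
    rw [← map_mul, ← coeff_smulC]
    exact (ValuationSubring.valuation_le_one_iff _ _).mpr (hred.coeff_mem i₀)
  have h3 : A.valuation (y.coeff x.order) < A.valuation (y.coeff i₀) :=
    (hsmall _ hx0).trans_lt hlt
  have hc0 : 0 < A.valuation c := zero_lt_iff.mpr ((A.valuation.ne_zero_iff).mpr hc)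
  exact absurd (h1 ▸ h2) (not_le.mpr (mul_lt_mul_of_pos_left h3 hc0))

/-! ### Frobenius -/

/-- Modulo `l`, the coefficients of an `l`-th power are the `l`-th powers of the coefficients. -/
theorem valuation_coeff_pow_sub {l : ℕ} (hl : l.Prime) (hlA : A.valuation (l : K) < 1)
    {y : LaurentSeries K} (hy : BoundedBy A y 1) (i : ℤ) :
    A.valuation ((y ^ l).coeff i - if (l : ℤ) ∣ i then (y.coeff (i / l)) ^ l else 0) ≤
      A.valuation (l : K) := by
  classical
  have : Fact l.Prime := ⟨hl⟩
  set I : Ideal A := Ideal.span {(l : A)} with hI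
  have hnt : Nontrivial (A ⧸ I) := by
    refine Ideal.Quotient.nontrivial_iff.mpr fun h => ?_
    rw [hI, Ideal.span_singleton_eq_top] at h
    obtain ⟨u, hu⟩ := h
    have h1 := (ValuationSubring.valuation_eq_one_iff A (u : A)).mp u.isUnit
    rw [hu] at h1
    push_cast at h1
    exact hlA.ne h1
  have : CharP (A ⧸ I) l := by
    refine (CharP.charP_iff_prime_eq_zero hl).mpr ?_
    rw [← map_natCast (Ideal.Quotient.mk I)]
    exact Ideal.Quotient.eq_zero_iff_mem.mpr (Ideal.mem_span_singleton_self _)
  let q : A →+* A ⧸ I := Ideal.Quotient.mk I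
  let z : LaurentSeries A :=
    ⟨fun j => ⟨y.coeff j, coeff_mem_of_boundedBy_one hy j⟩, y.isPWO_support.mono fun j hj => by
      simp only [Function.mem_support, ne_eq] at hj
      rw [HahnSeries.mem_support]
      exact fun h0 => hj (Subtype.ext h0)⟩
  have hzy : coeffMap A.subtype z = y := HahnSeries.ext (funext fun j => rfl)
  have hpow : coeffMap A.subtype (z ^ l) = y ^ l := by rw [map_pow, hzy]
  have hl0 : (l : ℤ) ≠ 0 := by exact_mod_cast hl.ne_zero
  have : CharP (LaurentSeries (A ⧸ I)) l :=
    charP_of_injective_ringHom (HahnSeries.C_injective (Γ := ℤ) (R := A ⧸ I)) l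
  -- split off a finite part
  set N : ℤ := max (i + 1) 1 with hN
  set w : LaurentSeries (A ⧸ I) := coeffMap q z with hw
  set P : LaurentSeries (A ⧸ I) :=
    ∑ j ∈ Finset.Ico (min w.order N) N, HahnSeries.single j (w.coeff j) with hP
  have hPc : ∀ j, P.coeff j = if j < N then w.coeff j else 0 := fun j => by
    rw [hP, HahnSeries.coeff_sum]
    by_cases hj : j ∈ Finset.Ico (min w.order N) N
    · rw [Finset.sum_eq_single j (fun b _ hb => HahnSeries.coeff_single_of_ne hb.symm)
        (fun h => absurd hj h), HahnSeries.coeff_single_same,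
        if_pos (Finset.mem_Ico.mp hj).2]
    · rw [Finset.sum_eq_zero fun b hb => HahnSeries.coeff_single_of_ne fun h =>
        hj (by rw [h]; exact hb)]
      rw [Finset.mem_Ico, not_and, not_lt] at hj
      split_ifs with hjN
      · rw [HahnSeries.coeff_eq_zero_of_lt_order]
        by_contra hcon
        omega
      · rfl
  set H := w - P with hH
  have hHc : ∀ j < N, H.coeff j = 0 := fun j hj => by
    rw [hH, HahnSeries.coeff_sub, hPc, if_pos hj, sub_self]
  have hHl : ∀ (n : ℕ), ∀ j < (n + 1 : ℤ) * N, (H ^ (n + 1)).coeff j = 0 := by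
    intro n
    induction n with
    | zero => intro j hj; rw [pow_one]; exact hHc j (by simpa using hj)
    | succ n ih =>
      intro j hj
      rw [pow_succ, HahnSeries.coeff_mul]
      refine Finset.sum_eq_zero fun ab hab => ?_
      rw [Finset.mem_antidiagonal] at hab
      by_cases h1 : ab.1 < (n + 1 : ℤ) * N
      · rw [ih _ h1, zero_mul]
      · rw [hHc ab.2 (by push_cast at hj; nlinarith), mul_zero]
  have hHi : (H ^ l).coeff i = 0 := by
    obtain ⟨n, hn⟩ : ∃ n, l = n + 1 := ⟨l - 1, by have := hl.pos; omega⟩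
    rw [hn]
    refine hHl n i ?_
    have h1 : (1 : ℤ) ≤ N := le_max_right _ _
    have h2 : i < N := by omega
    nlinarith
  have hPl : P ^ l =
      ∑ j ∈ Finset.Ico (min w.order N) N, HahnSeries.single ((l : ℤ) * j) ((w.coeff j) ^ l) := by
    rw [hP]
    refine (sum_pow_char (R := LaurentSeries (A ⧸ I)) l _ _).trans
      (Finset.sum_congr rfl fun j _ => ?_)
    rw [HahnSeries.single_pow, nsmul_eq_mul]
  have hwi : (w ^ l).coeff i = if (l : ℤ) ∣ i then (w.coeff (i / l)) ^ l else 0 := by
    have hadd : w ^ l = P ^ l + H ^ l := by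
      rw [show w = P + H from (add_sub_cancel P w).symm]
      exact add_pow_char P H l
    rw [hadd, HahnSeries.coeff_add, hHi, add_zero, hPl, HahnSeries.coeff_sum]
    split_ifs with hdvd
    · obtain ⟨j, rfl⟩ := hdvd
      rw [Int.mul_ediv_cancel_left _ hl0]
      have hjN : j < N := by
        rcases le_or_gt j 0 with h | h
        · have : (1 : ℤ) ≤ N := le_max_right _ _; omega
        · have h1 : (l : ℤ) * j < N := by omega
          have h2 : (1 : ℤ) ≤ l := by exact_mod_cast hl.one_le
          nlinarith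
      by_cases hj : j ∈ Finset.Ico (min w.order N) N
      · rw [Finset.sum_eq_single j (fun b _ hb => HahnSeries.coeff_single_of_ne fun h =>
          hb (mul_left_cancel₀ hl0 h).symm) (fun h => absurd hj h), HahnSeries.coeff_single_same]
      · rw [Finset.sum_eq_zero fun b hb => HahnSeries.coeff_single_of_ne fun h =>
          hj (by rw [mul_left_cancel₀ hl0 h]; exact hb)]
        rw [HahnSeries.coeff_eq_zero_of_lt_order, zero_pow hl.ne_zero]
        rw [Finset.mem_Ico, not_and, not_lt] at hj
        by_contra hcon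
        omega
    · exact Finset.sum_eq_zero fun b _ => HahnSeries.coeff_single_of_ne fun h =>
        hdvd ⟨b, h⟩
  have hkey : ∀ a : A, q a = 0 → A.valuation (a : K) ≤ A.valuation (l : K) := fun a ha => by
    obtain ⟨b, rfl⟩ := Ideal.mem_span_singleton.mp (Ideal.Quotient.eq_zero_iff_mem.mp ha)
    push_cast
    rw [map_mul]
    exact mul_le_of_le_one_right' ((ValuationSubring.valuation_le_one_iff _ _).mpr b.2)
  have hmap : q ((z ^ l).coeff i) = (w ^ l).coeff i := by
    rw [hw, ← map_pow, coeffMap_coeff]
  rw [← hpow, coeffMap_coeff]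
  by_cases hdvd : (l : ℤ) ∣ i
  · rw [if_pos hdvd]
    have := hkey ((z ^ l).coeff i - (z.coeff (i / l)) ^ l) (by
      rw [map_sub, map_pow, hmap, hwi, if_pos hdvd, hw, coeffMap_coeff, sub_self])
    push_cast at this
    exact this
  · rw [if_neg hdvd, sub_zero]
    exact hkey _ (by rw [hmap, hwi, if_neg hdvd])

end Fermat.Agent.MazurStep
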