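import Fermat.Agent.MazurStep.Torsion

/-!
# An inertia group acting on a reduced curve

An inertia group is a group acting by symmetries whose fixed constants have the full residue field
and valuations in the powers of `|l|`. Subgroups of finite index then have discrete fixed fields.
The torsion of the kernel of reduction in the invertible part is counted, and inertia acts on it
through the residue of `σ Λ / Λ`.
-/

set_option autoImplicit false
attribute [-instance] IsScalarTower.of_algHom

noncomputable section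

namespace Fermat.Agent.MazurStep

open HahnSeries AlgebraicCurve
open Fermat.Agent.Reduction
open Fermat.Agent.Reduction.CurveRed

variable {K k : Type*} [Field K] [Field k] {A : ValuationSubring K} {π : A →+* k}
  {S : CurveRed A π} {n₀ : ℕ}

/-- A group acting by symmetries, with unramified fixed constants. -/
structure LocalGroup (L : LocalData S n₀) (Γ : Type*) [Group Γ] where
  /-- the symmetry of a group element -/
  sym : Γ → Sym S
  base_mul : ∀ (σ τ : Γ) (a : K), (sym (σ * τ)).base a = (sym σ).base ((sym τ).base a)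
  rich : Rich (Set.range sym)
  valuation_fixed : ∀ a : K, (∀ σ, (sym σ).base a = a) → a ≠ 0 →
    ∃ j : ℤ, A.valuation a = L.γ ^ j
  finiteIndex : ∀ z : Pic0 K S.F, ∃ H : Subgroup Γ, H.FiniteIndex ∧ ∀ σ ∈ H, (sym σ).act z = z

theorem fixedField_anti {H H' : Set (Sym S)} (h : H ⊆ H') : fixedField H' ≤ fixedField H :=
  fun _ ha σ hσ => ha σ (h hσ)

theorem Rich.anti {H H' : Set (Sym S)} (h : H ⊆ H') (hH : Rich H') : Rich H := fun a =>
  let ⟨b, hb, hπ⟩ := hH a
  ⟨b, fixedField_anti h hb, hπ⟩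

namespace LocalGroup

variable {L : LocalData S n₀} {Γ : Type*} [Group Γ] (T : LocalGroup L Γ)

theorem base_one (a : K) : (T.sym 1).base a = a := by
  have h := T.base_mul 1 1 a
  rw [one_mul] at h
  exact ((T.sym 1).base.injective h).symm

theorem base_inv_apply (σ : Γ) (a : K) : (T.sym σ⁻¹).base ((T.sym σ).base a) = a := by
  rw [← T.base_mul, inv_mul_cancel, T.base_one]

/-- The constants fixed by all of the group. -/
def fixedAll : Subfield K := fixedField (Set.range T.sym)

theorem mem_fixedAll {a : K} : a ∈ T.fixedAll ↔ ∀ σ, (T.sym σ).base a = a := by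
  simp [fixedAll, mem_fixedField]

theorem ringAut_mul (σ τ : Γ) (u : S.F) :
    (T.sym (σ * τ)).ringAut u = (T.sym σ).ringAut ((T.sym τ).ringAut u) :=
  Subtype.ext (HahnSeries.ext (funext fun _ => T.base_mul σ τ _))

theorem act_mul (σ τ : Γ) (z : Pic0 K S.F) :
    (T.sym (σ * τ)).act z = (T.sym σ).act ((T.sym τ).act z) := by
  have h : (T.sym (σ * τ)).semi = (T.sym σ).semi * (T.sym τ).semi :=
    Subtype.ext (Prod.ext (RingEquiv.ext fun u => T.ringAut_mul σ τ u)
      (RingEquiv.ext fun a => T.base_mul σ τ a))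
  rw [Sym.act_def, Sym.act_def, Sym.act_def, h, mul_smul]

/-- An element of a subgroup's fixed field of valuation less than one. -/
theorem valuation_le_of_fixed {a : K} (ha : a ∈ T.fixedAll) (h : A.valuation a < 1) :
    A.valuation a ≤ L.γ := by
  rcases eq_or_ne a 0 with rfl | ha0
  · simp
  obtain ⟨j, hj⟩ := T.valuation_fixed a (T.mem_fixedAll.mp ha) ha0
  rw [hj] at h ⊢
  have hj1 : (1 : ℤ) ≤ j := by
    by_contra hlt
    rw [not_le] at hlt
    refine (lt_irrefl (1 : A.ValueGroup)) (lt_of_le_of_lt ?_ h)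
    have := (zpow_le_zpow_iff_right_of_lt_one₀ (zero_lt_iff.mpr L.γ_ne_zero) L.γ_lt_one
      (m := (0 : ℤ)) (n := j)).mpr (by omega)
    rwa [zpow_zero] at this
  exact ((zpow_le_zpow_iff_right_of_lt_one₀ (zero_lt_iff.mpr L.γ_ne_zero) L.γ_lt_one).mpr hj1).trans
    (zpow_one _).le

/-- **Valuations of the fixed field of a subgroup of finite index.** -/
theorem exists_zpow (H : Subgroup Γ) [H.FiniteIndex] {a : K}
    (ha : ∀ σ ∈ H, (T.sym σ).base a = a) (ha0 : a ≠ 0) :
    ∃ j : ℤ, A.valuation a ^ H.index = L.γ ^ j := by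
  classical
  have : Fintype (Γ ⧸ H) := Subgroup.fintypeQuotientOfFiniteIndex
  let f : Γ ⧸ H → K := fun q => Quotient.liftOn' q (fun σ => (T.sym σ).base a) (fun σ τ h => by
    have h1 : σ⁻¹ * τ ∈ H := QuotientGroup.leftRel_apply.mp h
    show (T.sym σ).base a = (T.sym τ).base a
    conv_lhs => rw [← ha _ h1, ← T.base_mul, mul_inv_cancel_left])
  set N : K := ∏ q, f q with hN
  have hN0 : N ≠ 0 := Finset.prod_ne_zero_iff.mpr fun q _ => by
    induction q using QuotientGroup.induction_on with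
    | H σ => exact (map_ne_zero_iff _ (T.sym σ).base.injective).mpr ha0
  have hfix : ∀ τ, (T.sym τ).base N = N := by
    intro τ
    rw [hN, map_prod]
    refine Fintype.prod_equiv (MulAction.toPerm (α := Γ) (β := Γ ⧸ H) τ) _ _ fun q => ?_
    induction q using QuotientGroup.induction_on with
    | H σ => exact (T.base_mul τ σ a).symm
  obtain ⟨j, hj⟩ := T.valuation_fixed N hfix hN0
  refine ⟨j, ?_⟩
  rw [← hj, hN, map_prod]
  have hval : ∀ q, A.valuation (f q) = A.valuation a := fun q => by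
    induction q using QuotientGroup.induction_on with
    | H σ => exact (T.sym σ).map_valuation a
  rw [Finset.prod_congr rfl fun q _ => hval q, Finset.prod_const, Finset.card_univ,
    Subgroup.index_eq_card, Nat.card_eq_fintype_card]

/-- The symmetries of a subgroup. -/
def symSet (H : Subgroup Γ) : Set (Sym S) := T.sym '' (H : Set Γ)

theorem mem_fixedField_symSet {H : Subgroup Γ} {a : K} :
    a ∈ fixedField (T.symSet H) ↔ ∀ σ ∈ H, (T.sym σ).base a = a := by
  simp [symSet, mem_fixedField]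

theorem good (H : Subgroup Γ) [hH : H.FiniteIndex] : Good L (T.symSet H) where
  rich := T.rich.anti (Set.image_subset_range _ _)
  disc := ⟨H.index, Nat.pos_of_ne_zero hH.index_ne_zero, fun _ ha ha0 =>
    T.exists_zpow H (T.mem_fixedField_symSet.mp ha) ha0⟩

/-- Every class is fixed by good symmetries of a subgroup of finite index. -/
theorem exists_good (z : Pic0 K S.F) :
    ∃ H : Subgroup Γ, H.FiniteIndex ∧ Good L (T.symSet H) ∧ ∀ σ ∈ T.symSet H, σ.act z = z := by
  obtain ⟨H, hH, hfix⟩ := T.finiteIndex z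
  exact ⟨H, hH, T.good H, by rintro _ ⟨σ, hσ, rfl⟩; exact hfix σ hσ⟩

/-! ### The torsion in the kernel of reduction -/

variable {op : Pic0 K S.F →+ Pic0 K S.F} {G : AddSubgroup (Pic0 K S.F)}

/-- A subgroup killed by `l`, in the invertible part, reducing to zero. -/
structure IsPiece (T : LocalGroup L Γ) (op : Pic0 K S.F →+ Pic0 K S.F)
    (G : AddSubgroup (Pic0 K S.F)) : Prop where
  tracks : L.Tracks op L.E
  torsion : ∀ x ∈ G, L.l • x = 0
  fixed : ∀ x ∈ G, op x = x
  sp_zero : ∀ x ∈ G, L.gap.sp x = 0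
  stable : ∀ σ, ∀ x ∈ G, (T.sym σ).act x ∈ G

variable (hG : T.IsPiece op G)

include hG in
theorem exists_rep {x : Pic0 K S.F} (hx : x ∈ G) :
    ∃ (H : Set (Sym S)) (num den : S.F) (m : ℤ), Good L H ∧ IsRatRep n₀ H x num den m L.ρ := by
  obtain ⟨H, -, hgood, hfix⟩ := T.exists_good x
  obtain ⟨num, den, m, h⟩ := L.exists_rep_ρ hG.tracks hgood (hG.sp_zero x hx) hfix
    (hG.torsion x hx) (hG.fixed x hx)
  exact ⟨_, num, den, m, hgood, h⟩

/-- A chosen residue. -/
def tauFun (x : G) : Fin S.g → k :=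
  L.tau (T.exists_rep hG x.2).choose_spec.choose
    (T.exists_rep hG x.2).choose_spec.choose_spec.choose

theorem tauFun_eq (x : G) {num den : S.F} {m : ℤ} (h : IsRep (x : Pic0 K S.F) num den m L.ρ) :
    T.tauFun hG x = L.tau num den :=
  L.tau_eq (T.exists_rep hG x.2).choose_spec.choose_spec.choose_spec.choose_spec.2.1 h

include hG in
theorem tauFun_add (x y : G) : T.tauFun hG (x + y) = T.tauFun hG x + T.tauFun hG y := by
  obtain ⟨_, num, den, m, -, h⟩ := T.exists_rep hG x.2
  obtain ⟨_, num', den', m', -, h'⟩ := T.exists_rep hG y.2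
  have h2 := h.1.mul h'.1
  rw [max_self] at h2
  rw [T.tauFun_eq hG x h.1, T.tauFun_eq hG y h'.1, T.tauFun_eq hG (x + y) h2,
    L.tau_mul h.1 h'.1]

/-- The residue as a homomorphism. -/
def tauHom : G →+ (Fin S.g → k) := AddMonoidHom.mk' (T.tauFun hG) (T.tauFun_add hG)

/-- The residue of `t / Λ` determines a point of the piece. -/
theorem tauHom_injective : Function.Injective (T.tauHom hG) := by
  refine (injective_iff_map_eq_zero _).mpr fun x hx => Subtype.ext ?_
  obtain ⟨H, num, den, m, hgood, h⟩ := T.exists_rep hG x.2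
  exact L.eq_zero_of_tau hgood h (hG.torsion x x.2) ((T.tauFun_eq hG x h.1).symm.trans hx)

theorem tauHom_frob (x : G) (i : Fin S.g) :
    ∑ j, (L.M i j : k) * T.tauHom hG x j ^ L.l = T.tauHom hG x i := by
  obtain ⟨_, num, den, m, -, h⟩ := T.exists_rep hG x.2
  show ∑ j, (L.M i j : k) * T.tauFun hG x j ^ L.l = T.tauFun hG x i
  rw [T.tauFun_eq hG x h.1]
  exact L.tau_frob h.1 (hG.torsion x x.2) i

theorem tauHom_E (x : G) (i : Fin S.g) :
    ∑ j, (L.E i j : k) * T.tauHom hG x j = T.tauHom hG x i := by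
  obtain ⟨H, num, den, m, -, h⟩ := T.exists_rep hG x.2
  obtain ⟨num', den', m', h', hmat⟩ := hG.tracks H x num den m L.ρ h
  rw [hG.fixed x x.2] at h'
  show ∑ j, (L.E i j : k) * T.tauFun hG x j = T.tauFun hG x i
  conv_rhs => rw [T.tauFun_eq hG x h'.1]
  rw [T.tauFun_eq hG x h.1]
  exact (L.tau_mat h.1 hmat i).symm

/-- **Inertia acts through the residue of `σ Λ / Λ`.** -/
theorem act_eq_nsmul (hG : T.IsPiece op G) {x : Pic0 K S.F} (hx : x ∈ G) (σ : Γ) {c : ℕ}
    (hc : ∀ hm : (T.sym σ).base L.Λ / L.Λ ∈ A, π ⟨_, hm⟩ = (c : k)) :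
    (T.sym σ).act x = c • x := by
  obtain ⟨_, num, den, m, -, h⟩ := T.exists_rep hG hx
  have h1 : T.tauHom hG ⟨_, hG.stable σ x hx⟩ = T.tauHom hG (c • ⟨x, hx⟩) := by
    rw [map_nsmul]
    show T.tauFun hG ⟨_, hG.stable σ x hx⟩ = c • T.tauFun hG ⟨x, hx⟩
    rw [T.tauFun_eq hG ⟨x, hx⟩ h.1,
      T.tauFun_eq hG ⟨_, hG.stable σ x hx⟩ ((T.sym σ).isRep_map h.1), L.tau_map _ hc h.1,
      Nat.cast_smul_eq_nsmul]
  exact congrArg Subtype.val (T.tauHom_injective hG h1)

end LocalGroup

end Fermat.Agent.MazurStep
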