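import Fermat.Agent.MazurStep.Galois
import Fermat.Agent.MazurStep.Deepen

/-!
# Rational representatives

If the fixed field of a set `H` of symmetries has the full residue field, reductions lift to series
with fixed coefficients, classes reducing to zero which are fixed by `H` have representatives with
fixed coefficients, and every reduced class is the reduction of a fixed class.
-/

set_option autoImplicit false
attribute [-instance] IsScalarTower.of_algHom

noncomputable section

namespace Fermat.Agent.MazurStep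

open HahnSeries AlgebraicCurve ModularCurve
open Fermat.Agent.Reduction
open Fermat.Agent.Reduction.CurveRed

variable {K k : Type*} [Field K] [Field k] {A : ValuationSubring K} {π : A →+* k}
  {S : CurveRed A π} {n₀ : ℕ}

/-- The series with coefficients in a subfield. -/
def ratSeries (K₀ : Subfield K) : Subfield (LaurentSeries K) := (coeffMap K₀.subtype).fieldRange

theorem mem_ratSeries {K₀ : Subfield K} {y : LaurentSeries K} :
    y ∈ ratSeries K₀ ↔ ∀ i, y.coeff i ∈ K₀ := by
  constructor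
  · rintro ⟨z, rfl⟩ i
    exact (z.coeff i).2
  · intro h
    refine ⟨⟨fun i => ⟨y.coeff i, h i⟩, y.isPWO_support.mono fun i hi => ?_⟩,
      HahnSeries.ext (funext fun i => rfl)⟩
    simp only [Function.mem_support, ne_eq] at hi
    rw [HahnSeries.mem_support]
    exact fun h0 => hi (Subtype.ext h0)

theorem algebraMap_mem_ratSeries {K₀ : Subfield K} {a : K} (ha : a ∈ K₀) :
    algebraMap K (LaurentSeries K) a ∈ ratSeries K₀ := mem_ratSeries.mpr fun i => by
  rw [algebraMap_laurentSeries_eq_single, HahnSeries.coeff_single]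
  split_ifs
  · exact ha
  · exact K₀.zero_mem

theorem intSer_mem_ratSeries (K₀ : Subfield K) (a : ℕ → ℤ) : intSer K a ∈ ratSeries K₀ :=
  mem_ratSeries.mpr fun i => by
    rcases lt_or_ge i 0 with hi | hi
    · rw [intSer_coeff_of_neg _ hi]; exact K₀.zero_mem
    · lift i to ℕ using hi
      rw [intSer_coeff_natCast]; exact intCast_mem K₀ _

/-- The tangent of a rational representative is rational. -/
theorem Forms.tang_mem (Φ : Forms S) {K₀ : Subfield K} {num den : S.F}
    (hn : (num : LaurentSeries K) ∈ ratSeries K₀) (hd : (den : LaurentSeries K) ∈ ratSeries K₀)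
    (i : Fin S.g) : Φ.tang num den i ∈ K₀ :=
  mem_ratSeries.mp ((ratSeries K₀).mul_mem
    ((ratSeries K₀).mul_mem ((ratSeries K₀).sub_mem hn hd) ((ratSeries K₀).inv_mem hd))
    (intSer_mem_ratSeries K₀ _)) 0

/-- The constants fixed by a set of symmetries. -/
def fixedField (H : Set (Sym S)) : Subfield K where
  carrier := {a | ∀ σ ∈ H, σ.base a = a}
  zero_mem' := fun σ _ => map_zero σ.base
  one_mem' := fun σ _ => map_one σ.base
  add_mem' := fun ha hb σ hσ => by rw [map_add, ha σ hσ, hb σ hσ]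
  mul_mem' := fun ha hb σ hσ => by rw [map_mul, ha σ hσ, hb σ hσ]
  neg_mem' := fun ha σ hσ => by rw [map_neg, ha σ hσ]
  inv_mem' := fun _ ha σ hσ => by rw [map_inv₀, ha σ hσ]

theorem mem_fixedField {H : Set (Sym S)} {a : K} :
    a ∈ fixedField H ↔ ∀ σ ∈ H, σ.base a = a := Iff.rfl

theorem mem_ratSeries_fixedField {H : Set (Sym S)} {y : LaurentSeries K} :
    y ∈ ratSeries (fixedField H) ↔ ∀ σ ∈ H, coeffMap (σ.base : K →+* K) y = y := by
  rw [mem_ratSeries]
  constructor
  · intro h σ hσ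
    ext i
    exact h i σ hσ
  · intro h i σ hσ
    exact congrArg (fun z : LaurentSeries K => z.coeff i) (h σ hσ)

/-- The fixed constants have the full residue field. -/
def Rich (H : Set (Sym S)) : Prop := ∀ a : A, ∃ b : A, (b : K) ∈ fixedField H ∧ π b = π a

/-- A finite dimensional space of series is separated by as many coefficients as its dimension. -/
theorem exists_separating (W : Submodule k (LaurentSeries k)) [FiniteDimensional k W] :
    ∃ s : Finset ℤ, s.card ≤ Module.finrank k W ∧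
      ∀ x ∈ W, (∀ i ∈ s, x.coeff i = 0) → x = 0 := by
  classical
  induction hd : Module.finrank k W using Nat.strong_induction_on generalizing W with
  | _ d ih =>
    rcases eq_or_ne W ⊥ with hbot | hne
    · exact ⟨∅, by simp, fun x hx _ => by rwa [hbot, Submodule.mem_bot] at hx⟩
    obtain ⟨x, hx, hx0⟩ := Submodule.exists_mem_ne_zero_of_ne_bot hne
    have hi : x.coeff x.order ≠ 0 := HahnSeries.coeff_order_eq_zero.not.mpr hx0
    have hlt := finrank_coeffKer_lt hx hi
    have : FiniteDimensional k (coeffKer W x.order) :=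
      Submodule.finiteDimensional_of_le (coeffKer_le W x.order)
    obtain ⟨s, hs, hsep⟩ := ih _ (by omega) (coeffKer W x.order) rfl
    refine ⟨insert x.order s, (Finset.card_insert_le _ _).trans (by omega), fun y hy hy0 => ?_⟩
    exact hsep y ⟨hy, hy0 _ (Finset.mem_insert_self _ _)⟩
      fun i hi => hy0 i (Finset.mem_insert_of_mem hi)

/-- **Fixed lifting.** -/
theorem exists_rat_lift {H : Set (Sym S)} (hrich : Rich H) (V : Submodule K (LaurentSeries K))
    [FiniteDimensional K V] (hV : NormalizableSub A π V)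
    (hstab : ∀ σ ∈ H, ∀ y ∈ V, coeffMap (σ.base : K →+* K) y ∈ V) {x : LaurentSeries k}
    (hx : x ∈ redSub S.surj V) :
    ∃ y ∈ V, y ∈ ratSeries (fixedField H) ∧ Red A π y x := by
  classical
  have := (finiteDimensional_redSub S.surj V).1
  obtain ⟨s, hcard, hsep⟩ := exists_separating (redSub S.surj V)
  let ev : V →ₗ[K] (s → K) :=
    { toFun := fun y i => (y : LaurentSeries K).coeff i
      map_add' := fun a b => by ext i; simp
      map_smul' := fun c a => by ext i; simp }
  have key : ∀ y ∈ V, (∀ i ∈ s, A.valuation (y.coeff i) ≤ 1) → BoundedBy A y 1 := by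
    intro y hy hs
    rcases eq_or_ne y 0 with rfl | hy0
    · exact boundedBy_zero 1
    obtain ⟨c, hc, w, hw, hcy, hred⟩ := hV.exists_red hy hy0
    obtain ⟨i, hi, hwi⟩ : ∃ i ∈ s, w.coeff i ≠ 0 := by
      by_contra hall
      push Not at hall
      exact hw (hsep w ⟨_, hcy, hred⟩ hall)
    have h1 := hred.coeff_valuation_eq_one S.surj hwi
    rw [coeff_smulC, map_mul] at h1
    have hc1 : 1 ≤ A.valuation c := by
      rw [← h1]
      exact mul_le_of_le_one_right' (hs i hi)
    intro j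
    have h2 := hred.boundedBy j
    rw [coeff_smulC, map_mul] at h2
    exact (le_mul_of_one_le_left' hc1).trans h2
  have hinj : Function.Injective ev := by
    refine LinearMap.ker_eq_bot.mp (LinearMap.ker_eq_bot'.mpr fun y hy => ?_)
    by_contra hy0
    obtain ⟨c, hc, w, hw, hcy, hred⟩ := hV.exists_red y.2 (fun h => hy0 (Subtype.ext h))
    refine hw (hsep w ⟨_, hcy, hred⟩ fun i hi => ?_)
    obtain ⟨hm, hπ⟩ := hred i
    have h0 : (y : LaurentSeries K).coeff i = 0 := congrFun hy ⟨i, hi⟩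
    rw [← hπ, show (⟨_, hm⟩ : A) = 0 from Subtype.ext (by simp [h0]), map_zero]
  have hsurj : Function.Surjective ev := by
    refine (LinearMap.injective_iff_surjective_of_finrank_eq_finrank ?_).mp hinj
    have h1 := LinearMap.finrank_le_finrank_of_injective hinj
    have h2 := finrank_redSub S.surj V hV
    simp only [Module.finrank_fintype_fun_eq_card, Fintype.card_coe] at h1 ⊢
    omega
  obtain ⟨y₀, hy₀, hy₀x⟩ := hx
  choose b hbfix hbπ using fun i : s =>
    hrich (⟨y₀.coeff i, (hy₀x i).1⟩ : A)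
  obtain ⟨⟨y, hy⟩, hyb⟩ := hsurj fun i => (b i : K)
  have hcoef : ∀ i : s, y.coeff i = (b i : K) := fun i => congrFun hyb i
  refine ⟨y, hy, mem_ratSeries_fixedField.mpr fun σ hσ => ?_, ?_⟩
  · have h1 := hinj (a₁ := ⟨_, hstab σ hσ y hy⟩) (a₂ := ⟨y, hy⟩) (funext fun i => by
      show (coeffMap (σ.base : K →+* K) y).coeff i = y.coeff i
      rw [coeffMap_coeff, hcoef i]
      exact hbfix i σ hσ)
    exact congrArg Subtype.val h1
  · have hy1 : BoundedBy A y 1 := key y hy fun i hi => by
      rw [hcoef ⟨i, hi⟩]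
      exact (ValuationSubring.valuation_le_one_iff _ _).mpr (b _).2
    obtain ⟨w, hw⟩ := exists_red_of_coeff_mem π (coeff_mem_of_boundedBy_one hy1)
    suffices w = x by rwa [this] at hw
    refine sub_eq_zero.mp (hsep _ (Submodule.sub_mem _ ⟨y, hy, hw⟩ ⟨y₀, hy₀, hy₀x⟩) fun i hi => ?_)
    rw [HahnSeries.coeff_sub, sub_eq_zero]
    obtain ⟨hm, hπ⟩ := hw i
    obtain ⟨hm₀, hπ₀⟩ := hy₀x i
    rw [← hπ, ← hπ₀, show (⟨_, hm⟩ : A) = b ⟨i, hi⟩ from Subtype.ext (hcoef ⟨i, hi⟩), hbπ]

theorem exists_rat_lift_space {H : Set (Sym S)} (hrich : Rich H) {D : Divisor K S.F}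
    (hD : S.OffNonpos D) (hfix : ∀ σ ∈ H, σ.mapDiv D = D) {x : LaurentSeries k}
    (hx : x ∈ redSub S.surj (S.space D)) :
    ∃ y ∈ S.space D, y ∈ ratSeries (fixedField H) ∧ Red A π y x := by
  have := S.finiteDimensional_space D
  refine exists_rat_lift hrich _ (S.normalizable_space hD) (fun σ hσ y hy => ?_) hx
  simpa only [hfix σ hσ] using σ.map_mem_space hy

/-- Series with fixed coefficients are liftable. -/
theorem liftable_rat {H : Set (Sym S)} (hrich : Rich H) :
    Liftable (S := S) (ratSeries (fixedField H)) :=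
  ⟨fun _ hy i => algebraMap_mem_ratSeries (mem_ratSeries.mp hy i), fun _ _ hx =>
    exists_rat_lift_space hrich (S.offNonpos_atPt _) (fun σ _ => σ.mapDiv_atPt _) hx⟩

/-- Exact sections of every large order exist with fixed coefficients. -/
theorem exists_isExact_rat {H : Set (Sym S)} (hrich : Rich H) (hgap : S.GapBound n₀) :
    ∃ B : ℤ, ∀ m, B ≤ m →
      ∃ g : S.F, IsExact g m ∧ (g : LaurentSeries K) ∈ ratSeries (fixedField H) := by
  obtain ⟨B, hB⟩ := exists_isExact hgap (E := (0 : Divisor K S.F)) (fun v => le_rfl)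
    (fun v hv => absurd rfl hv)
  refine ⟨B, fun m hm => ?_⟩
  obtain ⟨g, ⟨hg, x, hx, hxo, hred⟩, -⟩ := hB m hm
  obtain ⟨y, hy, hyrat, hyx⟩ := (liftable_rat hrich).lift m x ⟨_, hg, hred⟩
  obtain ⟨g', rfl, -⟩ := S.exists_of_mem_space hy
  exact ⟨g', ⟨hy, x, hx, hxo, hyx⟩, hyrat⟩

variable {z : Pic0 K S.F} {num den : S.F} {m : ℤ} {r : A.ValueGroup}

/-- A representative together with rationality and a large reduced pole order. -/
def IsRatRep (n₀ : ℕ) (H : Set (Sym S)) (z : Pic0 K S.F) (num den : S.F) (m : ℤ)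
    (r : A.ValueGroup) : Prop :=
  IsRep z num den m r ∧ (n₀ : ℤ) ≤ m ∧ (num : LaurentSeries K) ∈ ratSeries (fixedField H) ∧
    (den : LaurentSeries K) ∈ ratSeries (fixedField H)

theorem IsRatRep.mono {H : Set (Sym S)} {r' : A.ValueGroup} (h : IsRatRep n₀ H z num den m r)
    (hr : r ≤ r') (hr' : r' < 1) : IsRatRep n₀ H z num den m r' :=
  ⟨h.1.mono hr hr', h.2⟩

/-- The bad cofactor of a divisor with principal reduced ideal. -/
theorem exists_bad_cofactor (hgap : S.GapBound n₀) {P : Divisor K S.F} (hP : S.IsEff P)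
    {x : LaurentSeries k} (hx : x ≠ 0) (hPx : S.effIdeal P = Submodule.span S.Cbar {x}) {h : S.F}
    {n : ℕ} (hh : (h : LaurentSeries K) ∈ S.space (S.atPt n - P))
    (hhx : Red A π (h : LaurentSeries K) x) :
    ∃ R : Divisor K S.F, S.IsEff R ∧ IsBadDiv R ∧ R = fdiv h + S.atPt n - P ∧
      badHom (S := S) R = -badHom (S := S) P := by
  obtain ⟨h', hh', hv⟩ := S.exists_of_mem_space hh
  obtain rfl : h' = h := Subtype.ext hh'
  have hh0 : h' ≠ 0 := by
    rintro rfl
    exact hx (hhx.unique red_zero)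
  obtain ⟨R, hR⟩ : ∃ R : Divisor K S.F, R = fdiv h' + S.atPt (n : ℤ) - P := ⟨_, rfl⟩
  have hReff : S.IsEff R := fun v => by
    have h1 := (hv v).resolve_left hh0
    rw [Finsupp.sub_apply] at h1
    rw [hR, Finsupp.sub_apply, Finsupp.add_apply, fdiv_apply hh0]
    omega
  have hdivh : ∀ v, v.ord h' = (P + R) v - S.atPt (n : ℤ) v := fun v => by
    rw [hR, add_sub_cancel, Finsupp.add_apply, fdiv_apply hh0]
    ring
  obtain ⟨u, hu⟩ := hgap.exists_effUnit hP
  have hone : S.effIdeal R = 1 := by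
    obtain ⟨uR, huR⟩ := hgap.exists_effUnit hReff
    have h1 := hgap.effIdeal_mul_cofactor hP hReff hh0 hdivh hx hhx
    rw [← hPx, ← hu, ← huR, ← Units.val_mul] at h1
    rw [← huR, mul_left_cancel (a := u) (b := uR) (c := 1) (by rw [mul_one]; exact Units.ext h1)]
    rfl
  refine ⟨R, hReff, (effIdeal'_eq_top_iff hgap hReff).mp ((Ideal.eq_top_iff_one _).mpr ?_), hR, ?_⟩
  · show ((1 : S.Cbar) : LaurentSeries k) ∈ S.effIdeal R
    rw [hone, OneMemClass.coe_one]
    exact Submodule.one_le.mp le_rfl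
  · rw [hR, map_sub, map_add, badHom_fdiv, badHom_atPt, add_zero, zero_sub]

theorem badHom_mk (D : Divisor.degZero (K := K) (F := S.F)) :
    badHom (S := S) (D : Divisor K S.F) = Pic0.mk D := by
  rw [badHom_apply, badClass]
  refine congrArg Pic0.mk (Subtype.ext ?_)
  show (D : Divisor K S.F) - S.atPt (Divisor.degree (D : Divisor K S.F)) = _
  rw [Divisor.mem_degZero.mp D.2, atPt, Finsupp.single_zero, sub_zero]

/-- A class fixed by `H` is represented by an effective divisor fixed by `H`. -/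
theorem exists_eff_fixed {H : Set (Sym S)} (hfix : ∀ σ ∈ H, σ.act z = z) :
    ∃ E : Divisor K S.F, S.IsEff E ∧ (∀ σ ∈ H, σ.mapDiv E = E) ∧ badHom (S := S) E = z := by
  obtain ⟨D, rfl⟩ := Pic0.mk_surjective z
  have hdeg : Divisor.degree (D : Divisor K S.F) = 0 := Divisor.mem_degZero.mp D.2
  set V : ℤ → Submodule K (LaurentSeries K) :=
    fun n => S.space (S.atPt n + (D : Divisor K S.F)) with hV
  have heff : ∀ {n : ℤ} {u : S.F}, u ≠ 0 → (u : LaurentSeries K) ∈ V n →
      S.IsEff (fdiv u + (S.atPt n + (D : Divisor K S.F))) := fun {n u} hu0 hu v => by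
    have h1 := (S.coe_mem_space.mp hu v).resolve_left hu0
    rw [Finsupp.add_apply, fdiv_apply hu0]
    omega
  obtain ⟨n, ⟨u, hu, hu0⟩, hmin⟩ := Int.exists_least_of_bdd
    (P := fun n => ∃ u : S.F, (u : LaurentSeries K) ∈ V n ∧ u ≠ 0)
    ⟨0, fun n ⟨u, hu, hu0⟩ => by
      have := degree_nonneg_of_isEff (heff hu0 hu)
      rw [map_add, map_add, degree_fdiv, S.degree_atPt, hdeg] at this
      omega⟩
    (by
      refine ⟨S.g, ?_⟩
      have hne : V S.g ≠ ⊥ := fun hbot => by
        have h1 := S.finrank_space_ge (S.atPt (S.g : ℤ) + (D : Divisor K S.F))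
        rw [show S.space (S.atPt (S.g : ℤ) + (D : Divisor K S.F)) = ⊥ from hbot, finrank_bot,
          map_add, S.degree_atPt, hdeg] at h1
        omega
      obtain ⟨y, hy, hy0⟩ := Submodule.exists_mem_ne_zero_of_ne_bot hne
      obtain ⟨u, rfl, -⟩ := S.exists_of_mem_space hy
      exact ⟨u, hy, fun h => hy0 (by rw [h]; rfl)⟩)
  have hone : ∀ w : S.F, (w : LaurentSeries K) ∈ V n → ∃ c : K, w = algebraMap K S.F c * u := by
    intro w hw
    set i : ℤ := -((S.atPt n + (D : Divisor K S.F)) S.pt) with hi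
    have hui : (u : LaurentSeries K).coeff i ≠ 0 := by
      intro h0
      have hu' : (u : LaurentSeries K) ∈ V (n - 1) := by
        refine S.coe_mem_space.mpr fun v => Or.inr ?_
        have h1 := (S.coe_mem_space.mp hu v).resolve_left hu0
        rw [Finsupp.add_apply] at h1 ⊢
        rcases eq_or_ne v S.pt with rfl | hv
        · rw [S.atPt_self] at h1 ⊢
          rw [S.ord_pt] at h1 ⊢
          have hne : (u : LaurentSeries K).order ≠ i := fun he => by
            rw [← he] at h0
            exact hu0 (Subtype.ext (HahnSeries.coeff_order_eq_zero.mp h0))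
          rw [hi, Finsupp.add_apply, S.atPt_self] at hne
          omega
        · rw [S.atPt_of_ne _ hv] at h1 ⊢
          omega
      have := hmin (n - 1) ⟨u, hu', hu0⟩
      omega
    obtain ⟨c, hc⟩ : ∃ c : K,
        c * (u : LaurentSeries K).coeff i = (w : LaurentSeries K).coeff i :=
      ⟨_, div_mul_cancel₀ _ hui⟩
    refine ⟨c, sub_eq_zero.mp ?_⟩
    set w' : S.F := w - algebraMap K S.F c * u with hw'
    by_contra hne
    have hw'i : (w' : LaurentSeries K).coeff i = 0 := by
      rw [hw']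
      push_cast
      rw [HahnSeries.coeff_sub, coeff_algebraMap_mul, hc, sub_self]
    have hw'n : (w' : LaurentSeries K) ∈ V n := by
      rw [hw']
      push_cast
      rw [← smul_eq_algebraMap_mul]
      exact Submodule.sub_mem _ hw (Submodule.smul_mem _ _ hu)
    have hw'' : (w' : LaurentSeries K) ∈ V (n - 1) := by
      refine S.coe_mem_space.mpr fun v => Or.inr ?_
      have h1 := (S.coe_mem_space.mp hw'n v).resolve_left hne
      rw [Finsupp.add_apply] at h1 ⊢
      rcases eq_or_ne v S.pt with rfl | hv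
      · rw [S.atPt_self] at h1 ⊢
        rw [S.ord_pt] at h1 ⊢
        have hne' : (w' : LaurentSeries K).order ≠ i := fun he => by
          rw [← he] at hw'i
          exact hne (Subtype.ext (HahnSeries.coeff_order_eq_zero.mp hw'i))
        rw [hi, Finsupp.add_apply, S.atPt_self] at hne'
        omega
      · rw [S.atPt_of_ne _ hv] at h1 ⊢
        omega
    have := hmin (n - 1) ⟨w', hw'', hne⟩
    omega
  obtain ⟨E, hE⟩ : ∃ E : Divisor K S.F, E = fdiv u + (S.atPt n + (D : Divisor K S.F)) := ⟨_, rfl⟩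
  have hEz : badHom (S := S) E = Pic0.mk D := by
    rw [hE, map_add, map_add, badHom_fdiv, badHom_atPt, badHom_mk, zero_add, zero_add]
  refine ⟨E, hE ▸ heff hu0 hu, fun σ hσ => ?_, hEz⟩
  have h0 : badHom (S := S) (σ.mapDiv E - E) = 0 := by
    rw [map_sub, σ.badHom_mapDiv, hEz, hfix σ hσ, sub_self]
  obtain ⟨f, hf, hfd⟩ := principal_of_badHom_eq_zero h0
  rw [map_sub Divisor.degree, σ.degree_mapDiv, sub_self,
    show S.atPt (0 : ℤ) = 0 by rw [atPt, Finsupp.single_zero], sub_zero] at hfd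
  have hfu : ((f * u : S.F) : LaurentSeries K) ∈ V n := by
    refine S.coe_mem_space.mpr fun v => Or.inr ?_
    have h1 : 0 ≤ σ.mapDiv E v := σ.isEff_mapDiv (hE ▸ heff hu0 hu) v
    have h2 : fdiv f v = σ.mapDiv E v - E v := by rw [hfd, Finsupp.sub_apply]
    have h3 : E v = v.ord u + (S.atPt n + (D : Divisor K S.F)) v := by
      rw [hE, Finsupp.add_apply, fdiv_apply hu0]
    rw [v.ord_mul hf hu0, ← fdiv_apply hf, h2]
    omega
  obtain ⟨c, hc⟩ := hone _ hfu
  have hfc : f = algebraMap K S.F c := mul_right_cancel₀ hu0 hc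
  refine sub_eq_zero.mp (Finsupp.ext fun v => ?_)
  rw [← hfd, fdiv_apply hf, hfc, FF.ord_algebraMap]
  rfl

/-- A fixed class reducing to zero is represented by a fixed bad divisor. -/
theorem exists_bad_fixed {H : Set (Sym S)} (hrich : Rich H) (hgap : S.GapBound n₀)
    (hz : hgap.sp z = 0) (hfix : ∀ σ ∈ H, σ.act z = z) :
    ∃ R : Divisor K S.F, S.IsEff R ∧ IsBadDiv R ∧ (∀ σ ∈ H, σ.mapDiv R = R) ∧
      badHom (S := S) R = z := by
  obtain ⟨P, hP, hPfix, hPz⟩ := exists_eff_fixed (z := -z) (H := H)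
    (fun σ hσ => by rw [Sym.act_def, smul_neg, ← Sym.act_def, hfix σ hσ])
  have hcl : hgap.classHom P = 0 := by
    have h1 : hgap.sp (badHom (S := S) P) = 0 := by rw [hPz, map_neg, hz, neg_zero]
    rwa [badHom_apply, badClass, hgap.sp_mk, map_sub, hgap.classHom_atPt, sub_zero] at h1
  obtain ⟨u, hu⟩ := hgap.exists_effUnit hP
  rw [hgap.classHom_eff hP u hu, picClass_eq_zero_iff, hu] at hcl
  obtain ⟨x, -, hx0, hPx⟩ := hcl
  obtain ⟨n, hxn⟩ : ∃ n : ℕ, x ∈ redSub S.surj (S.space (S.atPt n - P)) :=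
    mem_effIdeal.mp (hPx.symm ▸ Submodule.mem_span_singleton_self x : x ∈ S.effIdeal P)
  have hDfix : ∀ σ ∈ H, σ.mapDiv (S.atPt n - P) = S.atPt n - P := fun σ hσ => by
    rw [map_sub, σ.mapDiv_atPt, hPfix σ hσ]
  obtain ⟨y, hy, hyrat, hyx⟩ := exists_rat_lift_space hrich (hP.offNonpos _) hDfix hxn
  obtain ⟨h, rfl, -⟩ := S.exists_of_mem_space hy
  obtain ⟨R, hR, hRbad, hReq, hRP⟩ := exists_bad_cofactor hgap hP hx0 hPx hy hyx
  refine ⟨R, hR, hRbad, fun σ hσ => ?_, by rw [hRP, hPz, neg_neg]⟩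
  have hh : σ.ringAut h = h := Subtype.ext (mem_ratSeries_fixedField.mp hyrat σ hσ)
  rw [hReq, map_sub, map_add, σ.mapDiv_atPt, hPfix σ hσ, ← σ.fdiv_ringAut, hh]

/-- **Rational representatives exist.** -/
theorem exists_isRatRep {H : Set (Sym S)} (hrich : Rich H) (hgap : S.GapBound n₀)
    (hz : hgap.sp z = 0) (hfix : ∀ σ ∈ H, σ.act z = z) :
    ∃ (num den : S.F) (m : ℤ) (r : A.ValueGroup), IsRatRep n₀ H z num den m r := by
  obtain ⟨R, hR, hRbad, hRfix, hRz⟩ := exists_bad_fixed hrich hgap hz hfix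
  obtain ⟨B, hB⟩ := exists_isExact_rat hrich hgap
  set m : ℤ := max B (n₀ : ℤ) with hm
  obtain ⟨den, hden, hdenrat⟩ := hB m (le_max_left _ _)
  obtain ⟨hdenmem, x, hx, hxo, hdenx⟩ := hden
  obtain ⟨d, hd⟩ : ∃ d : ℤ, Divisor.degree R = d := ⟨_, rfl⟩
  have hd0 : 0 ≤ d := hd ▸ degree_nonneg_of_isEff hR
  have hxmem : x ∈ redSub S.surj (S.space (S.atPt (m + d) - R)) := by
    rw [redSub_bad_eq hgap hR hRbad (by omega), hd, add_sub_cancel_right,
      ← hgap.redSub_eq (le_max_right _ _)]
    exact ⟨_, hdenmem, hdenx⟩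
  have hDfix : ∀ σ ∈ H, σ.mapDiv (S.atPt (m + d) - R) = S.atPt (m + d) - R := fun σ hσ => by
    rw [map_sub, σ.mapDiv_atPt, hRfix σ hσ]
  obtain ⟨y, hy, hyrat, hyx⟩ := exists_rat_lift_space hrich (hR.offNonpos _) hDfix hxmem
  obtain ⟨num, rfl, -⟩ := S.exists_of_mem_space hy
  have hnum0 : num ≠ 0 := by
    rintro rfl
    exact hx (hyx.unique red_zero)
  have hreg : (num : LaurentSeries K) ∈ S.space (S.atPt (m + d)) :=
    S.space_mono (fun v => by rw [Finsupp.sub_apply]; have := hR v; omega) hy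
  obtain ⟨r, hr1, hclose⟩ : ∃ r < 1,
      BoundedBy A ((num : LaurentSeries K) - (den : LaurentSeries K)) r := by
    rcases eq_or_ne ((num : LaurentSeries K) - (den : LaurentSeries K)) 0 with h0 | h0
    · exact ⟨0, zero_lt_one, by rw [h0]; exact boundedBy_zero 0⟩
    obtain ⟨i, -, hi⟩ := exists_max_coeff S.surj
      (S.normalizable_space (S.offNonpos_atPt (m + d)) _
        (Submodule.sub_mem _ hreg (S.space_atPt_mono (by omega) hdenmem)) h0)
    have h1 := hyx.sub hdenx
    rw [sub_self] at h1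
    exact ⟨_, (h1.eq_zero_iff S.surj).mp rfl i, hi⟩
  obtain ⟨G, hG⟩ : ∃ G : Divisor K S.F, G = fdiv num + (S.atPt (m + d) - R) := ⟨_, rfl⟩
  have hGeff : S.IsEff G := fun v => by
    have h1 := (S.coe_mem_space.mp hy v).resolve_left hnum0
    rw [hG, Finsupp.add_apply, fdiv_apply hnum0]
    omega
  have hgd := goodDeg_fdiv hgap hreg hx hyx
  have hbp : badPart (S := S) G = badPart (S := S) (fdiv num) + (S.atPt (m + d) - R) := by
    rw [hG, map_add, map_sub, badPart_atPt, badPart_eq_self hRbad]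
  have hGbad : badPart (S := S) G = 0 := by
    refine S.eq_zero_of_effective (isEff_badPart hGeff) ?_
    rw [hbp, map_add, map_sub, S.degree_atPt, hd]
    rw [goodDeg, degree_fdiv, hxo] at hgd
    omega
  refine ⟨num, den, m, r, ⟨⟨m + d, hreg⟩, ⟨hdenmem, x, hx, hxo, hdenx⟩, hr1, hclose, ?_⟩,
    le_max_right _ _, hyrat, hdenrat⟩
  rw [← hRz]
  have h3 : badPart (S := S) (fdiv num) = R - S.atPt (m + d) := by
    have h4 := hbp.symm.trans hGbad
    rw [eq_neg_of_add_eq_zero_left h4]
    abel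
  rw [h3, map_sub, badHom_atPt, sub_zero]

/-- **Every reduced class is the reduction of a fixed class.** -/
theorem exists_fixed_sp_eq {H : Set (Sym S)} (hrich : Rich H) (hgap : S.GapBound n₀)
    (y : Pic0 K S.F) : ∃ y₀ : Pic0 K S.F, hgap.sp y₀ = hgap.sp y ∧ ∀ σ ∈ H, σ.act y₀ = y₀ := by
  classical
  have key : ∀ v : Place K S.F, ∃ v' : Place K S.F,
      S.effIdeal' (Finsupp.single v' 1) = S.effIdeal' (Finsupp.single v 1) ∧
        ∀ σ ∈ H, σ.semi • v' = v' := by
    intro v
    by_cases hv : IsBad v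
    · exact ⟨S.pt, (isBad_pt (S := S)).trans hv.symm, fun σ _ => σ.semi_smul_pt⟩
    obtain ⟨n, x, hx, huniq⟩ := exists_unique_zero hgap hv
    obtain ⟨y', hy', hrat, hyx⟩ := (liftable_rat hrich).lift _ x hx
    obtain ⟨u, rfl, -⟩ := S.exists_of_mem_space hy'
    obtain ⟨w, ⟨hw1, hw2⟩, hw3⟩ := huniq u hy' hyx
    refine ⟨w, hw2, fun σ hσ => hw3 _ ⟨?_, ?_⟩⟩
    · have hu : σ.ringAut u = u := Subtype.ext (mem_ratSeries_fixedField.mp hrat σ hσ)
      have h1 := σ.ord_semi w u
      have h2 := σ.mapDiv_apply_smul (S.atPt (n : ℤ)) w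
      rw [σ.mapDiv_atPt] at h2
      rw [hu] at h1
      rwa [h1, h2]
    · rw [← SemilinearAut.smul_single, ← Sym.mapDiv_def, σ.effIdeal'_mapDiv, hw2]
  choose f hf hffix using key
  obtain ⟨D, rfl⟩ := Pic0.mk_surjective y
  have hclass : ∀ v : Place K S.F, hgap.classHom (Finsupp.single (f v) 1) =
      hgap.classHom (Finsupp.single v 1) := fun v => by
    have hE := isEff_single (S := S) v zero_le_one
    have hE' := isEff_single (S := S) (f v) zero_le_one
    obtain ⟨u, hu⟩ := hgap.exists_effUnit hE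
    rw [hgap.classHom_eff hE u hu, hgap.classHom_eff hE' u (hu.trans ?_)]
    rw [← map_effIdeal' hE, ← map_effIdeal' hE', hf v]
  set D₀ : Divisor K S.F := Finsupp.mapDomain f (D : Divisor K S.F) with hD₀
  have hD₀deg : Divisor.degree D₀ = 0 := by
    rw [hD₀, S.degree_eq_sum, Finsupp.sum_mapDomain_index (fun _ => rfl) (fun _ _ _ => rfl),
      ← S.degree_eq_sum]
    exact Divisor.mem_degZero.mp D.2
  refine ⟨Pic0.mk ⟨D₀, Divisor.mem_degZero.mpr hD₀deg⟩, ?_, fun σ hσ => ?_⟩
  · rw [hgap.sp_mk, hgap.sp_mk]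
    show hgap.classHom D₀ = _
    rw [hD₀]
    induction (D : Divisor K S.F) using Finsupp.induction with
    | zero => simp
    | single_add v n D' _ _ ih =>
      rw [Finsupp.mapDomain_add, map_add, map_add, ih, Finsupp.mapDomain_single]
      congr 1
      rw [show (Finsupp.single (f v) n : Divisor K S.F) = n • Finsupp.single (f v) (1 : ℤ) by simp,
        show (Finsupp.single v n : Divisor K S.F) = n • Finsupp.single v (1 : ℤ) by simp,
        map_zsmul, map_zsmul, hclass v]
  · rw [Sym.act_mk]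
    refine congrArg Pic0.mk (Subtype.ext ?_)
    show σ.semi • D₀ = D₀
    rw [hD₀, SemilinearAut.divisor_smul_def, ← Finsupp.mapDomain_comp]
    exact Finsupp.mapDomain_congr fun v _ => hffix v σ hσ

end Fermat.Agent.MazurStep
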