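import Fermat.Agent.MazurStep.Pairing

/-!
# Representatives of classes reducing to zero and their tangents

A class `z` with trivial reduction is represented by a pair `num`, `den`: `den` is exact, `num` is
regular outside `q = 0`, they agree modulo coefficients of valuation `≤ r`, and the bad zeros of
`num` represent `z`. The tangent is the pairing of the relative difference with the cusp forms; it
is additive and well defined modulo `r * r`.
-/

set_option autoImplicit false
attribute [-instance] IsScalarTower.of_algHom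
attribute [local instance 2000] SubalgebraClass.toAlgebra

noncomputable section

namespace Fermat.Agent.MazurStep

open HahnSeries AlgebraicCurve
open Fermat.Agent.Reduction
open Fermat.Agent.Reduction.CurveRed

variable {K k : Type*} [Field K] [Field k] {A : ValuationSubring K} {π : A →+* k}
  {S : CurveRed A π} {n₀ : ℕ}

/-! ### Divisors of functions -/

open Classical in
/-- The divisor of a function (zero for the zero function). -/
def fdiv (u : S.F) : Divisor K S.F :=
  if h : u ≠ 0 then (S.exists_div h).choose else 0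

theorem fdiv_apply {u : S.F} (h : u ≠ 0) (v : Place K S.F) : fdiv u v = v.ord u := by
  rw [fdiv, dif_pos h]
  exact (S.exists_div h).choose_spec.1 v

theorem degree_fdiv (u : S.F) : Divisor.degree (fdiv u) = 0 := by
  rw [fdiv]
  split_ifs with h
  · exact (S.exists_div h).choose_spec.2
  · exact map_zero _

theorem fdiv_eq {u : S.F} (h : u ≠ 0) {E : Divisor K S.F} (hE : ∀ v, E v = v.ord u) : fdiv u = E :=
  Finsupp.ext fun v => by rw [fdiv_apply h, hE]

theorem fdiv_mul {u w : S.F} (hu : u ≠ 0) (hw : w ≠ 0) : fdiv (u * w) = fdiv u + fdiv w :=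
  Finsupp.ext fun v => by
    rw [fdiv_apply (mul_ne_zero hu hw), Finsupp.add_apply, fdiv_apply hu, fdiv_apply hw,
      v.ord_mul hu hw]

theorem fdiv_div {u w : S.F} (hu : u ≠ 0) (hw : w ≠ 0) : fdiv (u / w) = fdiv u - fdiv w :=
  Finsupp.ext fun v => by
    rw [fdiv_apply (div_ne_zero hu hw), Finsupp.sub_apply, fdiv_apply hu, fdiv_apply hw,
      FF.ord_div v hu hw]

theorem fdiv_one : fdiv (1 : S.F) = 0 :=
  Finsupp.ext fun v => by rw [fdiv_apply one_ne_zero, v.ord_one]; rfl

theorem fdiv_algebraMap_mul {c : K} (hc : c ≠ 0) {u : S.F} (hu : u ≠ 0) :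
    fdiv (algebraMap K S.F c * u) = fdiv u :=
  Finsupp.ext fun v => by
    rw [fdiv_apply (mul_ne_zero ((map_ne_zero _).mpr hc) hu), fdiv_apply hu,
      v.ord_mul ((map_ne_zero _).mpr hc) hu, FF.ord_algebraMap, zero_add]

theorem isEff_fdiv_add {u : S.F} (hu : u ≠ 0) {n : ℤ}
    (h : (u : LaurentSeries K) ∈ S.space (S.atPt n)) : S.IsEff (fdiv u + S.atPt n) := fun v => by
  rw [Finsupp.add_apply, fdiv_apply hu]
  have := (S.coe_mem_space.mp h v).resolve_left hu
  omega

theorem badPart_atPt (n : ℤ) : badPart (S := S) (S.atPt n) = S.atPt n :=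
  badPart_eq_self (isBadDiv_atPt n)

theorem goodDeg_atPt (n : ℤ) : goodDeg (S.atPt n) = 0 := by
  rw [goodDeg, badPart_atPt, sub_self]

/-- `badClass` as a homomorphism. -/
def badHom : Divisor K S.F →+ Pic0 K S.F := AddMonoidHom.mk' badClass badClass_add

theorem badHom_apply (R : Divisor K S.F) : badHom (S := S) R = badClass R := rfl

theorem badHom_atPt (n : ℤ) : badHom (S := S) (S.atPt n) = 0 := by
  rw [badHom_apply, badClass]
  refine (congrArg Pic0.mk (Subtype.ext ?_)).trans (Pic0.mk_zero)
  show S.atPt n - S.atPt (Divisor.degree (S.atPt n)) = 0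
  rw [S.degree_atPt, sub_self]

theorem badHom_fdiv (u : S.F) : badHom (S := S) (fdiv u) = 0 := by
  rw [badHom_apply, badClass]
  rcases eq_or_ne u 0 with rfl | hu
  · refine (congrArg Pic0.mk (Subtype.ext ?_)).trans (Pic0.mk_zero)
    show fdiv (0 : S.F) - _ = 0
    rw [fdiv, dif_neg (not_not.mpr rfl), map_zero, zero_sub, neg_eq_zero, atPt, Finsupp.single_zero]
  · refine (QuotientAddGroup.eq_zero_iff _).mpr (AddSubgroup.mem_addSubgroupOf.mpr
      ⟨u, hu, fun v => ?_⟩)
    show (fdiv u - S.atPt (Divisor.degree (fdiv u))) v = v.ord u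
    rw [degree_fdiv, atPt, Finsupp.single_zero, sub_zero, fdiv_apply hu]

theorem principal_of_badHom_eq_zero {R : Divisor K S.F} (h : badHom (S := S) R = 0) :
    ∃ f : S.F, f ≠ 0 ∧ fdiv f = R - S.atPt (Divisor.degree R) := by
  rw [badHom_apply, badClass] at h
  obtain ⟨f, hf, hfv⟩ :=
    AddSubgroup.mem_addSubgroupOf.mp ((QuotientAddGroup.eq_zero_iff _).mp h)
  exact ⟨f, hf, fdiv_eq hf hfv⟩

/-- The reduced pole order of a regular function is the number of its good zeros. -/
theorem goodDeg_fdiv (hgap : S.GapBound n₀) {u : S.F} {n : ℤ}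
    (hu : (u : LaurentSeries K) ∈ S.space (S.atPt n)) {x : LaurentSeries k} (hx : x ≠ 0)
    (hred : Red A π (u : LaurentSeries K) x) : goodDeg (fdiv u) = -x.order := by
  have hu0 : u ≠ 0 := by
    rintro rfl
    exact hx (hred.unique red_zero)
  have h := order_red_eq hgap (isEff_fdiv_add hu0 hu) hu0 (M := n)
    (fun v => by rw [Finsupp.add_apply, fdiv_apply hu0]; ring) hx hred
  rw [h, goodDeg_add, goodDeg_atPt, add_zero]

/-- The divisor of a regular function with constant reduction is bad. -/
theorem badPart_fdiv_of_const (hgap : S.GapBound n₀) {u : S.F} {n : ℤ}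
    (hu : (u : LaurentSeries K) ∈ S.space (S.atPt n)) {x : LaurentSeries k} (hx : x ≠ 0)
    (hx0 : x.order = 0) (hred : Red A π (u : LaurentSeries K) x) :
    badPart (S := S) (fdiv u) = fdiv u := by
  have hu0 : u ≠ 0 := by
    rintro rfl
    exact hx (hred.unique red_zero)
  have hdeg := goodDeg_fdiv hgap hu hx hred
  rw [hx0, neg_zero, goodDeg, ← map_sub] at hdeg
  have heff : S.IsEff (fdiv u - badPart (S := S) (fdiv u)) := fun v => by
    by_cases hb : IsBad v
    · rw [Finsupp.sub_apply, badPart_apply_bad hb, sub_self]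
    · have h1 := isEff_fdiv_add hu0 hu v
      have hvp : v ≠ S.pt := fun h => hb (h ▸ isBad_pt)
      rw [Finsupp.add_apply, S.atPt_of_ne _ hvp, add_zero] at h1
      rw [Finsupp.sub_apply, badPart_apply_good hb, sub_zero]
      exact h1
  exact (sub_eq_zero.mp (S.eq_zero_of_effective heff hdeg)).symm

theorem IsExact.badHom_eq_zero (hgap : S.GapBound n₀) {g : S.F} {m : ℤ} (h : IsExact g m) :
    badHom (S := S) (badPart (S := S) (fdiv g)) = 0 := by
  obtain ⟨E, -, hgood, -, hdiv⟩ := h.exists_zeros hgap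
  rw [fdiv_eq h.ne_zero (E := E - S.atPt m) (fun v => by rw [Finsupp.sub_apply, hdiv v]), map_sub,
    badPart_eq_zero hgood, badPart_atPt, zero_sub, map_neg, badHom_atPt, neg_zero]

/-- An integrality criterion: divide by a series with nonzero reduction. -/
theorem boundedBy_of_mul_red {D : Divisor K S.F} (hD : S.OffNonpos D) {y : LaurentSeries K}
    (hy : y ∈ S.space D) {g : LaurentSeries K} {x : LaurentSeries k} (hg : Red A π g x)
    (hx : x ≠ 0) {r : A.ValueGroup} (h : BoundedBy A (y * g) r) : BoundedBy A y r := by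
  rcases eq_or_ne y 0 with rfl | hy0
  · exact boundedBy_zero r
  obtain ⟨c, hc, w, hw, hcw⟩ := S.normalizable_space hD y hy hy0
  have hmul : Red A π (c • (y * g)) (w * x) := by
    rw [smul_eq_algebraMap_mul, ← mul_assoc, ← smul_eq_algebraMap_mul]
    exact hcw.mul hg
  obtain ⟨i, hi⟩ : ∃ i, (w * x).coeff i ≠ 0 := by
    by_contra hall
    push Not at hall
    exact mul_ne_zero hw hx (HahnSeries.ext (funext hall))
  have h1 := hmul.coeff_valuation_eq_one S.surj hi
  rw [coeff_smulC, map_mul] at h1
  intro j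
  have h2 := hcw.boundedBy j
  rw [coeff_smulC, map_mul] at h2
  have hc0 : 0 < A.valuation c := zero_lt_iff.mpr ((A.valuation.ne_zero_iff).mpr hc)
  refine le_of_mul_le_mul_left ?_ hc0
  exact h2.trans (h1.symm.le.trans (mul_le_mul' le_rfl (h i)))

/-! ### Representatives -/

/-- `num / den` represents the class `z` at level `r`. -/
structure IsRep (z : Pic0 K S.F) (num den : S.F) (m : ℤ) (r : A.ValueGroup) : Prop where
  regular : ∃ n : ℤ, (num : LaurentSeries K) ∈ S.space (S.atPt n)
  exact : IsExact den m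
  lt_one : r < 1
  close : BoundedBy A ((num : LaurentSeries K) - (den : LaurentSeries K)) r
  class_eq : z = badHom (S := S) (badPart (S := S) (fdiv num))

/-- The relative difference of a representative. -/
def dev (num den : S.F) : LaurentSeries K :=
  ((num : LaurentSeries K) - (den : LaurentSeries K)) * (den : LaurentSeries K)⁻¹

theorem one_add_dev {num den : S.F} (h : (den : LaurentSeries K) ≠ 0) :
    1 + dev num den = (num : LaurentSeries K) * (den : LaurentSeries K)⁻¹ := by
  rw [dev, sub_mul, mul_inv_cancel₀ h]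
  ring

/-- The tangent of a representative. -/
def Forms.tang (Φ : Forms S) (num den : S.F) : Fin S.g → K := Φ.pair (dev num den)

variable {z z' : Pic0 K S.F} {num den num' den' : S.F} {m m' : ℤ} {r r' : A.ValueGroup}

theorem IsRep.exists_red (h : IsRep z num den m r) :
    ∃ x : LaurentSeries k, x ≠ 0 ∧ x.order = -m ∧ Red A π (den : LaurentSeries K) x ∧
      Red A π (num : LaurentSeries K) x := by
  obtain ⟨x, hx, hxo, hred⟩ := h.exact.2
  refine ⟨x, hx, hxo, hred, ?_⟩
  have := hred.add (boundedBy_of_lt_of_red S.surj h.close h.lt_one)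
  rwa [add_sub_cancel, add_zero] at this

theorem IsRep.ne_zero (h : IsRep z num den m r) : num ≠ 0 := by
  obtain ⟨x, hx, -, -, hred⟩ := h.exists_red
  rintro rfl
  exact hx (hred.unique red_zero)

theorem IsRep.boundedBy_num (h : IsRep z num den m r) :
    BoundedBy A (num : LaurentSeries K) 1 := by
  obtain ⟨x, -, -, -, hred⟩ := h.exists_red
  exact hred.boundedBy

theorem IsRep.mono (h : IsRep z num den m r) (hr : r ≤ r') (hr' : r' < 1) :
    IsRep z num den m r' :=
  ⟨h.regular, h.exact, hr', h.close.mono hr, h.class_eq⟩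

theorem IsRep.boundedBy_dev (h : IsRep z num den m r) : BoundedBy A (dev num den) r :=
  (h.close.mul (boundedBy_inv h.exact.isLeadUnit.1)).mono (mul_one r).le

/-- The product of representatives represents the sum of the classes. -/
theorem IsRep.mul (h : IsRep z num den m r) (h' : IsRep z' num' den' m' r') :
    IsRep (z + z') (num * num') (den * den') (m + m') (max r r') := by
  obtain ⟨n, hn⟩ := h.regular
  obtain ⟨n', hn'⟩ := h'.regular
  refine ⟨⟨n + n', ?_⟩, h.exact.mul h'.exact, max_lt h.lt_one h'.lt_one, ?_, ?_⟩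
  · rw [S.atPt_add, MulMemClass.coe_mul]
    exact S.mul_mem_space hn hn'
  · rw [MulMemClass.coe_mul, MulMemClass.coe_mul,
      show (num : LaurentSeries K) * num' - den * den' =
        ((num : LaurentSeries K) - (den : LaurentSeries K)) * num' +
          den * ((num' : LaurentSeries K) - den') by ring]
    exact boundedBy_add
      ((h.close.mul h'.boundedBy_num).mono (by rw [mul_one]; exact le_max_left _ _))
      ((h.exact.boundedBy.mul h'.close).mono (by rw [one_mul]; exact le_max_right _ _))
  · rw [fdiv_mul h.ne_zero h'.ne_zero, map_add, map_add, ← h.class_eq, ← h'.class_eq]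

theorem dev_mul (h : (den : LaurentSeries K) ≠ 0) (h' : (den' : LaurentSeries K) ≠ 0) :
    dev (num * num') (den * den') =
      dev num den + dev num' den' + dev num den * dev num' den' := by
  have e1 := one_add_dev (num := num) h
  have e2 := one_add_dev (num := num') h'
  have e3 := one_add_dev (num := num * num') (den := den * den')
    (by rw [MulMemClass.coe_mul]; exact mul_ne_zero h h')
  rw [MulMemClass.coe_mul, MulMemClass.coe_mul, mul_inv] at e3
  linear_combination e3 - (1 + dev num' den') * e1 -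
    (num : LaurentSeries K) * (den : LaurentSeries K)⁻¹ * e2

/-- The tangent is additive modulo the product of the levels. -/
theorem Forms.tang_mul (Φ : Forms S) (h : IsRep z num den m r) (h' : IsRep z' num' den' m' r')
    (i : Fin S.g) :
    A.valuation (Φ.tang (num * num') (den * den') i - (Φ.tang num den i + Φ.tang num' den' i)) ≤
      r * r' := by
  rw [Forms.tang, dev_mul h.exact.coe_ne_zero h'.exact.coe_ne_zero, Φ.pair_add, Φ.pair_add,
    Forms.tang, Forms.tang, Pi.add_apply, Pi.add_apply, add_sub_cancel_left]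
  exact Φ.valuation_pair_boundedBy (h.boundedBy_dev.mul h'.boundedBy_dev) i

/-- The decomposition of a representative of the trivial class. -/
theorem IsRep.exists_decomp (hgap : S.GapBound n₀) (h : IsRep (0 : Pic0 K S.F) num den m r) :
    ∃ a b : LaurentSeries K, (∃ n : ℤ, a ∈ S.space (S.atPt n)) ∧ a.coeff 0 = 0 ∧
      BoundedBy A a r ∧ PoleLE 0 b ∧ BoundedBy A b r ∧ dev num den = a + b + a * b := by
  obtain ⟨n, hn⟩ := h.regular
  obtain ⟨x, hx, hxo, hdenx, hnumx⟩ := h.exists_red
  have hnum := h.ne_zero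
  set R := badPart (S := S) (fdiv num) with hR
  obtain ⟨f₀, hf₀, hdiv₀⟩ := principal_of_badHom_eq_zero (R := R) h.class_eq.symm
  set d := Divisor.degree R with hd
  have hf₀n : (f₀ : LaurentSeries K) ∈ S.space (S.atPt (n + d)) := by
    refine S.coe_mem_space.mpr fun v => Or.inr ?_
    have h1 := isEff_fdiv_add hnum hn v
    rw [← fdiv_apply hf₀, hdiv₀, Finsupp.sub_apply, S.atPt_add, Finsupp.add_apply]
    by_cases hb : IsBad v
    · rw [hR, badPart_apply_bad hb]
      rw [Finsupp.add_apply] at h1
      omega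
    · have hvp : v ≠ S.pt := fun hvp => hb (hvp ▸ isBad_pt)
      rw [hR, badPart_apply_good hb, S.atPt_of_ne _ hvp, S.atPt_of_ne _ hvp]
      omega
  -- normalise `f₀`
  obtain ⟨c, hc, w, hw, hcw⟩ := S.normalizable_space (S.offNonpos_atPt _) _ hf₀n
    (fun h0 => hf₀ (Subtype.ext h0))
  set f₁ : S.F := algebraMap K S.F c * f₀ with hf₁
  have hf₁ne : f₁ ≠ 0 := mul_ne_zero ((map_ne_zero _).mpr hc) hf₀
  have hf₁s : (f₁ : LaurentSeries K) = c • (f₀ : LaurentSeries K) := by
    rw [hf₁]; push_cast; rw [← smul_eq_algebraMap_mul]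
  have hf₁n : (f₁ : LaurentSeries K) ∈ S.space (S.atPt (n + d)) :=
    hf₁s ▸ Submodule.smul_mem _ c hf₀n
  have hwC : w ∈ S.Cbar := ⟨(n + d).toNat, c • (f₀ : LaurentSeries K),
    S.space_atPt_mono (Int.self_le_toNat _) (Submodule.smul_mem _ c hf₀n), hcw⟩
  have hbadf : badPart (S := S) (fdiv f₁) = fdiv f₁ := by
    rw [hf₁, fdiv_algebraMap_mul hc hf₀, hdiv₀, map_sub, badPart_atPt, hR,
      badPart_eq_self (isBadDiv_badPart _)]
  have hwo : w.order = 0 := by
    have h2 := goodDeg_fdiv hgap hf₁n hw (hf₁s ▸ hcw)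
    rw [goodDeg, hbadf, sub_self] at h2
    omega
  have hw0 : w.coeff 0 ≠ 0 := by
    rw [← hwo]
    exact fun h0 => hw (HahnSeries.coeff_order_eq_zero.mp h0)
  set u₀ : K := (f₁ : LaurentSeries K).coeff 0 with hu₀
  obtain ⟨hu₀A, hu₀π⟩ := (hf₁s ▸ hcw : Red A π (f₁ : LaurentSeries K) w) 0
  have hu₀v : A.valuation u₀ = 1 :=
    (hf₁s ▸ hcw : Red A π (f₁ : LaurentSeries K) w).coeff_valuation_eq_one S.surj hw0
  have hu₀ne : u₀ ≠ 0 := fun h0 => by rw [h0, map_zero] at hu₀v; exact zero_ne_one hu₀v
  have hinvA : u₀⁻¹ ∈ A := by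
    rw [← ValuationSubring.valuation_le_one_iff, map_inv₀, hu₀v, inv_one]
  set f : S.F := algebraMap K S.F u₀⁻¹ * f₁ with hf
  have hfs : (f : LaurentSeries K) = u₀⁻¹ • (f₁ : LaurentSeries K) := by
    rw [hf]; push_cast; rw [← map_inv₀, ← smul_eq_algebraMap_mul]
  have hfne : f ≠ 0 := mul_ne_zero ((map_ne_zero _).mpr (inv_ne_zero hu₀ne)) hf₁ne
  have hfred : Red A π (f : LaurentSeries K) 1 := by
    have h3 := (hf₁s ▸ hcw : Red A π (f₁ : LaurentSeries K) w).smul (⟨_, hinvA⟩ : A)
    rw [← hfs] at h3
    convert h3 using 1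
    have hmul : π ⟨_, hinvA⟩ * w.coeff 0 = 1 := by
      rw [← hu₀π, ← map_mul, ← map_one π]
      exact congrArg π (Subtype.ext (inv_mul_cancel₀ hu₀ne))
    rw [hgap.eq_const_of_order_eq_zero hwC hwo, smul_eq_algebraMap_mul, ← map_mul, hmul, map_one]
  have hf0 : (f : LaurentSeries K).coeff 0 = 1 := by
    rw [hfs, coeff_smulC, inv_mul_cancel₀ hu₀ne]
  have hfn : (f : LaurentSeries K) ∈ S.space (S.atPt (n + d)) :=
    hfs ▸ Submodule.smul_mem _ _ hf₁n
  have hfdiv : fdiv f = R - S.atPt d := by
    rw [hf, fdiv_algebraMap_mul (inv_ne_zero hu₀ne) hf₁ne, hf₁, fdiv_algebraMap_mul hc hf₀, hdiv₀]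
  -- the good part
  set G : S.F := num / f with hG
  have hGmul : (G : LaurentSeries K) * (f : LaurentSeries K) = (num : LaurentSeries K) := by
    rw [← MulMemClass.coe_mul, hG, div_mul_cancel₀ _ hfne]
  have hGne : G ≠ 0 := div_ne_zero hnum hfne
  have hgd : goodDeg (fdiv num) = m := by rw [goodDeg_fdiv hgap hn hx hnumx, hxo, neg_neg]
  have hdm : d = -m := by
    rw [goodDeg, degree_fdiv, zero_sub, ← hR, ← hd] at hgd
    omega
  have hGm : (G : LaurentSeries K) ∈ S.space (S.atPt m) := by
    refine S.coe_mem_space.mpr fun v => Or.inr ?_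
    rw [← fdiv_apply hGne, hG, fdiv_div hnum hfne, hfdiv, Finsupp.sub_apply, Finsupp.sub_apply]
    by_cases hb : IsBad v
    · rw [hR, badPart_apply_bad hb]
      rcases eq_or_ne v S.pt with rfl | hvp
      · rw [S.atPt_self, S.atPt_self]; omega
      · rw [S.atPt_of_ne _ hvp, S.atPt_of_ne _ hvp]; omega
    · have hvp : v ≠ S.pt := fun hvp => hb (hvp ▸ isBad_pt)
      have h1 := isEff_fdiv_add hnum hn v
      rw [Finsupp.add_apply, S.atPt_of_ne _ hvp, add_zero] at h1
      rw [hR, badPart_apply_good hb, S.atPt_of_ne _ hvp, S.atPt_of_ne _ hvp]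
      omega
  have hGred : Red A π (G : LaurentSeries K) x := by
    obtain ⟨c', hc', w', hw', hcw'⟩ := S.normalizable_space (S.offNonpos_atPt _) _ hGm
      (fun h0 => hGne (Subtype.ext h0))
    obtain ⟨x', hx', hxe⟩ := red_of_mul S.surj hc' hw' hcw' hfred one_ne_zero (hGmul ▸ hnumx)
    rw [mul_one] at hxe
    rwa [hxe] at hx'
  have hGex : IsExact G m := ⟨hGm, x, hx, hxo, hGred⟩
  -- the two parts
  set a : LaurentSeries K := (f : LaurentSeries K) - 1 with ha
  set b : LaurentSeries K := dev G den with hb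
  have hden := h.exact.coe_ne_zero
  have hdev : dev num den = a + b + a * b := by
    have e1 := one_add_dev (num := num) hden
    have e2 := one_add_dev (num := G) hden
    rw [hb, ha]
    linear_combination e1 - (f : LaurentSeries K) * e2 -
      (den : LaurentSeries K)⁻¹ * hGmul
  have hb0 : PoleLE 0 b := by
    have hp : PoleLE m ((G : LaurentSeries K) - (den : LaurentSeries K)) := by
      have h1 := S.poleLE_space hGex.1
      have h2 := S.poleLE_space h.exact.1
      rw [S.atPt_self] at h1 h2
      exact (poleLESubmodule K m).sub_mem h1 h2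
    have h3 := hp.mul (poleLE_inv hden)
    rwa [h.exact.isLeadUnit.2, add_neg_cancel] at h3
  have ha0 : a.coeff 0 = 0 := by
    rw [ha, HahnSeries.coeff_sub, hf0, HahnSeries.coeff_one, if_pos rfl, sub_self]
  have hamem : ∃ N : ℤ, a ∈ S.space (S.atPt N) :=
    ⟨max (n + d) 0, Submodule.sub_mem _ (S.space_atPt_mono (le_max_left _ _) hfn)
      (S.one_mem_space fun v => S.atPt_nonneg (le_max_right _ _) v)⟩
  obtain ⟨N, hN⟩ := hamem
  -- multiply by the inverse of `G`
  have hGinv := boundedBy_inv hGex.isLeadUnit.1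
  have hGs : (G : LaurentSeries K) ≠ 0 := hGex.coe_ne_zero
  have hkey : a + ((G : LaurentSeries K) - (den : LaurentSeries K)) * (G : LaurentSeries K)⁻¹ =
      ((num : LaurentSeries K) - (den : LaurentSeries K)) * (G : LaurentSeries K)⁻¹ := by
    have e3 : (G : LaurentSeries K) * (G : LaurentSeries K)⁻¹ = 1 := mul_inv_cancel₀ hGs
    rw [ha]
    linear_combination (1 - (f : LaurentSeries K)) * e3 +
      (G : LaurentSeries K)⁻¹ * hGmul
  have hrhs : BoundedBy A
      (((num : LaurentSeries K) - (den : LaurentSeries K)) * (G : LaurentSeries K)⁻¹) r :=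
    (h.close.mul hGinv).mono (mul_one r).le
  have habd : BoundedBy A a r := by
    refine boundedBy_of_nonpos hgap hN fun i hi => ?_
    rcases hi.lt_or_eq with hlt | rfl
    · have hp : PoleLE 0
        (((G : LaurentSeries K) - (den : LaurentSeries K)) * (G : LaurentSeries K)⁻¹) := by
        have h1 := S.poleLE_space hGex.1
        have h2 := S.poleLE_space h.exact.1
        rw [S.atPt_self] at h1 h2
        have h3 := ((poleLESubmodule K m).sub_mem h1 h2 :
          PoleLE m ((G : LaurentSeries K) - (den : LaurentSeries K))).mul (poleLE_inv hGs)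
        rwa [hGex.isLeadUnit.2, add_neg_cancel] at h3
      have h4 := congrArg (fun y : LaurentSeries K => y.coeff i) hkey
      simp only [HahnSeries.coeff_add, hp i (by omega), add_zero] at h4
      rw [h4]
      exact hrhs i
    · rw [ha0, map_zero]; exact zero_le
  have hGd : BoundedBy A ((G : LaurentSeries K) - (den : LaurentSeries K)) r := by
    rw [show (G : LaurentSeries K) - den =
        ((num : LaurentSeries K) - (den : LaurentSeries K)) - a * (G : LaurentSeries K)
          by rw [ha, ← hGmul]; ring]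
    exact boundedBy_sub h.close ((habd.mul hGex.boundedBy).mono (mul_one r).le)
  exact ⟨a, b, ⟨N, hN⟩, ha0, habd, hb0,
    (hGd.mul (boundedBy_inv h.exact.isLeadUnit.1)).mono (mul_one r).le, hdev⟩

/-- The trivial representative of the zero class. -/
theorem isRep_one {r : A.ValueGroup} (hr : r < 1) : IsRep (0 : Pic0 K S.F) 1 1 0 r :=
  ⟨⟨0, by rw [OneMemClass.coe_one]; exact S.one_mem_space fun v => S.atPt_nonneg le_rfl v⟩,
    isExact_one, hr, by rw [sub_self]; exact boundedBy_zero r,
    by rw [fdiv_one, map_zero, map_zero]⟩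

theorem tang_one (Φ : Forms S) : Φ.tang (1 : S.F) 1 = 0 := by
  rw [Forms.tang, dev, sub_self, zero_mul, Φ.pair_zero]

/-- A function vanishing on the bad zeros of `num` which is close to one. -/
theorem IsRep.exists_unit (hgap : S.GapBound n₀) (h : IsRep z num den m r) :
    ∃ (U X : S.F) (mX : ℤ), IsExact X mX ∧ (∃ N : ℤ, (U : LaurentSeries K) ∈ S.space (S.atPt N)) ∧
      BoundedBy A ((U : LaurentSeries K) - 1) r ∧
      ∃ N : ℤ, ((U * X / num : S.F) : LaurentSeries K) ∈ S.space (S.atPt N) := by
  classical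
  obtain ⟨n, hn⟩ := h.regular
  obtain ⟨x, hx, hxo, hdenx, hnumx⟩ := h.exists_red
  have hnum := h.ne_zero
  set E := fdiv num + S.atPt n with hE
  have hEeff : S.IsEff E := isEff_fdiv_add hnum hn
  set R := badPart (S := S) E with hR
  set G := E - R with hG
  have hGgood : IsGoodDiv G := isGoodDiv_sub_badPart E
  have hGeff : S.IsEff G := isEff_sub_badPart hEeff
  have hReff : S.IsEff R := isEff_badPart hEeff
  have hRbad : IsBadDiv R := isBadDiv_badPart E
  have hRdeg : Divisor.degree R = n - m := by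
    have h1 := goodDeg_fdiv hgap hn hx hnumx
    rw [hR, hE, map_add, badPart_atPt, map_add, S.degree_atPt]
    rw [goodDeg, degree_fdiv, hxo] at h1
    omega
  -- an exact section vanishing on the good zeros
  obtain ⟨BX, hBX⟩ := exists_isExact hgap hGeff hGgood
  set mX := BX with hmX
  obtain ⟨X, hX, hXG⟩ := hBX BX le_rfl
  -- lifts of the regular functions of pole order at most `M`
  obtain ⟨B₀, hB₀⟩ := exists_isExact hgap (E := (0 : Divisor K S.F)) (fun v => le_rfl)
    (fun v hv => absurd rfl hv)
  set M : ℤ := max B₀ (n₀ : ℤ) with hM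
  have hMn : (n₀ : ℤ) ≤ M := le_max_right _ _
  have hlift : ∀ lam : S.F, (lam : LaurentSeries K) ∈ S.space (S.atPt (M + (n - m)) - R) →
      BoundedBy A (lam : LaurentSeries K) 1 →
      ∃ c ∈ S.space (S.atPt M), BoundedBy A ((lam : LaurentSeries K) - c) r := by
    intro lam hlam hlam1
    rcases eq_or_ne lam 0 with rfl | hlam0
    · exact ⟨0, Submodule.zero_mem _, by simpa using boundedBy_zero r⟩
    set mu : S.F := lam * X / num with hmu
    have hmune : mu ≠ 0 := div_ne_zero (mul_ne_zero hlam0 hX.ne_zero) hnum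
    have hmuP : (mu : LaurentSeries K) ∈ S.space (S.atPt (M + mX - m)) := by
      refine S.coe_mem_space.mpr fun v => Or.inr ?_
      rw [← fdiv_apply hmune, hmu, fdiv_div (mul_ne_zero hlam0 hX.ne_zero) hnum,
        fdiv_mul hlam0 hX.ne_zero, Finsupp.sub_apply, Finsupp.add_apply, fdiv_apply hlam0,
        fdiv_apply hX.ne_zero]
      have h1 := (S.coe_mem_space.mp hlam v).resolve_left hlam0
      have h2 := (S.coe_mem_space.mp hXG v).resolve_left hX.ne_zero
      have h3 : E v = fdiv num v + S.atPt n v := by rw [hE, Finsupp.add_apply]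
      rw [Finsupp.sub_apply] at h1 h2
      rw [hG, Finsupp.sub_apply] at h2
      rcases eq_or_ne v S.pt with rfl | hvp
      · simp only [atPt_self] at h1 h2 h3 ⊢
        omega
      · simp only [S.atPt_of_ne _ hvp] at h1 h2 h3 ⊢
        omega
    have hmunum : (mu : LaurentSeries K) * (num : LaurentSeries K) =
        (lam : LaurentSeries K) * (X : LaurentSeries K) := by
      rw [← MulMemClass.coe_mul, ← MulMemClass.coe_mul, hmu, div_mul_cancel₀ _ hnum]
    have hmu1 : BoundedBy A (mu : LaurentSeries K) 1 :=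
      boundedBy_of_mul_red (S.offNonpos_atPt _) hmuP hnumx hx
        (by rw [hmunum]; exact (hlam1.mul hX.boundedBy).mono (one_mul _).le)
    set y : LaurentSeries K := (lam : LaurentSeries K) * X with hy
    have hysmall : ∀ i, i < -(M + mX) → A.valuation (y.coeff i) ≤ r := by
      intro i hi
      have h1 : y = (mu : LaurentSeries K) * den +
          (mu : LaurentSeries K) * ((num : LaurentSeries K) - (den : LaurentSeries K)) := by
        show (lam : LaurentSeries K) * X = _
        linear_combination -hmunum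
      have hpole : ((mu : LaurentSeries K) * den).coeff i = 0 := by
        have h2 := S.poleLE_space hmuP
        have h3 := S.poleLE_space h.exact.1
        rw [S.atPt_self] at h2 h3
        exact coeff_mul_eq_zero_of_poleLE h2 h3 (by omega)
      rw [h1, HahnSeries.coeff_add, hpole, zero_add]
      exact ((hmu1.mul h.close).mono (one_mul r).le) i
    have hlsmall : ∀ i, i < -M → A.valuation ((lam : LaurentSeries K).coeff i) ≤ r := by
      intro i hi
      have h1 : (lam : LaurentSeries K) = y * (X : LaurentSeries K)⁻¹ := by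
        rw [hy, mul_inv_cancel_right₀ hX.coe_ne_zero]
      rw [h1, HahnSeries.coeff_mul]
      refine A.valuation.map_sum_le fun ab hab => ?_
      rw [Finset.mem_antidiagonal] at hab
      obtain ⟨-, hb, hsum⟩ := hab
      have hbm : mX ≤ ab.2 := by
        by_contra hlt
        have h2 := poleLE_inv hX.coe_ne_zero ab.2
        rw [hX.isLeadUnit.2] at h2
        exact hb (h2 (by omega))
      rw [map_mul]
      exact (mul_le_mul' (hysmall _ (by omega)) ((boundedBy_inv hX.isLeadUnit.1) _)).trans_eq
        (mul_one r)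
    have hlamN : (lam : LaurentSeries K) ∈ S.space (S.atPt (M + (n - m)) - 0) :=
      S.space_mono (fun v => by
        rw [Finsupp.sub_apply, Finsupp.sub_apply, Finsupp.zero_apply, sub_zero]
        have := hReff v
        omega) hlam
    obtain ⟨c, hc, hcb⟩ := exists_lower (E := (0 : Divisor K S.F)) (fun v => le_rfl) (M := M)
      (fun k hk => hB₀ k ((le_max_left _ _).trans hk.le)) hlamN hlsmall
    exact ⟨c, by rwa [sub_zero] at hc, hcb⟩
  -- a basis of reductions
  have := hgap.finite M
  let bs := Module.finBasis k (S.regularSub M)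
  have hredeq : redSub S.surj (S.space (S.atPt (M + (n - m)) - R)) = S.regularSub M := by
    rw [redSub_bad_eq hgap hReff hRbad (by omega), hRdeg]
    congr 1
    ring
  have hex : ∀ j, ∃ lam : S.F,
      (lam : LaurentSeries K) ∈ S.space (S.atPt (M + (n - m)) - R) ∧
      Red A π (lam : LaurentSeries K) ((bs j : S.regularSub M) : LaurentSeries k) ∧
      ∃ c ∈ S.space (S.atPt M), BoundedBy A ((lam : LaurentSeries K) - c) r := by
    intro j
    obtain ⟨y, hy, hyx⟩ := (hredeq.symm ▸ (bs j).2 :
      ((bs j : S.regularSub M) : LaurentSeries k) ∈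
        redSub S.surj (S.space (S.atPt (M + (n - m)) - R)))
    obtain ⟨lam, rfl, -⟩ := S.exists_of_mem_space hy
    exact ⟨lam, hy, hyx, hlift lam hy hyx.boundedBy⟩
  choose lam hlam hlamred c hc hcb using hex
  have hcred : ∀ j, Red A π (c j) ((bs j : S.regularSub M) : LaurentSeries k) := fun j => by
    have h1 := (hlamred j).sub (boundedBy_of_lt_of_red S.surj (hcb j) h.lt_one)
    rwa [sub_sub_cancel, sub_zero] at h1
  have hindep : LinearIndependent k fun j => ((bs j : S.regularSub M) : LaurentSeries k) :=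
    bs.linearIndependent.map' (S.regularSub M).subtype (Submodule.ker_subtype _)
  have := S.finiteDimensional_space (S.atPt M)
  have hcli : LinearIndependent K fun j => (⟨c j, hc j⟩ : S.space (S.atPt M)) :=
    LinearIndependent.of_comp (S.space (S.atPt M)).subtype
      (linearIndependent_of_red S.surj hcred hindep)
  have hcard : Fintype.card (Fin (Module.finrank k (S.regularSub M))) =
      Module.finrank K (S.space (S.atPt M)) := by
    rw [Fintype.card_fin, ← hgap.redSub_eq hMn,
      finrank_redSub S.surj _ (S.normalizable_space (S.offNonpos_atPt M))]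
  have hMnn : 0 ≤ M := (Int.natCast_nonneg n₀).trans hMn
  have hone : (1 : LaurentSeries K) ∈ S.space (S.atPt M) :=
    S.one_mem_space fun v => S.atPt_nonneg hMnn v
  have hspan := hcli.span_eq_top_of_card_eq_finrank' hcard
  obtain ⟨a, ha⟩ := (Submodule.mem_span_range_iff_exists_fun K).mp
    (hspan.symm ▸ (Submodule.mem_top : (⟨1, hone⟩ : S.space (S.atPt M)) ∈ ⊤))
  have ha' : ∑ j, a j • c j = 1 := by
    have := congrArg Subtype.val ha
    simpa using this
  -- the coordinates are integral
  have haint : ∀ j, A.valuation (a j) ≤ 1 := by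
    by_contra hne
    push Not at hne
    obtain ⟨j₁, hj₁⟩ := hne
    have : Nonempty (Fin (Module.finrank k (S.regularSub M))) := ⟨j₁⟩
    obtain ⟨j₀, hj₀⟩ := exists_max_valuation (A := A) a
    have hbig : 1 < A.valuation (a j₀) := hj₁.trans_le (hj₀ j₁)
    have ha0 : a j₀ ≠ 0 := fun h0 => by rw [h0, map_zero] at hbig; exact not_lt_bot hbig
    have hmem : ∀ j, a j / a j₀ ∈ A := fun j => by
      rw [← ValuationSubring.valuation_le_one_iff, map_div₀]
      exact (div_le_one₀ (zero_lt_iff.mpr ((A.valuation.ne_zero_iff).mpr ha0))).mpr (hj₀ j)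
    have hsum : Red A π (∑ j, ((⟨_, hmem j⟩ : A) : K) • c j)
        (∑ j, π ⟨_, hmem j⟩ • ((bs j : S.regularSub M) : LaurentSeries k)) :=
      Red.sum Finset.univ fun j _ => (hcred j).smul _
    have hlhs : (∑ j, ((⟨_, hmem j⟩ : A) : K) • c j) = (a j₀)⁻¹ • (1 : LaurentSeries K) := by
      rw [← ha', Finset.smul_sum]
      refine Finset.sum_congr rfl fun j _ => ?_
      rw [smul_smul]
      exact congrArg (· • c j) (div_eq_inv_mul _ _)
    have hsmall : Red A π ((a j₀)⁻¹ • (1 : LaurentSeries K)) 0 := by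
      refine boundedBy_of_lt_of_red S.surj (r := A.valuation (a j₀)⁻¹)
        ((boundedBy_smul _ (red_one (A := A) (π := π)).boundedBy).mono (mul_one _).le) ?_
      rw [map_inv₀]
      exact inv_lt_one_of_one_lt₀ hbig
    rw [hlhs] at hsum
    have hz := hsum.unique hsmall
    have h1 := Fintype.linearIndependent_iff.mp hindep _ hz j₀
    rw [show (⟨a j₀ / a j₀, hmem j₀⟩ : A) = 1 from Subtype.ext (div_self ha0), map_one] at h1
    exact one_ne_zero h1
  set U : S.F := ∑ j, algebraMap K S.F (a j) * lam j with hU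
  have hUs : (U : LaurentSeries K) = ∑ j, a j • (lam j : LaurentSeries K) := by
    rw [hU, AddSubmonoidClass.coe_finsetSum]
    refine Finset.sum_congr rfl fun j _ => ?_
    push_cast
    rw [← smul_eq_algebraMap_mul]
  have hUmem : (U : LaurentSeries K) ∈ S.space (S.atPt (M + (n - m)) - R) :=
    hUs ▸ Submodule.sum_mem _ fun j _ => Submodule.smul_mem _ _ (hlam j)
  have hU1 : BoundedBy A ((U : LaurentSeries K) - 1) r := by
    rw [hUs, ← ha', ← Finset.sum_sub_distrib]
    refine boundedBy_sum _ fun j _ => ?_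
    rw [← smul_sub]
    exact (boundedBy_smul _ (hcb j)).mono (mul_le_of_le_one_left' (haint j))
  have hUne : U ≠ 0 := by
    intro h0
    have h1 := (boundedBy_of_lt_of_red S.surj hU1 h.lt_one).add (red_one (A := A) (π := π))
    rw [sub_add_cancel, zero_add, h0] at h1
    exact one_ne_zero (h1.unique red_zero)
  refine ⟨U, X, mX, hX, ⟨M + (n - m), S.space_mono (fun v => ?_) hUmem⟩, hU1,
    M + mX - m, ?_⟩
  · rw [Finsupp.sub_apply]
    have := hReff v
    omega
  · refine S.coe_mem_space.mpr fun v => Or.inr ?_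
    rw [← fdiv_apply (div_ne_zero (mul_ne_zero hUne hX.ne_zero) hnum),
      fdiv_div (mul_ne_zero hUne hX.ne_zero) hnum,
      fdiv_mul hUne hX.ne_zero, Finsupp.sub_apply, Finsupp.add_apply, fdiv_apply hUne,
      fdiv_apply hX.ne_zero]
    have h1 := (S.coe_mem_space.mp hUmem v).resolve_left hUne
    have h2 := (S.coe_mem_space.mp hXG v).resolve_left hX.ne_zero
    have h3 : E v = fdiv num v + S.atPt n v := by rw [hE, Finsupp.add_apply]
    rw [Finsupp.sub_apply] at h1 h2
    rw [hG, Finsupp.sub_apply] at h2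
    rcases eq_or_ne v S.pt with rfl | hvp
    · simp only [atPt_self] at h1 h2 h3 ⊢
      omega
    · simp only [S.atPt_of_ne _ hvp] at h1 h2 h3 ⊢
      omega

/-- **Negation.** -/
theorem IsRep.exists_neg (hgap : S.GapBound n₀) (h : IsRep z num den m r) :
    ∃ num' den' m', IsRep (-z) num' den' m' r := by
  obtain ⟨x, hx, -, hdenx, hnumx⟩ := h.exists_red
  obtain ⟨U, X, mX, hX, ⟨NU, hUmem⟩, hU1, NQ, hQ⟩ := h.exists_unit hgap
  have hnum := h.ne_zero
  have hUred : Red A π (U : LaurentSeries K) 1 := by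
    have h1 := (boundedBy_of_lt_of_red S.surj hU1 h.lt_one).add (red_one (A := A) (π := π))
    rwa [sub_add_cancel, zero_add] at h1
  have hUne : U ≠ 0 := by
    rintro rfl
    exact one_ne_zero (hUred.unique red_zero)
  set w : S.F := U * X / num * den with hw
  have hwnum' : w * num = U * X * den := by
    rw [hw, mul_right_comm, div_mul_cancel₀ _ hnum]
  obtain ⟨Nw, hNw⟩ : ∃ N : ℤ, (w : LaurentSeries K) ∈ S.space (S.atPt N) := by
    refine ⟨NQ + m, ?_⟩
    have hprod : (w : LaurentSeries K) =
        ((U * X / num : S.F) : LaurentSeries K) * (den : LaurentSeries K) := rfl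
    rw [S.atPt_add, hprod]
    exact S.mul_mem_space hQ h.exact.1
  have hwnum : (w : LaurentSeries K) * num =
      (U : LaurentSeries K) * X * den := by
    have h1 := congrArg Subtype.val hwnum'
    simpa only [MulMemClass.coe_mul] using h1
  refine ⟨w, X, mX, ⟨Nw, hNw⟩, hX, h.lt_one, ?_, ?_⟩
  · have hmem : (w : LaurentSeries K) - X ∈ S.space (S.atPt (max Nw mX)) :=
      Submodule.sub_mem _ (S.space_atPt_mono (le_max_left _ _) hNw)
        (S.space_atPt_mono (le_max_right _ _) hX.1)
    refine boundedBy_of_mul_red (S.offNonpos_atPt _) hmem hnumx hx ?_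
    rw [show ((w : LaurentSeries K) - X) * num =
        (X : LaurentSeries K) * (((U : LaurentSeries K) - 1) * den -
          ((num : LaurentSeries K) - (den : LaurentSeries K))) by linear_combination hwnum]
    refine (hX.boundedBy.mul (boundedBy_sub ?_ h.close)).mono (one_mul r).le
    exact (hU1.mul h.exact.boundedBy).mono (mul_one r).le
  · rw [hw, fdiv_mul (div_ne_zero (mul_ne_zero hUne hX.ne_zero) hnum) h.exact.ne_zero,
      fdiv_div (mul_ne_zero hUne hX.ne_zero) hnum, fdiv_mul hUne hX.ne_zero, map_add, map_sub,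
      map_add, map_add, map_sub, map_add, ← h.class_eq, hX.badHom_eq_zero hgap,
      h.exact.badHom_eq_zero hgap,
      badPart_fdiv_of_const hgap hUmem one_ne_zero HahnSeries.order_one hUred, badHom_fdiv]
    abel

/-- **The tangent is well defined**, with a finer bound for close representatives. -/
theorem Forms.valuation_tang_sub_le (Φ : Forms S) (hgap : S.GapBound n₀) {num₂ den₂ : S.F}
    {m₂ : ℤ} {s : A.ValueGroup} (h : IsRep z num den m r) (h₂ : IsRep z num₂ den₂ m₂ r)
    (hs : BoundedBy A (dev num den - dev num₂ den₂) s) (i : Fin S.g) :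
    A.valuation (Φ.tang num den i - Φ.tang num₂ den₂ i) ≤ r * max s (r * r) := by
  obtain ⟨numw, denw, mw, hw⟩ := h.exists_neg hgap
  have h1 := h.mul hw
  have h2 := h₂.mul hw
  rw [add_neg_cancel, max_self] at h1 h2
  obtain ⟨a₁, b₁, ⟨N₁, hN₁⟩, ha₁0, ha₁, hb₁0, hb₁, e₁⟩ := h1.exists_decomp hgap
  obtain ⟨a₂, b₂, ⟨N₂, hN₂⟩, ha₂0, ha₂, hb₂0, hb₂, e₂⟩ := h2.exists_decomp hgap
  rw [dev_mul h.exact.coe_ne_zero hw.exact.coe_ne_zero] at e₁
  rw [dev_mul h₂.exact.coe_ne_zero hw.exact.coe_ne_zero] at e₂
  set δ₁ := dev num den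
  set δ₂ := dev num₂ den₂
  set δw := dev numw denw
  have hδw : BoundedBy A δw r := hw.boundedBy_dev
  set u := max s (r * r) with hu
  -- the difference of the two decompositions
  have hD : BoundedBy A ((a₁ - a₂) + (b₁ - b₂)) u := by
    rw [show (a₁ - a₂) + (b₁ - b₂) =
        (δ₁ - δ₂) + (δ₁ - δ₂) * δw - (a₁ * b₁ - a₂ * b₂) by linear_combination e₂ - e₁]
    refine boundedBy_sub (boundedBy_add (hs.mono (le_max_left _ _)) ((hs.mul hδw).mono ?_))
      (boundedBy_sub ((ha₁.mul hb₁).mono (le_max_right _ _))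
        ((ha₂.mul hb₂).mono (le_max_right _ _)))
    exact (mul_le_of_le_one_right' h.lt_one.le).trans (le_max_left _ _)
  have hNmem : a₁ - a₂ ∈ S.space (S.atPt (max N₁ N₂)) :=
    Submodule.sub_mem _ (S.space_atPt_mono (le_max_left _ _) hN₁)
      (S.space_atPt_mono (le_max_right _ _) hN₂)
  have hda : BoundedBy A (a₁ - a₂) u := by
    refine boundedBy_of_nonpos hgap hNmem fun j hj => ?_
    rcases hj.lt_or_eq with hlt | rfl
    · have h3 := hD j
      rwa [HahnSeries.coeff_add, HahnSeries.coeff_sub (x := b₁), hb₁0 j (by omega),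
        hb₂0 j (by omega), sub_zero, add_zero] at h3
    · rw [HahnSeries.coeff_sub, ha₁0, ha₂0, sub_zero, map_zero]; exact zero_le
  have hdb : BoundedBy A (b₁ - b₂) u := by
    have h3 := boundedBy_sub hD hda
    rwa [add_sub_cancel_left] at h3
  have hsu : s * r ≤ r * u := by rw [mul_comm s r]; exact mul_le_mul' le_rfl (le_max_left _ _)
  have hmain : Φ.pair (δ₁ - δ₂) =
      Φ.pair ((a₁ - a₂) * b₁ + a₂ * (b₁ - b₂) - (δ₁ - δ₂) * δw) := by
    have key : δ₁ - δ₂ = ((a₁ - a₂) + (b₁ - b₂)) +
        ((a₁ - a₂) * b₁ + a₂ * (b₁ - b₂) - (δ₁ - δ₂) * δw) := by linear_combination e₁ - e₂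
    refine (congrArg Φ.pair key).trans ?_
    rw [Φ.pair_add, Φ.pair_add, Φ.pair_mem_space hNmem,
      Φ.pair_of_poleLE ((poleLESubmodule K 0).sub_mem hb₁0 hb₂0), zero_add, zero_add]
  rw [show Φ.tang num den i - Φ.tang num₂ den₂ i = Φ.pair (δ₁ - δ₂) i by
    rw [Φ.pair_sub]; rfl, hmain]
  refine Φ.valuation_pair_boundedBy (boundedBy_sub (boundedBy_add ?_ ?_) ?_) i
  · exact (hda.mul hb₁).mono (mul_comm u r).le
  · exact ha₂.mul hdb
  · exact (hs.mul hδw).mono hsu

/-- Two representatives at level `r` have congruent tangents modulo `r * r`. -/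
theorem Forms.valuation_tang_sub_le' (Φ : Forms S) (hgap : S.GapBound n₀) {num₂ den₂ : S.F}
    {m₂ : ℤ} (h : IsRep z num den m r) (h₂ : IsRep z num₂ den₂ m₂ r) (i : Fin S.g) :
    A.valuation (Φ.tang num den i - Φ.tang num₂ den₂ i) ≤ r * r := by
  refine (Φ.valuation_tang_sub_le hgap h h₂ (boundedBy_sub h.boundedBy_dev h₂.boundedBy_dev)
    i).trans (mul_le_mul' le_rfl (max_le le_rfl ?_))
  exact mul_le_of_le_one_right' h.lt_one.le

end Fermat.Agent.MazurStep
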